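import Mathlib

/-!
# Ree's theorem for three permutations (via Scott's lemma)

If three permutations of a finite set `X` with `n` elements have product `1` and generate a
transitive group, then `∑ (n - cyc σᵢ)` is even and at least `2 n - 2`, where `cyc σ` is the number
of orbits of `σ` on `X`.
-/

set_option autoImplicit false

namespace Fermat.Agent.X0

open Module

section scott

variable {k V : Type*} [Field k] [AddCommGroup V] [Module k V] [FiniteDimensional k V]

/-- **Scott's lemma** for three operators with `P₁ P₂ P₃ = 1` (`Qᵢ = 1 - Pᵢ`). -/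
theorem scott_three (P₁ P₂ P₃ Q₁ Q₂ Q₃ : V →ₗ[k] V) (h : ∀ v, P₁ (P₂ (P₃ v)) = v)
    (hQ₁ : ∀ v, Q₁ v = v - P₁ v) (hQ₂ : ∀ v, Q₂ v = v - P₂ v) (hQ₃ : ∀ v, Q₃ v = v - P₃ v) :
    (finrank k V - finrank k ↥(LinearMap.ker Q₁ ⊓ LinearMap.ker Q₂ ⊓ LinearMap.ker Q₃))
      + finrank k ↥(LinearMap.range Q₁ ⊔ LinearMap.range Q₂ ⊔ LinearMap.range Q₃)
      ≤ finrank k ↥(LinearMap.range Q₁) + finrank k ↥(LinearMap.range Q₂)
        + finrank k ↥(LinearMap.range Q₃) := by
  -- the two maps
  let β : V →ₗ[k] (LinearMap.range Q₁ × LinearMap.range Q₂ × LinearMap.range Q₃) :=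
    Q₁.rangeRestrict.prod (Q₂.rangeRestrict.prod Q₃.rangeRestrict)
  let δ : (LinearMap.range Q₁ × LinearMap.range Q₂ × LinearMap.range Q₃) →ₗ[k] V :=
    (LinearMap.range Q₁).subtype.coprod
      ((P₁ ∘ₗ (LinearMap.range Q₂).subtype).coprod
        ((P₁ ∘ₗ P₂) ∘ₗ (LinearMap.range Q₃).subtype))
  have hβ : ∀ v, β v = (⟨Q₁ v, LinearMap.mem_range_self Q₁ v⟩, ⟨Q₂ v, LinearMap.mem_range_self Q₂ v⟩, ⟨Q₃ v, LinearMap.mem_range_self Q₃ v⟩) := fun v => rfl
  have hδ : ∀ w : (LinearMap.range Q₁ × LinearMap.range Q₂ × LinearMap.range Q₃),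
      δ w = (w.1 : V) + (P₁ (w.2.1 : V) + P₁ (P₂ (w.2.2 : V))) := fun w => rfl
  have hδβ : ∀ v, δ (β v) = 0 := by
    intro v
    rw [hβ, hδ]
    simp only [hQ₁, hQ₂, hQ₃, map_sub, h]
    abel
  have hle : LinearMap.range β ≤ LinearMap.ker δ := by
    rintro _ ⟨v, rfl⟩
    exact hδβ v
  have hkerβ : LinearMap.ker β = LinearMap.ker Q₁ ⊓ LinearMap.ker Q₂ ⊓ LinearMap.ker Q₃ := by
    ext v
    rw [LinearMap.mem_ker, hβ]
    simp only [Prod.mk_eq_zero, Submodule.mem_inf, LinearMap.mem_ker, and_assoc]
    constructor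
    · rintro ⟨h1, h2, h3⟩
      exact ⟨congrArg Subtype.val h1, congrArg Subtype.val h2, congrArg Subtype.val h3⟩
    · rintro ⟨h1, h2, h3⟩
      exact ⟨Subtype.ext h1, Subtype.ext h2, Subtype.ext h3⟩
  have hrangeδ : LinearMap.range Q₁ ⊔ LinearMap.range Q₂ ⊔ LinearMap.range Q₃
      ≤ LinearMap.range δ := by
    have h1 : ∀ v, Q₁ v ∈ LinearMap.range δ := fun v =>
      ⟨(⟨Q₁ v, LinearMap.mem_range_self Q₁ v⟩, 0, 0), by rw [hδ]; simp⟩
    have h2' : ∀ v, P₁ (Q₂ v) ∈ LinearMap.range δ := fun v =>
      ⟨(0, ⟨Q₂ v, LinearMap.mem_range_self Q₂ v⟩, 0), by rw [hδ]; simp⟩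
    have h3' : ∀ v, P₁ (P₂ (Q₃ v)) ∈ LinearMap.range δ := fun v =>
      ⟨(0, 0, ⟨Q₃ v, LinearMap.mem_range_self Q₃ v⟩), by rw [hδ]; simp⟩
    have h2 : ∀ v, Q₂ v ∈ LinearMap.range δ := by
      intro v
      have e : Q₂ v = P₁ (Q₂ v) + Q₁ (Q₂ v) := by rw [hQ₁]; abel
      rw [e]
      exact add_mem (h2' v) (h1 _)
    have h3 : ∀ v, Q₃ v ∈ LinearMap.range δ := by
      intro v
      have e : Q₃ v = P₁ (P₂ (Q₃ v)) + (P₁ (Q₂ (Q₃ v)) + Q₁ (Q₃ v)) := by
        rw [hQ₁, hQ₂ (Q₃ v), map_sub]; abel
      rw [e]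
      exact add_mem (h3' v) (add_mem (h2' _) (h1 _))
    refine sup_le (sup_le ?_ ?_) ?_
    · rintro _ ⟨v, rfl⟩; exact h1 v
    · rintro _ ⟨v, rfl⟩; exact h2 v
    · rintro _ ⟨v, rfl⟩; exact h3 v
  have e1 := LinearMap.finrank_range_add_finrank_ker β
  have e2 := LinearMap.finrank_range_add_finrank_ker δ
  have e3 : finrank k (LinearMap.range Q₁ × LinearMap.range Q₂ × LinearMap.range Q₃)
      = finrank k (LinearMap.range Q₁) + finrank k (LinearMap.range Q₂)
        + finrank k (LinearMap.range Q₃) := by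
    rw [Module.finrank_prod, Module.finrank_prod, add_assoc]
  have e4 := Submodule.finrank_mono hle
  have e5 := Submodule.finrank_mono hrangeδ
  rw [hkerβ] at e1
  omega

end scott


namespace Ree

variable {G X : Type*} [Group G] [MulAction G X]

/-- number of orbits of the cyclic group `⟨g⟩` on `X`. -/
noncomputable def cyc (X : Type*) [MulAction G X] (g : G) : ℕ :=
  Nat.card (MulAction.orbitRel.Quotient (Subgroup.zpowers g) X)

lemma cyc_inv (g : G) : cyc X g⁻¹ = cyc X g := by
  unfold cyc; rw [Subgroup.zpowers_inv]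

/-- the subgroup of elements leaving a function invariant -/
def invSubgroup (f : X → ℚ) : Subgroup G where
  carrier := {h | ∀ x, f (h • x) = f x}
  one_mem' := by intro x; simp
  mul_mem' := by
    intro a b ha hb x
    rw [mul_smul, ha, hb]
  inv_mem' := by
    intro a ha x
    have := ha (a⁻¹ • x)
    rw [smul_inv_smul] at this
    exact this.symm

lemma mem_invSubgroup {f : X → ℚ} {g : G} : g ∈ invSubgroup f ↔ ∀ x, f (g • x) = f x := Iff.rfl

/-- the operator `f ↦ f ∘ (g • ·)` on `X → ℚ` -/
noncomputable def actOp (g : G) : (X → ℚ) →ₗ[ℚ] (X → ℚ) :=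
  LinearMap.funLeft ℚ ℚ (fun x => g • x)

lemma actOp_apply (g : G) (f : X → ℚ) (x : X) : actOp g f x = f (g • x) := rfl

/-- `1 - actOp g` -/
noncomputable def subOp (g : G) : (X → ℚ) →ₗ[ℚ] (X → ℚ) := LinearMap.id - actOp g

lemma subOp_apply (g : G) (f : X → ℚ) : subOp g f = f - actOp g f := rfl

lemma mem_ker_subOp {g : G} {f : X → ℚ} :
    f ∈ LinearMap.ker (subOp g (X := X)) ↔ g ∈ invSubgroup f := by
  rw [LinearMap.mem_ker, subOp_apply, sub_eq_zero, mem_invSubgroup]
  constructor
  · intro h x
    exact (congrFun h x).symm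
  · intro h
    funext x
    exact (h x).symm

lemma toPerm_zpow (g : G) (i : ℤ) (x : X) :
    ((MulAction.toPerm g : Equiv.Perm X) ^ i) x = g ^ i • x := by
  have : (MulAction.toPerm g : Equiv.Perm X) ^ i = MulAction.toPerm (g ^ i) :=
    (map_zpow (MulAction.toPermHom G X) g i).symm
  rw [this]; rfl

lemma orbitRel_zpowers_iff (g : G) (x y : X) :
    MulAction.orbitRel (Subgroup.zpowers g) X x y ↔
      (MulAction.toPerm g : Equiv.Perm X).SameCycle y x := by
  rw [MulAction.orbitRel_apply, MulAction.mem_orbit_iff]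
  constructor
  · rintro ⟨⟨h, hh⟩, rfl⟩
    obtain ⟨i, rfl⟩ := Subgroup.mem_zpowers_iff.mp hh
    exact ⟨i, toPerm_zpow g i y⟩
  · rintro ⟨i, hi⟩
    refine ⟨⟨g ^ i, Subgroup.zpow_mem_zpowers g i⟩, ?_⟩
    rw [← hi, toPerm_zpow]; rfl

section single

variable [DecidableEq X]

lemma actOp_single (g : G) (y : X) :
    actOp g (Pi.single y (1 : ℚ)) = Pi.single (g⁻¹ • y) (1 : ℚ) := by
  funext x
  rw [actOp_apply]
  by_cases h : g • x = y
  · have : x = g⁻¹ • y := by rw [← h, inv_smul_smul]
    rw [h, this]; simp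
  · have : x ≠ g⁻¹ • y := by
      intro e; apply h; rw [e, smul_inv_smul]
    rw [Pi.single_eq_of_ne h, Pi.single_eq_of_ne this]

/-- the subgroup of `g` with `e_y - e_{g y} ∈ A` for all `y`. -/
def diffSubgroup (A : Submodule ℚ (X → ℚ)) : Subgroup G where
  carrier := {g | ∀ y : X, (Pi.single y (1 : ℚ) - Pi.single (g • y) (1 : ℚ) : X → ℚ) ∈ A}
  one_mem' := by intro y; simp
  mul_mem' := by
    intro a b ha hb y
    have := add_mem (hb y) (ha (b • y))
    rw [mul_smul]
    convert this using 1
    abel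
  inv_mem' := by
    intro a ha y
    have := neg_mem (ha (a⁻¹ • y))
    rw [smul_inv_smul] at this
    convert this using 1
    abel

lemma mem_diffSubgroup {A : Submodule ℚ (X → ℚ)} {g : G} :
    g ∈ diffSubgroup A ↔
      ∀ y : X, (Pi.single y (1 : ℚ) - Pi.single (g • y) (1 : ℚ) : X → ℚ) ∈ A :=
  Iff.rfl

lemma inv_mem_diffSubgroup_of_range_le {A : Submodule ℚ (X → ℚ)} {g : G}
    (h : LinearMap.range (subOp g (X := X)) ≤ A) : g⁻¹ ∈ diffSubgroup A := by
  intro y
  apply h
  refine ⟨Pi.single y 1, ?_⟩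
  rw [subOp_apply, actOp_single]

end single

variable [Fintype X]

lemma finrank_ker_subOp (g : G) :
    finrank ℚ (LinearMap.ker (subOp g (X := X))) = cyc X g := by
  classical
  let Ω := MulAction.orbitRel.Quotient (Subgroup.zpowers g) X
  let Φ : (Ω → ℚ) →ₗ[ℚ] (X → ℚ) := LinearMap.funLeft ℚ ℚ (Quotient.mk'' : X → Ω)
  have hΦ : Function.Injective Φ :=
    LinearMap.funLeft_injective_of_surjective ℚ ℚ _ Quotient.mk''_surjective
  have hrange : LinearMap.range Φ = LinearMap.ker (subOp g (X := X)) := by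
    ext f
    rw [mem_ker_subOp, mem_invSubgroup]
    constructor
    · rintro ⟨F, rfl⟩ x
      show F (Quotient.mk'' (g • x)) = F (Quotient.mk'' x)
      congr 1
      apply Quotient.sound'
      exact ⟨⟨g, Subgroup.mem_zpowers g⟩, rfl⟩
    · intro hf
      have hle : Subgroup.zpowers g ≤ invSubgroup f := by
        rw [Subgroup.zpowers_le]; exact hf
      refine ⟨Quotient.lift f ?_, ?_⟩
      · rintro a b ⟨⟨h, hh⟩, rfl⟩
        exact hle hh b
      · funext x
        rfl
  rw [← hrange, LinearMap.finrank_range_of_inj hΦ, Module.finrank_fintype_fun_eq_card, cyc,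
    Nat.card_eq_fintype_card]

/-- rank of `1 - g` is `n - cyc g` (in additive form). -/
lemma finrank_range_subOp (g : G) :
    finrank ℚ (LinearMap.range (subOp g (X := X))) + cyc X g = Fintype.card X := by
  have h := LinearMap.finrank_range_add_finrank_ker (subOp g (X := X))
  rw [finrank_ker_subOp, Module.finrank_fintype_fun_eq_card] at h
  exact h

lemma cyc_le_card (g : G) : cyc X g ≤ Fintype.card X := by
  have := finrank_range_subOp (X := X) g
  omega

/-- the sum functional -/
noncomputable def sumFun : (X → ℚ) →ₗ[ℚ] ℚ := ∑ x, LinearMap.proj x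

lemma sumFun_apply (f : X → ℚ) : sumFun f = ∑ x, f x := by
  simp [sumFun]

lemma finrank_ker_sumFun [Nonempty X] :
    finrank ℚ (LinearMap.ker (sumFun (X := X))) + 1 = Fintype.card X := by
  classical
  have hsurj : Function.Surjective (sumFun (X := X)) := by
    intro c
    obtain ⟨x₀⟩ := ‹Nonempty X›
    refine ⟨Pi.single x₀ c, ?_⟩
    rw [sumFun_apply]
    simp
  have h1 := LinearMap.finrank_range_add_finrank_ker (sumFun (X := X))
  rw [LinearMap.range_eq_top.mpr hsurj, finrank_top, Module.finrank_self,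
    Module.finrank_fintype_fun_eq_card] at h1
  omega

lemma ker_sumFun_le [DecidableEq X] [MulAction.IsPretransitive G X] (A : Submodule ℚ (X → ℚ))
    (hA : diffSubgroup A = (⊤ : Subgroup G)) : LinearMap.ker (sumFun (X := X)) ≤ A := by
  intro f hf
  rw [LinearMap.mem_ker, sumFun_apply] at hf
  rcases isEmpty_or_nonempty X with hX | ⟨⟨x₀⟩⟩
  · have : f = 0 := by funext x; exact (hX.false x).elim
    rw [this]; exact zero_mem _
  have hdiff : ∀ x : X, (Pi.single x₀ (1 : ℚ) - Pi.single x (1 : ℚ) : X → ℚ) ∈ A := by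
    intro x
    obtain ⟨g, rfl⟩ := MulAction.exists_smul_eq G x₀ x
    have : g ∈ diffSubgroup A := by rw [hA]; trivial
    exact this x₀
  have hf' : f = ∑ x, (- f x) • (Pi.single x₀ (1 : ℚ) - Pi.single x (1 : ℚ) : X → ℚ) := by
    funext y
    simp only [Finset.sum_apply, Pi.smul_apply, Pi.sub_apply, smul_eq_mul, mul_sub]
    rw [Finset.sum_sub_distrib, ← Finset.sum_mul]
    simp only [Finset.sum_neg_distrib, hf, neg_zero, Pi.single_apply,
      mul_ite, mul_one, mul_zero]
    simp
  rw [hf']
  exact Submodule.sum_mem _ fun x _ => Submodule.smul_mem _ _ (hdiff x)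

/-- **Ree / Feit–Lyndon–Scott inequality**: if `s, t` generate a group acting transitively on the
nonempty finite set `X` (`n` points), then
`(n - cyc s) + (n - cyc t) + (n - cyc (s t)) ≥ 2 n - 2`. -/
theorem two_mul_card_sub_two_le [MulAction.IsPretransitive G X] [Nonempty X] (s t : G)
    (hst : Subgroup.closure {s, t} = (⊤ : Subgroup G)) :
    2 * Fintype.card X - 2 ≤ (Fintype.card X - cyc X s) + (Fintype.card X - cyc X t)
      + (Fintype.card X - cyc X (s * t)) := by
  classical
  have hscott := scott_three (k := ℚ) (V := X → ℚ)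
    (actOp (s * t)⁻¹) (actOp t) (actOp s) (subOp (s * t)⁻¹) (subOp t) (subOp s)
    (by
      intro v
      funext x
      rw [actOp_apply, actOp_apply, actOp_apply, ← mul_smul, ← mul_smul]
      rw [mul_inv_cancel, one_smul])
    (fun v => subOp_apply _ v) (fun v => subOp_apply _ v) (fun v => subOp_apply _ v)
  set A : Submodule ℚ (X → ℚ) := LinearMap.range (subOp (s * t)⁻¹ (X := X)) ⊔
    LinearMap.range (subOp t (X := X)) ⊔ LinearMap.range (subOp s (X := X)) with hA
  set K : Submodule ℚ (X → ℚ) := LinearMap.ker (subOp (s * t)⁻¹ (X := X)) ⊓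
    LinearMap.ker (subOp t (X := X)) ⊓ LinearMap.ker (subOp s (X := X)) with hK
  -- common invariants are constant
  have hK1 : finrank ℚ K ≤ 1 := by
    have hle : K ≤ Submodule.span ℚ {(fun _ => (1 : ℚ) : X → ℚ)} := by
      intro f hf
      rw [hK, Submodule.mem_inf, Submodule.mem_inf, mem_ker_subOp, mem_ker_subOp,
        mem_ker_subOp] at hf
      have htop : invSubgroup f = (⊤ : Subgroup G) := by
        rw [eq_top_iff, ← hst, Subgroup.closure_le]
        rintro g (rfl | rfl)
        · exact hf.2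
        · exact hf.1.2
      obtain ⟨x₀⟩ := ‹Nonempty X›
      rw [Submodule.mem_span_singleton]
      refine ⟨f x₀, ?_⟩
      funext x
      obtain ⟨g, rfl⟩ := MulAction.exists_smul_eq G x₀ x
      have hg : g ∈ invSubgroup f := by rw [htop]; trivial
      simp only [Pi.smul_apply, smul_eq_mul, mul_one]
      exact (hg x₀).symm
    calc finrank ℚ K ≤ finrank ℚ (Submodule.span ℚ {(fun _ => (1 : ℚ) : X → ℚ)}) :=
          Submodule.finrank_mono hle
      _ ≤ 1 := by
          have := finrank_span_le_card (R := ℚ) ({(fun _ => (1 : ℚ) : X → ℚ)} : Set (X → ℚ))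
          simpa using this
  -- the span of the ranges contains the augmentation submodule
  have hA1 : Fintype.card X ≤ finrank ℚ A + 1 := by
    have htop : diffSubgroup A = (⊤ : Subgroup G) := by
      rw [eq_top_iff, ← hst, Subgroup.closure_le]
      rintro g (rfl | rfl)
      · have := inv_mem_diffSubgroup_of_range_le (A := A) (g := g)
          (le_sup_right)
        simpa using (diffSubgroup A).inv_mem this
      · have := inv_mem_diffSubgroup_of_range_le (A := A) (g := g)
          (le_sup_of_le_left le_sup_right)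
        simpa using (diffSubgroup A).inv_mem this
    have := Submodule.finrank_mono (ker_sumFun_le A htop)
    have h2 := finrank_ker_sumFun (X := X)
    omega
  have hK2 : finrank ℚ (X → ℚ) = Fintype.card X := Module.finrank_fintype_fun_eq_card ℚ
  have r1 := finrank_range_subOp (X := X) (s * t)⁻¹
  have r2 := finrank_range_subOp (X := X) t
  have r3 := finrank_range_subOp (X := X) s
  rw [cyc_inv] at r1
  rw [hK2] at hscott
  omega

section parity

variable [DecidableEq X]

/-- key counting lemma: orbits of `⟨g⟩` are the nontrivial cycles and the fixed points. -/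
lemma cyc_add_card_support (g : G) :
    cyc X g + (MulAction.toPerm g : Equiv.Perm X).support.card
      = (MulAction.toPerm g : Equiv.Perm X).cycleFactorsFinset.card + Fintype.card X := by
  classical
  set σ : Equiv.Perm X := MulAction.toPerm g with hσ
  let T : Finset (Equiv.Perm X ⊕ X) :=
    σ.cycleFactorsFinset.disjSum (Finset.univ.filter fun x => σ x = x)
  let φ : X → Equiv.Perm X ⊕ X := fun x => if σ x = x then Sum.inr x else Sum.inl (σ.cycleOf x)
  have hφT : ∀ x, φ x ∈ T := by
    intro x
    by_cases hx : σ x = x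
    · simp only [φ, hx, if_true, T, Finset.inr_mem_disjSum, Finset.mem_filter, Finset.mem_univ,
        true_and]
    · simp only [φ, hx, if_false, T, Finset.inl_mem_disjSum,
        Equiv.Perm.cycleOf_mem_cycleFactorsFinset_iff, Equiv.Perm.mem_support]
      exact hx
  have hφ_rel : ∀ x y, MulAction.orbitRel (Subgroup.zpowers g) X x y → φ x = φ y := by
    intro x y hxy
    rw [orbitRel_zpowers_iff] at hxy
    have h1 : σ y = y ↔ σ x = x := hxy.apply_eq_self_iff
    by_cases hx : σ x = x
    · have hy : σ y = y := h1.mpr hx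
      have : x = y := by
        obtain ⟨i, hi⟩ := hxy
        rw [← hi, Equiv.Perm.zpow_apply_eq_self_of_apply_eq_self hy]
      simp only [φ, hy, if_true, this]
    · have hy : ¬ σ y = y := fun h => hx (h1.mp h)
      simp only [φ, hx, hy, if_false]
      rw [hxy.cycleOf_eq]
  have hφ_inj : ∀ x y, φ x = φ y → MulAction.orbitRel (Subgroup.zpowers g) X x y := by
    intro x y hxy
    rw [orbitRel_zpowers_iff]
    by_cases hx : σ x = x <;> by_cases hy : σ y = y
    · simp only [φ, hx, hy, if_true, Sum.inr.injEq] at hxy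
      rw [hxy]
    · simp [φ, hx, hy] at hxy
    · simp [φ, hx, hy] at hxy
    · simp only [φ, hx, hy, if_false, Sum.inl.injEq] at hxy
      exact (Equiv.Perm.sameCycle_iff_cycleOf_eq_of_mem_support
        (Equiv.Perm.mem_support.mpr hy) (Equiv.Perm.mem_support.mpr hx)).mpr hxy.symm
  let Ψ : MulAction.orbitRel.Quotient (Subgroup.zpowers g) X → {z // z ∈ T} :=
    Quotient.lift (fun x => (⟨φ x, hφT x⟩ : {z // z ∈ T}))
      (fun x y h => Subtype.ext (hφ_rel x y h))
  have hΨ : Function.Bijective Ψ := by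
    constructor
    · intro a b
      induction a using Quotient.inductionOn with | _ x => ?_
      induction b using Quotient.inductionOn with | _ y => ?_
      intro h
      apply Quotient.sound
      exact hφ_inj x y (congrArg Subtype.val h)
    · rintro ⟨z, hz⟩
      rcases z with c | x
      · rw [Finset.inl_mem_disjSum] at hz
        have hc : c.IsCycle := (Equiv.Perm.mem_cycleFactorsFinset_iff.mp hz).1
        obtain ⟨a, ha⟩ := hc.nonempty_support
        have hca : c = σ.cycleOf a := Equiv.Perm.cycle_is_cycleOf ha hz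
        have haσ : ¬ σ a = a := by
          have := Equiv.Perm.mem_cycleFactorsFinset_support_le hz ha
          exact Equiv.Perm.mem_support.mp this
        refine ⟨Quotient.mk _ a, Subtype.ext ?_⟩
        show φ a = Sum.inl c
        simp only [φ, haσ, if_false, hca]
      · rw [Finset.inr_mem_disjSum, Finset.mem_filter] at hz
        refine ⟨Quotient.mk _ x, Subtype.ext ?_⟩
        show φ x = Sum.inr x
        simp only [φ, hz.2, if_true]
  have hcard : cyc X g = T.card := by
    rw [cyc, Nat.card_congr (Equiv.ofBijective Ψ hΨ), Nat.card_eq_fintype_card, Fintype.card_coe]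
  have hT : T.card = σ.cycleFactorsFinset.card + (Finset.univ.filter fun x => σ x = x).card :=
    Finset.card_disjSum _ _
  have hsupp : σ.support.card + (Finset.univ.filter fun x => σ x = x).card = Fintype.card X := by
    have : σ.support = Finset.univ.filter fun x => ¬ σ x = x := by
      ext x; simp
    rw [this, add_comm]
    exact Finset.card_filter_add_card_filter_not _
  omega

/-- the sign of the permutation induced by `g` is `(-1) ^ (n - cyc g)`. -/
theorem sign_toPerm (g : G) :
    Equiv.Perm.sign (MulAction.toPerm g : Equiv.Perm X) = (-1) ^ (Fintype.card X - cyc X g) := by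
  have h1 := cyc_add_card_support (X := X) g
  have h2 := cyc_le_card (X := X) g
  rw [Equiv.Perm.sign_of_cycleType, Equiv.Perm.sum_cycleType]
  have h3 : Multiset.card (MulAction.toPerm g : Equiv.Perm X).cycleType
      = (MulAction.toPerm g : Equiv.Perm X).cycleFactorsFinset.card := by
    rw [Equiv.Perm.cycleType_def, Multiset.card_map]; rfl
  rw [h3]
  have h4 : (MulAction.toPerm g : Equiv.Perm X).support.card
      + (MulAction.toPerm g : Equiv.Perm X).cycleFactorsFinset.card
      = (Fintype.card X - cyc X g)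
        + 2 * (MulAction.toPerm g : Equiv.Perm X).cycleFactorsFinset.card := by
    omega
  rw [h4, pow_add, pow_mul]
  simp

/-- **parity part of Ree's lemma**: `(n - cyc s) + (n - cyc t) + (n - cyc (s t))` is even. -/
theorem even_sum (s t : G) :
    Even ((Fintype.card X - cyc X s) + (Fintype.card X - cyc X t)
      + (Fintype.card X - cyc X (s * t))) := by
  have h : Equiv.Perm.sign (MulAction.toPerm (s * t) : Equiv.Perm X)
      = Equiv.Perm.sign (MulAction.toPerm s : Equiv.Perm X)
        * Equiv.Perm.sign (MulAction.toPerm t : Equiv.Perm X) := by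
    rw [← map_mul]
    congr 1
    exact map_mul (MulAction.toPermHom G X) s t
  rw [sign_toPerm, sign_toPerm, sign_toPerm, ← pow_add] at h
  by_contra hodd
  rw [Nat.not_even_iff_odd] at hodd
  have h5 : ((-1 : ℤˣ)) ^ ((Fintype.card X - cyc X s) + (Fintype.card X - cyc X t)
      + (Fintype.card X - cyc X (s * t))) = 1 := by
    rw [pow_add, ← h, ← pow_add, ← two_mul, pow_mul]
    simp
  rw [hodd.neg_one_pow] at h5
  exact absurd h5 (by decide)

end parity


section general

omit [Fintype X] in
/-- `cyc` only depends on the induced permutation. -/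
lemma cyc_congr {G' : Type*} [Group G'] [MulAction G' X] (g : G) (g' : G')
    (h : ∀ x : X, g • x = g' • x) : cyc X g = cyc X g' := by
  have hperm : (MulAction.toPerm g : Equiv.Perm X) = MulAction.toPerm g' := by
    ext x; exact h x
  have hrel : MulAction.orbitRel (Subgroup.zpowers g) X = MulAction.orbitRel (Subgroup.zpowers g') X := by
    ext x y
    rw [orbitRel_zpowers_iff, orbitRel_zpowers_iff, hperm]
  show Nat.card (Quotient (MulAction.orbitRel (Subgroup.zpowers g) X))
    = Nat.card (Quotient (MulAction.orbitRel (Subgroup.zpowers g') X))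
  rw [hrel]

/-- **Ree's lemma** (Ree, Feit–Lyndon–Scott), general form: if the subgroup generated by `s, t`
acts transitively on the nonempty finite set `X` with `n` elements, then
`(n - cyc s) + (n - cyc t) + (n - cyc (s t))` is even and at least `2 n - 2`. -/
theorem ree (s t : G) [Nonempty X]
    (htrans : ∀ x y : X, ∃ g ∈ Subgroup.closure ({s, t} : Set G), g • x = y) :
    Even ((Fintype.card X - cyc X s) + (Fintype.card X - cyc X t)
      + (Fintype.card X - cyc X (s * t))) ∧
    2 * Fintype.card X - 2 ≤ (Fintype.card X - cyc X s) + (Fintype.card X - cyc X t)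
      + (Fintype.card X - cyc X (s * t)) := by
  classical
  refine ⟨even_sum s t, ?_⟩
  let H : Subgroup G := Subgroup.closure ({s, t} : Set G)
  have hs : s ∈ H := Subgroup.subset_closure (by simp)
  have ht : t ∈ H := Subgroup.subset_closure (by simp)
  let s' : H := ⟨s, hs⟩
  let t' : H := ⟨t, ht⟩
  have : MulAction.IsPretransitive H X := by
    constructor
    intro x y
    obtain ⟨g, hg, hgx⟩ := htrans x y
    exact ⟨⟨g, hg⟩, hgx⟩
  have hgen : Subgroup.closure ({s', t'} : Set H) = ⊤ := by
    have h := Subgroup.closure_closure_coe_preimage (k := ({s, t} : Set G))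
    have hset : ((↑) : H → G) ⁻¹' ({s, t} : Set G) = {s', t'} := by
      ext ⟨g, hg⟩
      simp only [Set.mem_preimage, Set.mem_insert_iff, Set.mem_singleton_iff, s', t',
        Subtype.mk.injEq]
    rw [hset] at h
    exact h
  have key := two_mul_card_sub_two_le (X := X) s' t' hgen
  rw [cyc_congr s' s (fun _ => rfl), cyc_congr t' t (fun _ => rfl),
    cyc_congr (s' * t') (s * t) (fun _ => rfl)] at key
  exact key

/-- **Ree's lemma**, genus form: there is a natural number `g` with
`(n - cyc s) + (n - cyc t) + (n - cyc (s t)) = 2 n - 2 + 2 g` (in `ℤ`). -/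
theorem ree_genus (s t : G) [Nonempty X]
    (htrans : ∀ x y : X, ∃ g ∈ Subgroup.closure ({s, t} : Set G), g • x = y) :
    ∃ g : ℕ, ((Fintype.card X : ℤ) - cyc X s) + ((Fintype.card X : ℤ) - cyc X t)
      + ((Fintype.card X : ℤ) - cyc X (s * t)) = 2 * (Fintype.card X : ℤ) - 2 + 2 * g := by
  obtain ⟨⟨r, hr⟩, h2⟩ := ree (X := X) s t htrans
  have hs := cyc_le_card (X := X) s
  have ht := cyc_le_card (X := X) t
  have hst := cyc_le_card (X := X) (s * t)
  have hn : 0 < Fintype.card X := Fintype.card_pos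
  refine ⟨r + 1 - Fintype.card X, ?_⟩
  omega

end general

end Ree

end Fermat.Agent.X0
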