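import Fermat.Agent.X0.Mod.FixedPoints
import Fermat.Agent.X0.Mod.Ree

/-!
# Counting on `SL(2, ℤ) ⧸ Γ₀(N)` (left action)

Transport of the counts on the representatives `A_N` (`CosetRep N`) to the coset space
`SL(2, ℤ) ⧸ Γ₀(N)` with Mathlib's left multiplication action, in the shape
`Ree.cyc X g = Nat.card (MulAction.orbitRel.Quotient (Subgroup.zpowers g) X)`.
-/

set_option autoImplicit false

namespace Fermat.Agent.X0

open Matrix ModularGroup
open scoped MatrixGroups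

namespace Ree

variable {G : Type*} [Group G]

/-- `cyc` is transported along an equivariant bijection. -/
lemma cyc_eq_of_equiv {X Y : Type*} [MulAction G X] [MulAction G Y] (e : X ≃ Y)
    (he : ∀ (g : G) (x : X), e (g • x) = g • e x) (g : G) : cyc X g = cyc Y g := by
  unfold cyc
  refine Nat.card_congr ?_
  refine Quotient.congr e ?_
  intro x y
  change MulAction.orbitRel (Subgroup.zpowers g) X x y ↔
    MulAction.orbitRel (Subgroup.zpowers g) Y (e x) (e y)
  rw [MulAction.orbitRel_apply, MulAction.orbitRel_apply, MulAction.mem_orbit_iff,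
    MulAction.mem_orbit_iff]
  constructor
  · rintro ⟨h, rfl⟩
    exact ⟨h, (he (h : G) y).symm⟩
  · rintro ⟨h, hh⟩
    refine ⟨h, e.injective ?_⟩
    rw [← hh]
    exact he (h : G) y

/-- `cyc` as the number of cycles (`SameCycle` classes) of the induced permutation. -/
lemma cyc_eq_card_sameCycle {X : Type*} [MulAction G X] (g : G) :
    cyc X g = Nat.card (Quotient (Equiv.Perm.SameCycle.setoid (MulAction.toPerm g : Equiv.Perm X))) := by
  unfold cyc
  refine Nat.card_congr (Quotient.congr (Equiv.refl X) ?_)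
  intro x y
  change MulAction.orbitRel (Subgroup.zpowers g) X x y ↔
    (MulAction.toPerm g : Equiv.Perm X).SameCycle x y
  rw [orbitRel_zpowers_iff]
  exact ⟨fun h => h.symm, fun h => h.symm⟩

/-- the fixed points of `g` are the fixed points of the induced permutation; transported along an
equivariant bijection. -/
lemma card_fixed_eq_of_equiv {X Y : Type*} [MulAction G X] [MulAction G Y] (e : X ≃ Y)
    (he : ∀ (g : G) (x : X), e (g • x) = g • e x) (g : G) :
    Nat.card {x : X // g • x = x} = Nat.card {y : Y // g • y = y} := by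
  refine Nat.card_congr (e.subtypeEquiv ?_)
  intro x
  rw [← he]
  exact ⟨fun h => by rw [h], fun h => e.injective h⟩

end Ree

namespace CosetRep

variable {N : ℕ} [NeZero N]

/-- `equivQuotient` is `SL(2, ℤ)`-equivariant. -/
theorem equivQuotient_smul (γ : SL(2, ℤ)) (α : CosetRep N) :
    equivQuotient (γ • α) = γ • equivQuotient α := by
  obtain ⟨δ, rfl⟩ := MulAction.exists_smul_eq SL(2, ℤ) (base N) α
  rw [← mul_smul, ← equivQuotient_symm_mk, ← equivQuotient_symm_mk, Equiv.apply_symm_apply,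
    Equiv.apply_symm_apply]
  rfl

theorem equivQuotient_base :
    equivQuotient (base N) = ((1 : SL(2, ℤ)) : SL(2, ℤ) ⧸ CongruenceSubgroup.Gamma0 N) := by
  rw [← Equiv.eq_symm_apply, equivQuotient_symm_mk, one_smul]

theorem toPerm_eq_actPerm_inv (γ : SL(2, ℤ)) :
    (MulAction.toPerm γ : Equiv.Perm (CosetRep N)) = (actPerm γ)⁻¹ := by
  refine Equiv.ext fun α => ?_
  rw [← actPerm_inv]
  rfl

/-- on `A_N`, `cyc γ` is the number of cycles of `actPerm γ`. -/
theorem cyc_eq_card_cycles (γ : SL(2, ℤ)) :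
    Ree.cyc (CosetRep N) γ =
      Nat.card (Quotient (Equiv.Perm.SameCycle.setoid (actPerm γ : Equiv.Perm (CosetRep N)))) := by
  rw [Ree.cyc_eq_card_sameCycle, toPerm_eq_actPerm_inv]
  refine Nat.card_congr (Quotient.congr (Equiv.refl _) ?_)
  intro x y
  change ((actPerm γ)⁻¹ : Equiv.Perm (CosetRep N)).SameCycle x y ↔ (actPerm γ).SameCycle x y
  exact Equiv.Perm.sameCycle_inv

theorem smul_eq_self_iff (γ : SL(2, ℤ)) (α : CosetRep N) : γ • α = α ↔ α.act γ = α := by
  rw [smul_def]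
  constructor
  · intro h
    have := congrArg (fun β => β.act γ) h
    simp only [act_inv_act] at this
    exact this.symm
  · intro h
    have := congrArg (fun β => β.act γ⁻¹) h
    simp only [act_act_inv] at this
    exact this.symm

end CosetRep

/-! ### The counts on `SL(2, ℤ) ⧸ Γ₀(N)` -/

section quotient

variable (N : ℕ) [NeZero N]

/-- `#(SL(2, ℤ) ⧸ Γ₀(N)) = ψ(N)`. -/
theorem natCard_quotient_Gamma0 :
    Nat.card (SL(2, ℤ) ⧸ CongruenceSubgroup.Gamma0 N) = ModularCurve.dedekindPsi N := by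
  rw [← Nat.card_congr (CosetRep.equivQuotient (N := N)), CosetRep.natCard_rep]

instance finite_quotient_Gamma0 : Finite (SL(2, ℤ) ⧸ CongruenceSubgroup.Gamma0 N) :=
  Finite.of_equiv _ (CosetRep.equivQuotient (N := N))

/-- for every `γ`, `cyc` on the coset space is the number of `actPerm γ`-cycles on `A_N`. -/
theorem cyc_quotient_Gamma0 (γ : SL(2, ℤ)) :
    Ree.cyc (SL(2, ℤ) ⧸ CongruenceSubgroup.Gamma0 N) γ =
      Nat.card (Quotient (Equiv.Perm.SameCycle.setoid
        (CosetRep.actPerm γ : Equiv.Perm (CosetRep N)))) := by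
  rw [← CosetRep.cyc_eq_card_cycles]
  exact (Ree.cyc_eq_of_equiv CosetRep.equivQuotient CosetRep.equivQuotient_smul γ).symm

/-- **the number of `⟨T⟩`-orbits on `SL(2, ℤ) ⧸ Γ₀(N)` is the number of cusps.** -/
theorem cyc_T_quotient_Gamma0 :
    Ree.cyc (SL(2, ℤ) ⧸ CongruenceSubgroup.Gamma0 N) T = ModularCurve.cuspCount N := by
  rw [cyc_quotient_Gamma0, CosetRep.card_cycles_T]

/-- **`2 #(⟨S⟩-orbits on SL(2, ℤ) ⧸ Γ₀(N)) = ψ(N) + ν₂(N)`.** -/
theorem two_mul_cyc_S_quotient_Gamma0 :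
    2 * Ree.cyc (SL(2, ℤ) ⧸ CongruenceSubgroup.Gamma0 N) S =
      ModularCurve.dedekindPsi N + ModularCurve.nuTwo N := by
  rw [cyc_quotient_Gamma0, CosetRep.two_mul_card_cycles_S]

/-- **`3 #(⟨S T⟩-orbits on SL(2, ℤ) ⧸ Γ₀(N)) = ψ(N) + 2 ν₃(N)`.** -/
theorem three_mul_cyc_ST_quotient_Gamma0 :
    3 * Ree.cyc (SL(2, ℤ) ⧸ CongruenceSubgroup.Gamma0 N) (S * T) =
      ModularCurve.dedekindPsi N + 2 * ModularCurve.nuThree N := by
  rw [cyc_quotient_Gamma0, CosetRep.three_mul_card_cycles_ST]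

/-- **the number of `S`-fixed cosets is `ν₂(N)`.** -/
theorem card_fixed_S_quotient_Gamma0 :
    Nat.card {x : SL(2, ℤ) ⧸ CongruenceSubgroup.Gamma0 N // S • x = x} = ModularCurve.nuTwo N := by
  rw [← Ree.card_fixed_eq_of_equiv CosetRep.equivQuotient CosetRep.equivQuotient_smul S,
    ← CosetRep.card_fixed_S (N := N)]
  exact Nat.card_congr (Equiv.subtypeEquivRight fun α => CosetRep.smul_eq_self_iff S α)

/-- **the number of `S T`-fixed cosets is `ν₃(N)`.** -/
theorem card_fixed_ST_quotient_Gamma0 :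
    Nat.card {x : SL(2, ℤ) ⧸ CongruenceSubgroup.Gamma0 N // (S * T) • x = x} =
      ModularCurve.nuThree N := by
  rw [← Ree.card_fixed_eq_of_equiv CosetRep.equivQuotient CosetRep.equivQuotient_smul (S * T),
    ← CosetRep.card_fixed_ST (N := N)]
  exact Nat.card_congr (Equiv.subtypeEquivRight fun α => CosetRep.smul_eq_self_iff (S * T) α)

/-- **Ree's lemma for `SL(2, ℤ) ⧸ Γ₀(N)`**: with `n = ψ(N)` and `o_g` the number of `⟨g⟩`-orbits,
`(n - o_S) + (n - o_T) + (n - o_{ST}) = 2 n - 2 + 2 g` for a natural number `g`. -/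
theorem ree_quotient_Gamma0 :
    ∃ g : ℕ, ((ModularCurve.dedekindPsi N : ℤ) -
        Ree.cyc (SL(2, ℤ) ⧸ CongruenceSubgroup.Gamma0 N) S) +
      ((ModularCurve.dedekindPsi N : ℤ) - Ree.cyc (SL(2, ℤ) ⧸ CongruenceSubgroup.Gamma0 N) T) +
      ((ModularCurve.dedekindPsi N : ℤ) -
        Ree.cyc (SL(2, ℤ) ⧸ CongruenceSubgroup.Gamma0 N) (S * T)) =
      2 * (ModularCurve.dedekindPsi N : ℤ) - 2 + 2 * g := by
  classical
  let _ : Fintype (SL(2, ℤ) ⧸ CongruenceSubgroup.Gamma0 N) := Fintype.ofFinite _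
  have hcard : Fintype.card (SL(2, ℤ) ⧸ CongruenceSubgroup.Gamma0 N) =
      ModularCurve.dedekindPsi N := by
    rw [← Nat.card_eq_fintype_card, natCard_quotient_Gamma0]
  have h := Ree.ree_genus (X := SL(2, ℤ) ⧸ CongruenceSubgroup.Gamma0 N) S T (by
    intro x y
    obtain ⟨g, hg⟩ := MulAction.exists_smul_eq SL(2, ℤ) x y
    exact ⟨g, by rw [SpecialLinearGroup.SL2Z_generators]; trivial, hg⟩)
  rw [hcard] at h
  exact h

/-- **the genus numerics.** If `oc = ν∞(N)`, `2 o₂ = ψ(N) + ν₂(N)`, `3 o₃ = ψ(N) + 2 ν₃(N)` (the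
orbit numbers of `⟨T⟩`, `⟨S⟩`, `⟨S T⟩` on `SL(2, ℤ) ⧸ Γ₀(N)`), then the Riemann–Hurwitz genus
`((n - oc) + (n - o₂) + (n - o₃) + 2 - 2 n) / 2`, `n = ψ(N)`, is `genusFormula N`. -/
theorem genusFormula_eq_of_counts (oc o₂ o₃ : ℕ) (hc : oc = ModularCurve.cuspCount N)
    (h₂ : 2 * o₂ = ModularCurve.dedekindPsi N + ModularCurve.nuTwo N)
    (h₃ : 3 * o₃ = ModularCurve.dedekindPsi N + 2 * ModularCurve.nuThree N) :
    (((((ModularCurve.dedekindPsi N : ℤ) - oc) + ((ModularCurve.dedekindPsi N : ℤ) - o₂) +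
      ((ModularCurve.dedekindPsi N : ℤ) - o₃) + 2 - 2 * (ModularCurve.dedekindPsi N : ℤ)).toNat / 2
        : ℕ) : ℚ) = ModularCurve.genusFormula N := by
  obtain ⟨g, hg⟩ := ree_quotient_Gamma0 N
  have ec : Ree.cyc (SL(2, ℤ) ⧸ CongruenceSubgroup.Gamma0 N) T = oc := by
    rw [cyc_T_quotient_Gamma0, hc]
  have e₂ : Ree.cyc (SL(2, ℤ) ⧸ CongruenceSubgroup.Gamma0 N) S = o₂ := by
    have := two_mul_cyc_S_quotient_Gamma0 N
    omega
  have e₃ : Ree.cyc (SL(2, ℤ) ⧸ CongruenceSubgroup.Gamma0 N) (S * T) = o₃ := by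
    have := three_mul_cyc_ST_quotient_Gamma0 N
    omega
  rw [ec, e₂, e₃] at hg
  have hval : ((ModularCurve.dedekindPsi N : ℤ) - oc) + ((ModularCurve.dedekindPsi N : ℤ) - o₂) +
      ((ModularCurve.dedekindPsi N : ℤ) - o₃) + 2 - 2 * (ModularCurve.dedekindPsi N : ℤ) =
      ((2 * g : ℕ) : ℤ) := by
    push_cast
    linarith
  rw [hval, Int.toNat_natCast, Nat.mul_div_cancel_left g (by norm_num : 0 < 2)]
  unfold ModularCurve.genusFormula
  have hgq : (2 * (g : ℚ)) = (ModularCurve.dedekindPsi N : ℚ) - o₂ - o₃ - oc + 2 := by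
    have : (2 * (g : ℤ)) = (ModularCurve.dedekindPsi N : ℤ) - o₂ - o₃ - oc + 2 := by linarith
    exact_mod_cast this
  have h₂q : (2 * (o₂ : ℚ)) = ModularCurve.dedekindPsi N + ModularCurve.nuTwo N := by
    exact_mod_cast h₂
  have h₃q : (3 * (o₃ : ℚ)) = ModularCurve.dedekindPsi N + 2 * ModularCurve.nuThree N := by
    exact_mod_cast h₃
  have hcq : (oc : ℚ) = ModularCurve.cuspCount N := by exact_mod_cast hc
  rw [← hcq]
  linarith

/-- the genus numerics with the orbit numbers on `SL(2, ℤ) ⧸ Γ₀(N)` filled in. -/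
theorem genusFormula_eq_cyc :
    (((((ModularCurve.dedekindPsi N : ℤ) - Ree.cyc (SL(2, ℤ) ⧸ CongruenceSubgroup.Gamma0 N) T) +
      ((ModularCurve.dedekindPsi N : ℤ) - Ree.cyc (SL(2, ℤ) ⧸ CongruenceSubgroup.Gamma0 N) S) +
      ((ModularCurve.dedekindPsi N : ℤ) -
        Ree.cyc (SL(2, ℤ) ⧸ CongruenceSubgroup.Gamma0 N) (S * T)) + 2 -
        2 * (ModularCurve.dedekindPsi N : ℤ)).toNat / 2 : ℕ) : ℚ) = ModularCurve.genusFormula N :=
  genusFormula_eq_of_counts N _ _ _ (cyc_T_quotient_Gamma0 N) (two_mul_cyc_S_quotient_Gamma0 N)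
    (three_mul_cyc_ST_quotient_Gamma0 N)

/-- `genusFormula N` is (the cast of) a natural number `g` with
`2 g = 2 + ψ/6 - ν₂/2 - 2ν₃/3 - ν∞` in the multiplied-out form
`12 g + 3 ν₂ + 4 ν₃ + 6 ν∞ = 12 + ψ`. -/
theorem exists_nat_eq_genusFormula :
    ∃ g : ℕ, (g : ℚ) = ModularCurve.genusFormula N ∧
      12 * g + 3 * ModularCurve.nuTwo N + 4 * ModularCurve.nuThree N +
        6 * ModularCurve.cuspCount N = 12 + ModularCurve.dedekindPsi N := by
  refine ⟨_, genusFormula_eq_cyc N, ?_⟩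
  have h := genusFormula_eq_cyc N
  set g := ((((ModularCurve.dedekindPsi N : ℤ) -
      Ree.cyc (SL(2, ℤ) ⧸ CongruenceSubgroup.Gamma0 N) T) +
      ((ModularCurve.dedekindPsi N : ℤ) - Ree.cyc (SL(2, ℤ) ⧸ CongruenceSubgroup.Gamma0 N) S) +
      ((ModularCurve.dedekindPsi N : ℤ) -
        Ree.cyc (SL(2, ℤ) ⧸ CongruenceSubgroup.Gamma0 N) (S * T)) + 2 -
        2 * (ModularCurve.dedekindPsi N : ℤ)).toNat / 2 : ℕ) with hg
  unfold ModularCurve.genusFormula at h
  have h' : (12 * (g : ℚ) + 3 * ModularCurve.nuTwo N + 4 * ModularCurve.nuThree N +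
        6 * ModularCurve.cuspCount N) = 12 + ModularCurve.dedekindPsi N := by
    rw [h]; ring
  exact_mod_cast h'

end quotient

end Fermat.Agent.X0
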