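import Mathlib
import Fermat.Prelude.Def_ModularCurve_LaurentCoeff
import Fermat.Prelude.Def_ModularCurve_JqCoeff
import Fermat.Prelude.Thm_ModularCurve_coeff_jqModC_neg_one
import Fermat.Prelude.Thm_ModularCurve_coeff_jqModC_pow_of_lt
import Fermat.Prelude.Thm_ModularCurve_coeffMap_qExpand

/-!
# Descent of polynomial relations along a coefficient extension of Laurent series

Let `ι : K →+* C` be a ring homomorphism, `J₀` a Laurent series over `K` with leading term `q^{-m}`
(`m > 0`), and `J` its image over `C`.  If `P ∈ C[X]` is such that `P(J)` has coefficients in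
(the image of) `K`, then `P` has coefficients in (the image of) `K`.
-/

set_option autoImplicit false

open ModularCurve

namespace Fermat.Agent.X0

section Descent

variable {K C : Type*} [Field K] [Field C]

theorem coeffMap_algebraMap_general (ι : K →+* C) (a : K) :
    coeffMap ι (algebraMap K (LaurentSeries K) a) = algebraMap C (LaurentSeries C) (ι a) := by
  rw [algebraMap_laurentSeries_eq_single, algebraMap_laurentSeries_eq_single, coeffMap_single]

/-- Powers of a Laurent series with leading term `q^{-m}`: vanishing below `-(m k)`. -/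
theorem coeff_pow_of_lt_of_leading {J : LaurentSeries C} {m : ℕ}
    (htop : J.coeff (-(m : ℤ)) = 1) (hlow : ∀ i : ℤ, i < -(m : ℤ) → J.coeff i = 0)
    (k : ℕ) {i : ℤ} (hi : i < -((m : ℤ) * k)) : (J ^ k).coeff i = 0 := by
  have hJne : J ≠ 0 := by
    intro h
    rw [h, HahnSeries.coeff_zero] at htop
    exact zero_ne_one htop
  have hord : J.order = -(m : ℤ) := by
    refine le_antisymm (HahnSeries.order_le_of_coeff_ne_zero ?_) ?_
    · rw [htop]
      exact one_ne_zero
    · by_contra hlt
      rw [not_le] at hlt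
      exact HahnSeries.coeff_order_eq_zero.not.mpr hJne (hlow _ hlt)
  apply HahnSeries.coeff_eq_zero_of_lt_order
  rw [HahnSeries.order_pow, hord]
  simpa [mul_comm] using hi

/-- Powers of a Laurent series with leading term `q^{-m}`: the leading coefficient. -/
theorem coeff_pow_self_of_leading {J : LaurentSeries C} {m : ℕ}
    (htop : J.coeff (-(m : ℤ)) = 1) (hlow : ∀ i : ℤ, i < -(m : ℤ) → J.coeff i = 0)
    (k : ℕ) : (J ^ k).coeff (-((m : ℤ) * k)) = 1 := by
  have hJne : J ≠ 0 := by
    intro h
    rw [h, HahnSeries.coeff_zero] at htop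
    exact zero_ne_one htop
  have hord : J.order = -(m : ℤ) := by
    refine le_antisymm (HahnSeries.order_le_of_coeff_ne_zero ?_) ?_
    · rw [htop]
      exact one_ne_zero
    · by_contra hlt
      rw [not_le] at hlt
      exact HahnSeries.coeff_order_eq_zero.not.mpr hJne (hlow _ hlt)
  have hlead : J.leadingCoeff = 1 := by
    rw [HahnSeries.leadingCoeff_eq, hord, htop]
  have hleadk : (J ^ k).leadingCoeff = 1 := by
    induction k with
    | zero => simp
    | succ k ih => rw [pow_succ, HahnSeries.leadingCoeff_mul, ih, hlead, one_mul]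
  rw [HahnSeries.leadingCoeff_eq, HahnSeries.order_pow, hord] at hleadk
  have h2 : k • (-(m : ℤ)) = -((m : ℤ) * k) := by
    simp [mul_comm]
  rwa [h2] at hleadk

/-- The coefficient of `P(J)` at `-(m · deg P)` is the leading coefficient of `P`. -/
theorem coeff_aeval_of_leading {J : LaurentSeries C} {m : ℕ} (hm : 0 < m)
    (htop : J.coeff (-(m : ℤ)) = 1) (hlow : ∀ i : ℤ, i < -(m : ℤ) → J.coeff i = 0)
    (P : Polynomial C) :
    (Polynomial.aeval J P).coeff (-((m : ℤ) * P.natDegree)) = P.leadingCoeff := by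
  set n := P.natDegree with hn
  rw [Polynomial.aeval_def, Polynomial.eval₂_eq_sum_range, HahnSeries.coeff_sum,
    Finset.sum_eq_single n]
  · rw [algebraMap_laurentSeries_eq_single, HahnSeries.coeff_single_zero_mul,
      coeff_pow_self_of_leading htop hlow, mul_one]
    rfl
  · intro i hi hin
    have hilt : i < n := lt_of_le_of_ne (Nat.lt_succ_iff.mp (Finset.mem_range.mp hi)) hin
    rw [algebraMap_laurentSeries_eq_single, HahnSeries.coeff_single_zero_mul,
      coeff_pow_of_lt_of_leading htop hlow, mul_zero]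
    have h1 : (i : ℤ) < n := by exact_mod_cast hilt
    have h2 : (0 : ℤ) < m := by exact_mod_cast hm
    nlinarith
  · intro hn'
    exact absurd (Finset.self_mem_range_succ n) hn'

/-- **Descent.** If `P(J)` has coefficients in `K`, so does `P`. -/
theorem exists_map_eq_of_aeval_mem_range (ι : K →+* C) (J₀ : LaurentSeries K) (m : ℕ)
    (hm : 0 < m) (htop : J₀.coeff (-(m : ℤ)) = 1)
    (hlow : ∀ i : ℤ, i < -(m : ℤ) → J₀.coeff i = 0) (P : Polynomial C)
    (hP : Polynomial.aeval (coeffMap ι J₀) P ∈ (coeffMap ι).range) :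
    ∃ P₀ : Polynomial K, P = P₀.map ι := by
  have hJtop : (coeffMap ι J₀).coeff (-(m : ℤ)) = 1 := by
    rw [coeffMap_coeff, htop, map_one]
  have hJlow : ∀ i : ℤ, i < -(m : ℤ) → (coeffMap ι J₀).coeff i = 0 := by
    intro i hi
    rw [coeffMap_coeff, hlow i hi, map_zero]
  induction hn : P.natDegree using Nat.strong_induction_on generalizing P with
  | _ n ih =>
    obtain ⟨y₀, hy₀⟩ := hP
    set a₀ : K := y₀.coeff (-((m : ℤ) * n)) with ha₀
    have ha : P.leadingCoeff = ι a₀ := by
      rw [ha₀, ← coeffMap_coeff, hy₀, ← hn, coeff_aeval_of_leading hm hJtop hJlow]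
    by_cases hn0 : n = 0
    · refine ⟨Polynomial.C a₀, ?_⟩
      rw [Polynomial.map_C, ← ha]
      have h1 := Polynomial.eq_C_of_natDegree_eq_zero (hn0 ▸ hn)
      rw [Polynomial.leadingCoeff, hn, hn0]
      exact h1
    · have hdeg : P.eraseLead.natDegree < n := by
        rcases Polynomial.eraseLead_natDegree_lt_or_eraseLead_eq_zero P with h | h
        · rwa [hn] at h
        · rw [h, Polynomial.natDegree_zero]
          exact Nat.pos_of_ne_zero hn0
      have hPdec : P = P.eraseLead + Polynomial.monomial n (ι a₀) := by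
        rw [← ha, ← hn]
        exact (Polynomial.eraseLead_add_monomial_natDegree_leadingCoeff P).symm
      have hmem : Polynomial.aeval (coeffMap ι J₀) P.eraseLead ∈ (coeffMap ι).range := by
        refine ⟨y₀ - algebraMap K (LaurentSeries K) a₀ * J₀ ^ n, ?_⟩
        rw [map_sub, map_mul, map_pow, coeffMap_algebraMap_general, hy₀]
        conv_lhs => rw [hPdec]
        rw [map_add, Polynomial.aeval_monomial]
        ring
      obtain ⟨Q₀, hQ₀⟩ := ih _ hdeg P.eraseLead hmem rfl
      refine ⟨Q₀ + Polynomial.monomial n a₀, ?_⟩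
      rw [Polynomial.map_add, Polynomial.map_monomial, ← hQ₀]
      exact hPdec

/-! ### The case `J₀ = j(q^e)` -/

theorem coeff_qExpand_jqModC_top (K : Type*) [CommRing K] (e : ℕ) [NeZero e] :
    (qExpand K e (jqModC K)).coeff (-(e : ℤ)) = 1 := by
  have h := qExpand_coeff_mul (R := K) e (jqModC K) (-1)
  rw [mul_neg, mul_one] at h
  rw [h, coeff_jqModC_neg_one]

theorem coeff_qExpand_jqModC_low (K : Type*) [CommRing K] (e : ℕ) [NeZero e] {i : ℤ}
    (hi : i < -(e : ℤ)) : (qExpand K e (jqModC K)).coeff i = 0 := by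
  by_cases hd : (e : ℤ) ∣ i
  · obtain ⟨k, rfl⟩ := hd
    rw [qExpand_coeff_mul]
    have he : (0 : ℤ) < e := by exact_mod_cast Nat.pos_of_ne_zero (NeZero.ne e)
    have hk : k < -((1 : ℕ) : ℤ) := by
      push_cast
      nlinarith
    have h := coeff_jqModC_pow_of_lt K (b := 1) hk
    rwa [pow_one] at h
  · exact qExpand_coeff_of_not_dvd e _ hd

theorem coeffMap_qExpand_jqModC (ι : K →+* C) (e : ℕ) [NeZero e] :
    coeffMap ι (qExpand K e (jqModC K)) = qExpand C e (jqModC C) := by
  rw [coeffMap_qExpand]
  congr 1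
  exact map_jqModC ι

/-- **Descent for `j(q^e)`.** If `P(j(q^e))` has coefficients in `K`, so does `P`. -/
theorem exists_map_eq_of_aeval_qExpand_jqModC_mem_range (ι : K →+* C) (e : ℕ) [NeZero e]
    (P : Polynomial C)
    (hP : Polynomial.aeval (qExpand C e (jqModC C)) P ∈ (coeffMap ι).range) :
    ∃ P₀ : Polynomial K, P = P₀.map ι := by
  rw [← coeffMap_qExpand_jqModC ι e] at hP
  exact exists_map_eq_of_aeval_mem_range ι (qExpand K e (jqModC K)) e
    (Nat.pos_of_ne_zero (NeZero.ne e)) (coeff_qExpand_jqModC_top K e)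
    (fun i hi => coeff_qExpand_jqModC_low K e hi) P hP

end Descent

end Fermat.Agent.X0
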