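import Mathlib
import Fermat.Prelude.Def_ModularCurve_X0

/-!
# X0 cluster, package C1 (arithmetic part): `∑_{d ∣ N} #{b < d : gcd(b, d, N/d) = 1} = ψ(N)`
-/

set_option autoImplicit false

open Finset

namespace Fermat.Agent.X0

/-- Sums over the divisors of a product of coprime numbers. -/
theorem sum_divisors_mul_of_coprime {R : Type*} [AddCommMonoid R] {m n : ℕ} (h : m.Coprime n)
    (f : ℕ → R) :
    ∑ d ∈ (m * n).divisors, f d = ∑ d₁ ∈ m.divisors, ∑ d₂ ∈ n.divisors, f (d₁ * d₂) := by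
  rw [Nat.divisors_mul, Finset.mul_def, Finset.sum_image h.mul_injOn_divisors, Finset.sum_product]

/-- Number of `b < k g` coprime to `g`. -/
theorem card_filter_coprime_range_mul (g k : ℕ) :
    ((range (k * g)).filter (Nat.Coprime g)).card = k * Nat.totient g := by
  induction k with
  | zero => simp
  | succ k ih =>
    have hsplit : range ((k + 1) * g) = range (k * g) ∪ Ico (k * g) (k * g + g) := by
      rw [range_eq_Ico, range_eq_Ico, add_mul, one_mul,
        Ico_union_Ico_eq_Ico (Nat.zero_le _) (Nat.le_add_right _ _)]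
    have hdisj : Disjoint ((range (k * g)).filter (Nat.Coprime g))
        ((Ico (k * g) (k * g + g)).filter (Nat.Coprime g)) := by
      apply Finset.disjoint_filter_filter
      rw [range_eq_Ico]
      exact Ico_disjoint_Ico_consecutive 0 (k * g) (k * g + g)
    rw [hsplit, filter_union, card_union_of_disjoint hdisj, ih,
      Nat.filter_coprime_Ico_eq_totient, add_mul, one_mul]

/-- Number of `b < d` coprime to `gcd(d, e)`. -/
theorem card_filter_coprime_gcd (d e : ℕ) :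
    ((range d).filter (Nat.Coprime (Nat.gcd d e))).card =
      d / Nat.gcd d e * Nat.totient (Nat.gcd d e) := by
  have h := card_filter_coprime_range_mul (Nat.gcd d e) (d / Nat.gcd d e)
  rwa [Nat.div_mul_cancel (Nat.gcd_dvd_left d e)] at h

/-- The counting function `∑_{d ∣ N} (d / g_d) φ(g_d)`, `g_d = gcd(d, N/d)`. -/
def psiF (N : ℕ) : ℕ :=
  ∑ d ∈ N.divisors, d / Nat.gcd d (N / d) * Nat.totient (Nat.gcd d (N / d))

theorem psiF_mul {m n : ℕ} (h : m.Coprime n) : psiF (m * n) = psiF m * psiF n := by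
  rw [psiF, psiF, psiF, sum_divisors_mul_of_coprime h, Finset.sum_mul_sum]
  refine Finset.sum_congr rfl fun d₁ hd₁ => Finset.sum_congr rfl fun d₂ hd₂ => ?_
  have h1 : d₁ ∣ m := Nat.dvd_of_mem_divisors hd₁
  have h2 : d₂ ∣ n := Nat.dvd_of_mem_divisors hd₂
  have he1 : m / d₁ ∣ m := Nat.div_dvd_of_dvd h1
  have he2 : n / d₂ ∣ n := Nat.div_dvd_of_dvd h2
  have hdiv : m * n / (d₁ * d₂) = m / d₁ * (n / d₂) := (Nat.div_mul_div_comm h1 h2).symm
  have hcop_e : (m / d₁).Coprime (n / d₂) := Nat.Coprime.coprime_dvd_left he1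
    (Nat.Coprime.coprime_dvd_right he2 h)
  have hcop21 : d₂.Coprime (m / d₁) := (Nat.Coprime.coprime_dvd_left he1
    (Nat.Coprime.coprime_dvd_right h2 h)).symm
  have hcop12 : d₁.Coprime (n / d₂) := Nat.Coprime.coprime_dvd_left h1
    (Nat.Coprime.coprime_dvd_right he2 h)
  have hg : Nat.gcd (d₁ * d₂) (m * n / (d₁ * d₂)) =
      Nat.gcd d₁ (m / d₁) * Nat.gcd d₂ (n / d₂) := by
    rw [hdiv, Nat.Coprime.gcd_mul _ hcop_e, Nat.Coprime.gcd_mul_right_cancel _ hcop21,
      Nat.Coprime.gcd_mul_left_cancel _ hcop12]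
  have hcop_g : (Nat.gcd d₁ (m / d₁)).Coprime (Nat.gcd d₂ (n / d₂)) :=
    Nat.Coprime.coprime_dvd_left ((Nat.gcd_dvd_left _ _).trans h1)
      (Nat.Coprime.coprime_dvd_right ((Nat.gcd_dvd_left _ _).trans h2) h)
  rw [hg, Nat.totient_mul hcop_g,
    ← Nat.div_mul_div_comm (Nat.gcd_dvd_left d₁ (m / d₁)) (Nat.gcd_dvd_left d₂ (n / d₂))]
  ring

theorem dedekindPsi_eq_sum (N : ℕ) :
    ModularCurve.dedekindPsi N = ∑ d ∈ N.divisors, if Squarefree d then N / d else 0 := by
  rw [ModularCurve.dedekindPsi, Finset.sum_filter]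

theorem dedekindPsi_mul {m n : ℕ} (h : m.Coprime n) :
    ModularCurve.dedekindPsi (m * n) = ModularCurve.dedekindPsi m * ModularCurve.dedekindPsi n := by
  rw [dedekindPsi_eq_sum, dedekindPsi_eq_sum, dedekindPsi_eq_sum, sum_divisors_mul_of_coprime h,
    Finset.sum_mul_sum]
  refine Finset.sum_congr rfl fun d₁ hd₁ => Finset.sum_congr rfl fun d₂ hd₂ => ?_
  have h1 : d₁ ∣ m := Nat.dvd_of_mem_divisors hd₁
  have h2 : d₂ ∣ n := Nat.dvd_of_mem_divisors hd₂
  have hcop : d₁.Coprime d₂ := Nat.Coprime.coprime_dvd_left h1 (Nat.Coprime.coprime_dvd_right h2 h)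
  have hdiv : m * n / (d₁ * d₂) = m / d₁ * (n / d₂) := (Nat.div_mul_div_comm h1 h2).symm
  have hsq := Nat.squarefree_mul hcop
  by_cases hs1 : Squarefree d₁ <;> by_cases hs2 : Squarefree d₂
  · rw [if_pos (hsq.mpr ⟨hs1, hs2⟩), if_pos hs1, if_pos hs2, hdiv]
  · rw [if_neg (fun h' => hs2 (hsq.mp h').2), if_neg hs2, mul_zero]
  · rw [if_neg (fun h' => hs1 (hsq.mp h').1), if_neg hs1, zero_mul]
  · rw [if_neg (fun h' => hs1 (hsq.mp h').1), if_neg hs1, zero_mul]

theorem dedekindPsi_prime_pow {p k : ℕ} (hp : p.Prime) (hk : 0 < k) :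
    ModularCurve.dedekindPsi (p ^ k) = p ^ k + p ^ (k - 1) := by
  obtain ⟨j, rfl⟩ : ∃ j, k = j + 1 := ⟨k - 1, (Nat.sub_add_cancel hk).symm⟩
  rw [dedekindPsi_eq_sum, Nat.sum_divisors_prime_pow hp, Finset.sum_range_succ',
    Finset.sum_range_succ']
  have hzero : ∀ i ∈ range j, (if Squarefree (p ^ (i + 1 + 1)) then p ^ (j + 1) / p ^ (i + 1 + 1)
      else 0) = 0 := by
    intro i _
    rw [if_neg]
    rw [Nat.squarefree_pow_iff hp.ne_one (by omega)]
    omega
  rw [Finset.sum_eq_zero hzero, zero_add, pow_zero, if_pos squarefree_one, Nat.div_one, zero_add,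
    pow_one, if_pos hp.squarefree, Nat.add_sub_cancel, pow_succ, Nat.mul_div_cancel _ hp.pos]
  ring

theorem psiF_prime_pow {p k : ℕ} (hp : p.Prime) (hk : 0 < k) :
    psiF (p ^ k) = p ^ k + p ^ (k - 1) := by
  rw [psiF, Nat.sum_divisors_prime_pow hp, Finset.sum_range_succ]
  -- the top term
  have htop : p ^ k / Nat.gcd (p ^ k) (p ^ k / p ^ k) *
      Nat.totient (Nat.gcd (p ^ k) (p ^ k / p ^ k)) = p ^ k := by
    rw [Nat.div_self (pow_pos hp.pos k), Nat.gcd_one_right, Nat.div_one, Nat.totient_one, mul_one]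
  -- the other terms are `φ(p^i)`
  have hlow : ∀ i ∈ range k, p ^ i / Nat.gcd (p ^ i) (p ^ k / p ^ i) *
      Nat.totient (Nat.gcd (p ^ i) (p ^ k / p ^ i)) = Nat.totient (p ^ i) := by
    intro i hi
    have hik : i < k := Finset.mem_range.mp hi
    rw [← card_filter_coprime_gcd, Nat.pow_div hik.le hp.pos]
    rcases Nat.eq_zero_or_pos i with rfl | hi0
    · simp
    · rw [Nat.totient_eq_card_coprime]
      congr 1
      apply Finset.filter_congr
      intro b _
      have hg : ∃ j, 0 < j ∧ Nat.gcd (p ^ i) (p ^ (k - i)) = p ^ j := by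
        rcases le_total i (k - i) with h | h
        · exact ⟨i, hi0, Nat.gcd_eq_left (pow_dvd_pow p h)⟩
        · exact ⟨k - i, by omega, Nat.gcd_eq_right (pow_dvd_pow p h)⟩
      obtain ⟨j, hj, hgj⟩ := hg
      rw [hgj, Nat.coprime_pow_left_iff hj, Nat.coprime_pow_left_iff hi0]
  rw [htop, Finset.sum_congr rfl hlow]
  have hsum : ∑ i ∈ range k, Nat.totient (p ^ i) = p ^ (k - 1) := by
    obtain ⟨j, rfl⟩ : ∃ j, k = j + 1 := ⟨k - 1, (Nat.sub_add_cancel hk).symm⟩
    rw [Nat.add_sub_cancel, ← Nat.sum_divisors_prime_pow (f := Nat.totient) hp]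
    exact Nat.sum_totient _
  rw [hsum, add_comm]

/-- **The counting identity** `∑_{d ∣ N} (d / g_d) φ(g_d) = ψ(N)`. -/
theorem psiF_eq_dedekindPsi (N : ℕ) : psiF N = ModularCurve.dedekindPsi N := by
  induction N using Nat.recOnPosPrimePosCoprime with
  | prime_pow p n hp hn => rw [psiF_prime_pow hp hn, dedekindPsi_prime_pow hp hn]
  | zero => simp [psiF, ModularCurve.dedekindPsi]
  | one => simp [psiF]
  | coprime a b _ _ hab iha ihb => rw [psiF_mul hab, dedekindPsi_mul hab, iha, ihb]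

end Fermat.Agent.X0
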