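import Mathlib
import Fermat.Prelude.Def_ModularCurve_GenusNumerics
import Fermat.Agent.X0.Mod.PsiCount

/-!
# X0 cluster, package C1: the representatives `A_N` of `Γ0(N)\SL2(ℤ)`

`CosetRep N` is the set of triples `(a, b, d)` with `a * d = N`, `b < d`, `gcd(a, b, d) = 1`, thought of
as the upper triangular matrices `!![a, b; 0, d]` (Hermite normal forms of primitive integer
matrices of determinant `N`).  `SL(2, ℤ)` acts on the right on `CosetRep N` via
`α.toMatrix * γ = cofactor α γ * (act α γ).toMatrix`.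
-/

set_option autoImplicit false
set_option linter.unusedSectionVars false

open Matrix ModularGroup
open scoped MatrixGroups

namespace Fermat.Agent.X0

/-- Triples `(a, b, d)` with `a d = N`, `0 ≤ b < d`, `gcd(a, b, d) = 1`. -/
@[ext] structure CosetRep (N : ℕ) where
  a : ℕ
  b : ℕ
  d : ℕ
  mul_eq : a * d = N
  b_lt : b < d
  gcd_eq : Nat.gcd a (Nat.gcd b d) = 1
deriving DecidableEq

namespace CosetRep

variable {N : ℕ}

/-- The upper triangular integer matrix of a representative. -/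
def toMatrix (α : CosetRep N) : Matrix (Fin 2) (Fin 2) ℤ := !![(α.a : ℤ), (α.b : ℤ); 0, (α.d : ℤ)]

@[simp] lemma toMatrix_zero_zero (α : CosetRep N) : α.toMatrix 0 0 = α.a := rfl
@[simp] lemma toMatrix_zero_one (α : CosetRep N) : α.toMatrix 0 1 = α.b := rfl
@[simp] lemma toMatrix_one_zero (α : CosetRep N) : α.toMatrix 1 0 = 0 := rfl
@[simp] lemma toMatrix_one_one (α : CosetRep N) : α.toMatrix 1 1 = α.d := rfl

lemma det_toMatrix (α : CosetRep N) : α.toMatrix.det = N := by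
  rw [det_fin_two]
  simp only [toMatrix_zero_zero, toMatrix_one_one, toMatrix_zero_one, toMatrix_one_zero, mul_zero,
    sub_zero]
  exact_mod_cast α.mul_eq

lemma d_pos (α : CosetRep N) : 0 < α.d := lt_of_le_of_lt (Nat.zero_le _) α.b_lt

lemma a_pos [NeZero N] (α : CosetRep N) : 0 < α.a := by
  rcases Nat.eq_zero_or_pos α.a with h | h
  · exfalso
    have := α.mul_eq
    rw [h, zero_mul] at this
    exact NeZero.ne N this.symm
  · exact h

lemma a_dvd (α : CosetRep N) : α.a ∣ N := ⟨α.d, α.mul_eq.symm⟩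

lemma d_dvd (α : CosetRep N) : α.d ∣ N := ⟨α.a, by rw [mul_comm]; exact α.mul_eq.symm⟩

lemma toMatrix_injective : Function.Injective (toMatrix : CosetRep N → Matrix (Fin 2) (Fin 2) ℤ) := by
  intro α β h
  have h00 := congrFun (congrFun h 0) 0
  have h01 := congrFun (congrFun h 0) 1
  have h11 := congrFun (congrFun h 1) 1
  simp only [toMatrix_zero_zero, toMatrix_zero_one, toMatrix_one_one] at h00 h01 h11
  ext
  · exact_mod_cast h00
  · exact_mod_cast h01
  · exact_mod_cast h11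

noncomputable instance instFintype [NeZero N] : Fintype (CosetRep N) :=
  Fintype.ofInjective
    (fun α : CosetRep N =>
      ((⟨α.a, Nat.lt_succ_of_le (Nat.le_of_dvd (Nat.pos_of_ne_zero (NeZero.ne N)) α.a_dvd)⟩,
        ⟨α.b, Nat.lt_succ_of_le (le_trans α.b_lt.le
          (Nat.le_of_dvd (Nat.pos_of_ne_zero (NeZero.ne N)) α.d_dvd))⟩,
        ⟨α.d, Nat.lt_succ_of_le (Nat.le_of_dvd (Nat.pos_of_ne_zero (NeZero.ne N)) α.d_dvd)⟩) :
        Fin (N + 1) × Fin (N + 1) × Fin (N + 1)))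
    (by
      intro α β h
      simp only [Prod.mk.injEq, Fin.mk.injEq] at h
      exact CosetRep.ext h.1 h.2.1 h.2.2)

/-- The base point `(N, 0, 1)`, i.e. the matrix `!![N, 0; 0, 1]`. -/
def base (N : ℕ) : CosetRep N where
  a := N
  b := 0
  d := 1
  mul_eq := mul_one N
  b_lt := Nat.zero_lt_one
  gcd_eq := by simp

end CosetRep

/-- A `2 × 2` integer matrix is primitive if its entries have no common nonunit divisor. -/
def IsPrimitiveMat (M : Matrix (Fin 2) (Fin 2) ℤ) : Prop :=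
  ∀ n : ℤ, (∀ i j, n ∣ M i j) → IsUnit n

lemma dvd_mul_entries_left {n : ℤ} (A M : Matrix (Fin 2) (Fin 2) ℤ) (h : ∀ i j, n ∣ M i j) :
    ∀ i j, n ∣ (A * M) i j := by
  intro i j
  rw [Matrix.mul_apply]
  exact Finset.dvd_sum fun k _ => Dvd.dvd.mul_left (h k j) _

lemma dvd_mul_entries_right {n : ℤ} (M A : Matrix (Fin 2) (Fin 2) ℤ) (h : ∀ i j, n ∣ M i j) :
    ∀ i j, n ∣ (M * A) i j := by
  intro i j
  rw [Matrix.mul_apply]
  exact Finset.dvd_sum fun k _ => Dvd.dvd.mul_right (h i k) _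

lemma IsPrimitiveMat.sl_mul {M : Matrix (Fin 2) (Fin 2) ℤ} (hM : IsPrimitiveMat M)
    (γ : SL(2, ℤ)) : IsPrimitiveMat ((γ : Matrix (Fin 2) (Fin 2) ℤ) * M) := by
  intro n hn
  apply hM n
  have h := dvd_mul_entries_left ((γ⁻¹ : SL(2, ℤ)) : Matrix (Fin 2) (Fin 2) ℤ) _ hn
  rwa [← Matrix.mul_assoc, ← Matrix.SpecialLinearGroup.coe_mul, inv_mul_cancel,
    Matrix.SpecialLinearGroup.coe_one, Matrix.one_mul] at h

lemma IsPrimitiveMat.mul_sl {M : Matrix (Fin 2) (Fin 2) ℤ} (hM : IsPrimitiveMat M)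
    (γ : SL(2, ℤ)) : IsPrimitiveMat (M * (γ : Matrix (Fin 2) (Fin 2) ℤ)) := by
  intro n hn
  apply hM n
  have h := dvd_mul_entries_right _ ((γ⁻¹ : SL(2, ℤ)) : Matrix (Fin 2) (Fin 2) ℤ) hn
  rwa [Matrix.mul_assoc, ← Matrix.SpecialLinearGroup.coe_mul, mul_inv_cancel,
    Matrix.SpecialLinearGroup.coe_one, Matrix.mul_one] at h

lemma CosetRep.isPrimitiveMat {N : ℕ} (α : CosetRep N) : IsPrimitiveMat α.toMatrix := by
  intro n hn
  have h1 : n ∣ (α.a : ℤ) := hn 0 0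
  have h2 : n ∣ (α.b : ℤ) := hn 0 1
  have h3 : n ∣ (α.d : ℤ) := hn 1 1
  have h4 : n.natAbs ∣ Nat.gcd α.a (Nat.gcd α.b α.d) :=
    Nat.dvd_gcd (Int.natAbs_dvd_natAbs.mpr h1 |>.trans (by simp))
      (Nat.dvd_gcd (Int.natAbs_dvd_natAbs.mpr h2 |>.trans (by simp))
        (Int.natAbs_dvd_natAbs.mpr h3 |>.trans (by simp)))
  rw [α.gcd_eq, Nat.dvd_one] at h4
  exact Int.isUnit_iff_natAbs_eq.mpr h4


/-- Step A of the Hermite normal form: kill the lower left entry by a left multiplication. -/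
lemma exists_sl_mul_lower_zero (M : Matrix (Fin 2) (Fin 2) ℤ) (hdet : M.det ≠ 0) :
    ∃ γ : SL(2, ℤ), ((γ : Matrix (Fin 2) (Fin 2) ℤ) * M) 1 0 = 0 ∧
      0 < ((γ : Matrix (Fin 2) (Fin 2) ℤ) * M) 0 0 := by
  obtain ⟨g, hgpos, x', y', u, v, hx', hy', hbez⟩ : ∃ g : ℤ, 0 < g ∧ ∃ x' y' u v : ℤ,
      M 0 0 = g * x' ∧ M 1 0 = g * y' ∧ g = M 0 0 * u + M 1 0 * v := by
    have hg0 : Int.gcd (M 0 0) (M 1 0) ≠ 0 := by
      intro h
      rw [Int.gcd_eq_zero_iff] at h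
      apply hdet
      rw [det_fin_two, h.1, h.2]
      ring
    obtain ⟨x', hx'⟩ : (Int.gcd (M 0 0) (M 1 0) : ℤ) ∣ M 0 0 := Int.gcd_dvd_left _ _
    obtain ⟨y', hy'⟩ : (Int.gcd (M 0 0) (M 1 0) : ℤ) ∣ M 1 0 := Int.gcd_dvd_right _ _
    exact ⟨Int.gcd (M 0 0) (M 1 0), by exact_mod_cast Nat.pos_of_ne_zero hg0, x', y',
      Int.gcdA _ _, Int.gcdB _ _, hx', hy', Int.gcd_eq_gcd_ab _ _⟩
  have h1 : x' * u + y' * v = 1 := by
    have h2 : g * (x' * u + y' * v) = g * 1 := by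
      rw [mul_one]
      conv_rhs => rw [hbez, hx', hy']
      ring
    exact mul_left_cancel₀ hgpos.ne' h2
  refine ⟨⟨!![u, v; -y', x'], ?_⟩, ?_, ?_⟩
  · rw [det_fin_two_of]; linarith
  · simp only [Matrix.mul_apply, Fin.sum_univ_two, Matrix.of_apply, Matrix.cons_val',
      Matrix.cons_val_zero, Matrix.cons_val_one, Matrix.cons_val_fin_one]
    rw [hx', hy']
    ring
  · simp only [Matrix.mul_apply, Fin.sum_univ_two, Matrix.of_apply, Matrix.cons_val',
      Matrix.cons_val_zero, Matrix.cons_val_one, Matrix.cons_val_fin_one]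
    have : u * M 0 0 + v * M 1 0 = g := by rw [hbez]; ring
    rw [this]
    exact hgpos


/-- **Hermite normal form, existence**: a primitive integer matrix of determinant `N > 0` is
`γ * α` with `γ ∈ SL(2, ℤ)` and `α ∈ A_N`. -/
theorem exists_hermite {N : ℕ} [NeZero N] (M : Matrix (Fin 2) (Fin 2) ℤ) (hdet : M.det = N)
    (hprim : IsPrimitiveMat M) :
    ∃ (γ : SL(2, ℤ)) (α : CosetRep N), M = (γ : Matrix (Fin 2) (Fin 2) ℤ) * α.toMatrix := by
  have hN : (N : ℤ) ≠ 0 := by exact_mod_cast NeZero.ne N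
  obtain ⟨γ₁, h10, h00⟩ := exists_sl_mul_lower_zero M (by rw [hdet]; exact hN)
  set M₁ := (γ₁ : Matrix (Fin 2) (Fin 2) ℤ) * M with hM₁
  have hdet₁ : M₁.det = N := by
    rw [hM₁, Matrix.det_mul, Matrix.SpecialLinearGroup.det_coe, one_mul, hdet]
  have hprim₁ : IsPrimitiveMat M₁ := hprim.sl_mul γ₁
  have had : M₁ 0 0 * M₁ 1 1 = N := by
    rw [det_fin_two, h10, mul_zero, sub_zero] at hdet₁
    exact hdet₁
  have hdpos : 0 < M₁ 1 1 := by
    have hNpos : (0 : ℤ) < N := by exact_mod_cast Nat.pos_of_ne_zero (NeZero.ne N)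
    rw [← had] at hNpos
    rcases lt_trichotomy (M₁ 1 1) 0 with h' | h' | h'
    · exact absurd (mul_neg_of_pos_of_neg h00 h') (not_lt.mpr hNpos.le)
    · rw [h', mul_zero] at hNpos; exact absurd hNpos (lt_irrefl _)
    · exact h'
  -- reduce the upper right entry
  set q := M₁ 0 1 / M₁ 1 1 with hq
  set r := M₁ 0 1 % M₁ 1 1 with hr
  have hr0 : 0 ≤ r := Int.emod_nonneg _ hdpos.ne'
  have hrlt : r < M₁ 1 1 := Int.emod_lt_of_pos _ hdpos
  have hqr : M₁ 0 1 = r + q * M₁ 1 1 := by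
    rw [hq, hr, mul_comm]; exact (Int.emod_add_mul_ediv _ _).symm
  -- the candidate matrix
  set M₂ : Matrix (Fin 2) (Fin 2) ℤ := !![M₁ 0 0, r; 0, M₁ 1 1] with hM₂
  have hM₁₂ : M₁ = ((T ^ q : SL(2, ℤ)) : Matrix (Fin 2) (Fin 2) ℤ) * M₂ := by
    rw [coe_T_zpow, hM₂]
    ext i j
    fin_cases i <;> fin_cases j <;>
      simp [Matrix.mul_apply, Fin.sum_univ_two, h10, hqr]
  have hprim₂ : IsPrimitiveMat M₂ := by
    have : M₂ = ((T ^ (-q) : SL(2, ℤ)) : Matrix (Fin 2) (Fin 2) ℤ) * M₁ := by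
      rw [hM₁₂, ← Matrix.mul_assoc, ← Matrix.SpecialLinearGroup.coe_mul, ← _root_.zpow_add,
        neg_add_cancel, zpow_zero, Matrix.SpecialLinearGroup.coe_one, Matrix.one_mul]
    rw [this]
    exact hprim₁.sl_mul _
  -- build the representative
  have ha_nat : ((M₁ 0 0).toNat : ℤ) = M₁ 0 0 := Int.toNat_of_nonneg h00.le
  have hb_nat : (r.toNat : ℤ) = r := Int.toNat_of_nonneg hr0
  have hd_nat : ((M₁ 1 1).toNat : ℤ) = M₁ 1 1 := Int.toNat_of_nonneg hdpos.le
  have hgcd : Nat.gcd (M₁ 0 0).toNat (Nat.gcd r.toNat (M₁ 1 1).toNat) = 1 := by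
    set g := Nat.gcd (M₁ 0 0).toNat (Nat.gcd r.toNat (M₁ 1 1).toNat) with hg
    have hga : (g : ℤ) ∣ M₁ 0 0 := by
      rw [← ha_nat]; exact_mod_cast Nat.gcd_dvd_left _ _
    have hgb : (g : ℤ) ∣ r := by
      rw [← hb_nat]
      exact_mod_cast (Nat.gcd_dvd_right _ _).trans (Nat.gcd_dvd_left _ _)
    have hgd : (g : ℤ) ∣ M₁ 1 1 := by
      rw [← hd_nat]
      exact_mod_cast (Nat.gcd_dvd_right _ _).trans (Nat.gcd_dvd_right _ _)
    have hunit : IsUnit (g : ℤ) := by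
      apply hprim₂
      intro i j
      fin_cases i <;> fin_cases j <;> simp [hM₂, hga, hgb, hgd]
    have := Int.isUnit_iff_natAbs_eq.mp hunit
    simpa using this
  let α : CosetRep N :=
    { a := (M₁ 0 0).toNat
      b := r.toNat
      d := (M₁ 1 1).toNat
      mul_eq := by
        have : (((M₁ 0 0).toNat * (M₁ 1 1).toNat : ℕ) : ℤ) = (N : ℤ) := by
          push_cast; rw [ha_nat, hd_nat, had]
        exact_mod_cast this
      b_lt := by
        have : (r.toNat : ℤ) < ((M₁ 1 1).toNat : ℤ) := by rw [hb_nat, hd_nat]; exact hrlt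
        exact_mod_cast this
      gcd_eq := hgcd }
  have hα : α.toMatrix = M₂ := by
    simp only [CosetRep.toMatrix, α, hM₂, ha_nat, hb_nat, hd_nat]
  refine ⟨γ₁⁻¹ * T ^ q, α, ?_⟩
  rw [hα, Matrix.SpecialLinearGroup.coe_mul, Matrix.mul_assoc, ← hM₁₂, hM₁, ← Matrix.mul_assoc,
    ← Matrix.SpecialLinearGroup.coe_mul, inv_mul_cancel, Matrix.SpecialLinearGroup.coe_one,
    Matrix.one_mul]


/-- Key rigidity: if `δ * α₁ = α₂` with `δ ∈ SL(2, ℤ)` and `α₁, α₂ ∈ A_N` then `δ = 1`. -/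
lemma sl_eq_one_of_mul_rep {N : ℕ} [NeZero N] (δ : SL(2, ℤ)) (α₁ α₂ : CosetRep N)
    (h : (δ : Matrix (Fin 2) (Fin 2) ℤ) * α₁.toMatrix = α₂.toMatrix) : δ = 1 ∧ α₁ = α₂ := by
  have h00 := congrFun (congrFun h 0) 0
  have h01 := congrFun (congrFun h 0) 1
  have h10 := congrFun (congrFun h 1) 0
  have h11 := congrFun (congrFun h 1) 1
  simp only [Matrix.mul_apply, Fin.sum_univ_two, CosetRep.toMatrix_zero_zero, CosetRep.toMatrix_zero_one,
    CosetRep.toMatrix_one_zero, CosetRep.toMatrix_one_one, mul_zero, add_zero] at h00 h01 h10 h11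
  have ha₁ : (0 : ℤ) < α₁.a := by exact_mod_cast α₁.a_pos
  have ha₂ : (0 : ℤ) < α₂.a := by exact_mod_cast α₂.a_pos
  have hd₁ : (0 : ℤ) < α₁.d := by exact_mod_cast α₁.d_pos
  have hz : (δ : Matrix (Fin 2) (Fin 2) ℤ) 1 0 = 0 := by
    rcases mul_eq_zero.mp h10 with h | h
    · exact h
    · exact absurd h ha₁.ne'
  have hdet := Matrix.SpecialLinearGroup.det_coe δ
  rw [det_fin_two, hz, mul_zero, sub_zero] at hdet
  have hx : (δ : Matrix (Fin 2) (Fin 2) ℤ) 0 0 = 1 := by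
    rcases Int.eq_one_or_neg_one_of_mul_eq_one hdet with hx | hx
    · exact hx
    · exfalso
      rw [hx] at h00
      linarith
  have hw : (δ : Matrix (Fin 2) (Fin 2) ℤ) 1 1 = 1 := by rw [hx, one_mul] at hdet; exact hdet
  rw [hx, one_mul] at h00
  rw [hz, zero_mul, zero_add, hw, one_mul] at h11
  rw [hx, one_mul] at h01
  have hb₁ : (α₁.b : ℤ) < α₁.d := by exact_mod_cast α₁.b_lt
  have hb₂ : (α₂.b : ℤ) < α₁.d := by rw [h11]; exact_mod_cast α₂.b_lt
  have hb₁0 : (0 : ℤ) ≤ α₁.b := by positivity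
  have hb₂0 : (0 : ℤ) ≤ α₂.b := by positivity
  have hy : (δ : Matrix (Fin 2) (Fin 2) ℤ) 0 1 = 0 := by
    by_contra hne
    rcases lt_or_gt_of_ne hne with hneg | hpos
    · have : (δ : Matrix (Fin 2) (Fin 2) ℤ) 0 1 ≤ -1 := by omega
      nlinarith
    · have : 1 ≤ (δ : Matrix (Fin 2) (Fin 2) ℤ) 0 1 := by omega
      nlinarith
  rw [hy, zero_mul, add_zero] at h01
  constructor
  · ext i j
    fin_cases i <;> fin_cases j <;> simp [hx, hy, hz, hw]
  · ext
    · exact_mod_cast h00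
    · exact_mod_cast h01
    · exact_mod_cast h11

/-- **Hermite normal form, uniqueness.** -/
theorem hermite_unique {N : ℕ} [NeZero N] (γ₁ γ₂ : SL(2, ℤ)) (α₁ α₂ : CosetRep N)
    (h : (γ₁ : Matrix (Fin 2) (Fin 2) ℤ) * α₁.toMatrix =
      (γ₂ : Matrix (Fin 2) (Fin 2) ℤ) * α₂.toMatrix) : γ₁ = γ₂ ∧ α₁ = α₂ := by
  have h' : ((γ₂⁻¹ * γ₁ : SL(2, ℤ)) : Matrix (Fin 2) (Fin 2) ℤ) * α₁.toMatrix = α₂.toMatrix := by
    rw [Matrix.SpecialLinearGroup.coe_mul, Matrix.mul_assoc, h, ← Matrix.mul_assoc,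
      ← Matrix.SpecialLinearGroup.coe_mul, inv_mul_cancel, Matrix.SpecialLinearGroup.coe_one,
      Matrix.one_mul]
  obtain ⟨h1, h2⟩ := sl_eq_one_of_mul_rep _ _ _ h'
  exact ⟨(inv_mul_eq_one.mp h1).symm, h2⟩


namespace CosetRep

variable {N : ℕ} [NeZero N]

lemma det_toMatrix_mul (α : CosetRep N) (γ : SL(2, ℤ)) :
    (α.toMatrix * (γ : Matrix (Fin 2) (Fin 2) ℤ)).det = N := by
  rw [Matrix.det_mul, Matrix.SpecialLinearGroup.det_coe, mul_one, det_toMatrix]

/-- The left cofactor `γ'` in `α * γ = γ' * α'`. -/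
noncomputable def cofactor (α : CosetRep N) (γ : SL(2, ℤ)) : SL(2, ℤ) :=
  (exists_hermite (α.toMatrix * (γ : Matrix (Fin 2) (Fin 2) ℤ)) (α.det_toMatrix_mul γ)
    (α.isPrimitiveMat.mul_sl γ)).choose

/-- The right action of `SL(2, ℤ)` on `A_N`: `α * γ = γ' * (act α γ)`. -/
noncomputable def act (α : CosetRep N) (γ : SL(2, ℤ)) : CosetRep N :=
  (exists_hermite (α.toMatrix * (γ : Matrix (Fin 2) (Fin 2) ℤ)) (α.det_toMatrix_mul γ)
    (α.isPrimitiveMat.mul_sl γ)).choose_spec.choose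

/-- The defining identity of the action. -/
theorem toMatrix_mul (α : CosetRep N) (γ : SL(2, ℤ)) :
    α.toMatrix * (γ : Matrix (Fin 2) (Fin 2) ℤ) =
      (α.cofactor γ : Matrix (Fin 2) (Fin 2) ℤ) * (α.act γ).toMatrix :=
  (exists_hermite (α.toMatrix * (γ : Matrix (Fin 2) (Fin 2) ℤ)) (α.det_toMatrix_mul γ)
    (α.isPrimitiveMat.mul_sl γ)).choose_spec.choose_spec

/-- Characterisation of the action by the matrix identity. -/
theorem act_eq_of_mul_eq {α β : CosetRep N} {γ γ' : SL(2, ℤ)}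
    (h : α.toMatrix * (γ : Matrix (Fin 2) (Fin 2) ℤ) =
      (γ' : Matrix (Fin 2) (Fin 2) ℤ) * β.toMatrix) : α.act γ = β :=
  (hermite_unique _ _ _ _ ((α.toMatrix_mul γ).symm.trans h)).2

theorem cofactor_eq_of_mul_eq {α β : CosetRep N} {γ γ' : SL(2, ℤ)}
    (h : α.toMatrix * (γ : Matrix (Fin 2) (Fin 2) ℤ) =
      (γ' : Matrix (Fin 2) (Fin 2) ℤ) * β.toMatrix) : α.cofactor γ = γ' :=
  (hermite_unique _ _ _ _ ((α.toMatrix_mul γ).symm.trans h)).1

@[simp] theorem act_one (α : CosetRep N) : α.act 1 = α :=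
  act_eq_of_mul_eq (γ' := 1) (by simp)

@[simp] theorem cofactor_one (α : CosetRep N) : α.cofactor 1 = 1 :=
  cofactor_eq_of_mul_eq (β := α) (by simp)

theorem act_mul (α : CosetRep N) (γ₁ γ₂ : SL(2, ℤ)) : α.act (γ₁ * γ₂) = (α.act γ₁).act γ₂ := by
  apply act_eq_of_mul_eq (γ' := α.cofactor γ₁ * (α.act γ₁).cofactor γ₂)
  rw [Matrix.SpecialLinearGroup.coe_mul, ← Matrix.mul_assoc, toMatrix_mul, Matrix.mul_assoc,
    toMatrix_mul, ← Matrix.mul_assoc, Matrix.SpecialLinearGroup.coe_mul]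

theorem cofactor_mul (α : CosetRep N) (γ₁ γ₂ : SL(2, ℤ)) :
    α.cofactor (γ₁ * γ₂) = α.cofactor γ₁ * (α.act γ₁).cofactor γ₂ := by
  apply cofactor_eq_of_mul_eq (β := (α.act γ₁).act γ₂)
  rw [Matrix.SpecialLinearGroup.coe_mul, ← Matrix.mul_assoc, toMatrix_mul, Matrix.mul_assoc,
    toMatrix_mul, ← Matrix.mul_assoc, Matrix.SpecialLinearGroup.coe_mul]

@[simp] theorem act_act_inv (α : CosetRep N) (γ : SL(2, ℤ)) : (α.act γ).act γ⁻¹ = α := by
  rw [← act_mul, mul_inv_cancel, act_one]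

@[simp] theorem act_inv_act (α : CosetRep N) (γ : SL(2, ℤ)) : (α.act γ⁻¹).act γ = α := by
  rw [← act_mul, inv_mul_cancel, act_one]

/-- The left action `γ • α := act α γ⁻¹` of `SL(2, ℤ)` on `A_N`. -/
noncomputable instance instMulAction : MulAction SL(2, ℤ) (CosetRep N) where
  smul γ α := α.act γ⁻¹
  one_smul α := by show α.act 1⁻¹ = α; rw [inv_one, act_one]
  mul_smul γ₁ γ₂ α := by
    show α.act (γ₁ * γ₂)⁻¹ = (α.act γ₂⁻¹).act γ₁⁻¹
    rw [_root_.mul_inv_rev, act_mul]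

theorem smul_def (γ : SL(2, ℤ)) (α : CosetRep N) : γ • α = α.act γ⁻¹ := rfl

/-- The permutation of `A_N` induced by the right action of `γ`. -/
noncomputable def actPerm (γ : SL(2, ℤ)) : Equiv.Perm (CosetRep N) where
  toFun α := α.act γ
  invFun α := α.act γ⁻¹
  left_inv α := act_act_inv α γ
  right_inv α := act_inv_act α γ

@[simp] theorem actPerm_apply (γ : SL(2, ℤ)) (α : CosetRep N) : actPerm γ α = α.act γ := rfl

end CosetRep


/-- If `gcd(a, b, d) = 1` and `a ≠ 0`, some `b + k d` is coprime to `a`. -/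
lemma exists_coprime_add_mul {a b d : ℕ} (ha : a ≠ 0) (h : Nat.gcd a (Nat.gcd b d) = 1) :
    ∃ k : ℕ, Nat.Coprime (b + k * d) a := by
  let ps : Finset ℕ := {p ∈ a.primeFactors | ¬p ∣ b}
  refine ⟨ps.prod id, ?_⟩
  apply Nat.coprime_of_dvd
  intro p pp hp hpa
  by_cases hpb : p ∣ b
  · have h1 := Nat.dvd_sub hp hpb
    rw [add_comm, Nat.add_sub_cancel] at h1
    rcases pp.dvd_mul.mp h1 with h2 | h2
    · obtain ⟨q, hq, hq'⟩ := (pp.prime.dvd_finsetProd_iff id).mp h2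
      rw [Finset.mem_filter, Nat.mem_primeFactors,
        ← (Nat.prime_dvd_prime_iff_eq pp hq.1.1).mp hq'] at hq
      exact hq.2 hpb
    · have h3 : p ∣ Nat.gcd a (Nat.gcd b d) := Nat.dvd_gcd hpa (Nat.dvd_gcd hpb h2)
      rw [h] at h3
      exact pp.one_lt.ne' (Nat.dvd_one.mp h3)
  · have pps : p ∈ ps := Finset.mem_filter.mpr ⟨Nat.mem_primeFactors.mpr ⟨pp, hpa, ha⟩, hpb⟩
    have h1 := Nat.dvd_sub hp ((Finset.dvd_prod_of_mem id pps).mul_right d)
    rw [Nat.add_sub_cancel] at h1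
    exact hpb h1

namespace CosetRep

variable {N : ℕ} [NeZero N]

/-- **Transitivity**: every representative is in the orbit of the base point `(N, 0, 1)`. -/
theorem exists_act_base_eq (α : CosetRep N) : ∃ γ : SL(2, ℤ), (base N).act γ = α := by
  obtain ⟨k, hk⟩ := exists_coprime_add_mul α.a_pos.ne' α.gcd_eq
  have hcop : IsCoprime ((α.b + k * α.d : ℕ) : ℤ) (α.a : ℤ) := Nat.isCoprime_iff_coprime.mpr hk
  obtain ⟨p, q, hpq⟩ := hcop
  have hN : (N : ℤ) = α.a * α.d := by exact_mod_cast α.mul_eq.symm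
  push_cast at hpq
  refine ⟨⟨!![p, -q; (α.a : ℤ), (α.b : ℤ) + k * α.d], ?_⟩, ?_⟩
  · rw [det_fin_two_of]; linarith
  · apply act_eq_of_mul_eq
      (γ' := ⟨!![p * α.d, -q * α.a - p * α.b; 1, (k : ℤ)], by rw [det_fin_two_of]; linarith⟩)
    ext i j
    fin_cases i <;> fin_cases j <;>
      simp [Matrix.mul_apply, Fin.sum_univ_two, toMatrix, base, hN] <;> ring

/-- The stabiliser of the base point under the right action is `Γ0(N)`. -/
theorem act_base_eq_base_iff (γ : SL(2, ℤ)) :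
    (base N).act γ = base N ↔ γ ∈ CongruenceSubgroup.Gamma0 N := by
  rw [CongruenceSubgroup.Gamma0_mem]
  constructor
  · intro h
    have h1 := (base N).toMatrix_mul γ
    rw [h] at h1
    have h10 := congrFun (congrFun h1 1) 0
    simp [Matrix.mul_apply, Fin.sum_univ_two, toMatrix, base] at h10
    rw [h10]
    simp
  · intro h
    obtain ⟨m, hm⟩ := (ZMod.intCast_zmod_eq_zero_iff_dvd _ _).mp h
    have hdet := Matrix.SpecialLinearGroup.det_coe γ
    rw [det_fin_two] at hdet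
    apply act_eq_of_mul_eq
      (γ' := ⟨!![(γ : Matrix (Fin 2) (Fin 2) ℤ) 0 0, N * (γ : Matrix (Fin 2) (Fin 2) ℤ) 0 1; m,
        (γ : Matrix (Fin 2) (Fin 2) ℤ) 1 1], by
          rw [det_fin_two_of]; rw [hm] at hdet; linarith⟩)
    ext i j
    fin_cases i <;> fin_cases j <;>
      simp [Matrix.mul_apply, Fin.sum_univ_two, toMatrix, base, hm] <;> ring

instance instIsPretransitive : MulAction.IsPretransitive SL(2, ℤ) (CosetRep N) := by
  refine ⟨fun α β => ?_⟩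
  obtain ⟨g, hg⟩ := exists_act_base_eq α
  obtain ⟨g', hg'⟩ := exists_act_base_eq β
  refine ⟨g'⁻¹ * g, ?_⟩
  rw [smul_def, _root_.mul_inv_rev, inv_inv, ← hg, ← act_mul, ← mul_assoc, mul_inv_cancel,
    one_mul, hg']

theorem stabilizer_base : MulAction.stabilizer SL(2, ℤ) (base N) = CongruenceSubgroup.Gamma0 N := by
  ext γ
  rw [MulAction.mem_stabilizer_iff, smul_def, act_base_eq_base_iff, inv_mem_iff]

/-- `A_N ≃ SL(2, ℤ) ⧸ Γ0(N)` (left cosets; `γ • base ↦ γ Γ0(N)`). -/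
noncomputable def equivQuotient : CosetRep N ≃ SL(2, ℤ) ⧸ CongruenceSubgroup.Gamma0 N :=
  (Equiv.Set.univ (CosetRep N)).symm.trans <|
    (Equiv.setCongr (MulAction.orbit_eq_univ SL(2, ℤ) (base N)).symm).trans <|
      (MulAction.orbitEquivQuotientStabilizer SL(2, ℤ) (base N)).trans
        (Subgroup.quotientEquivOfEq stabilizer_base)

theorem equivQuotient_symm_mk (γ : SL(2, ℤ)) :
    equivQuotient.symm (γ : SL(2, ℤ) ⧸ CongruenceSubgroup.Gamma0 N) = γ • base N := by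
  simp [equivQuotient, Subgroup.quotientEquivOfEq, MulAction.orbitEquivQuotientStabilizer_symm_apply]

end CosetRep


namespace CosetRep

variable {N : ℕ} [NeZero N]

/-- `γ ↦ actPerm γ` is an anti-homomorphism. -/
theorem actPerm_mul (γ₁ γ₂ : SL(2, ℤ)) :
    (actPerm (γ₁ * γ₂) : Equiv.Perm (CosetRep N)) = actPerm γ₂ * actPerm γ₁ :=
  Equiv.ext fun α => by simp [act_mul]

@[simp] theorem actPerm_one : (actPerm 1 : Equiv.Perm (CosetRep N)) = 1 :=
  Equiv.ext fun α => by simp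

theorem actPerm_inv (γ : SL(2, ℤ)) : (actPerm γ⁻¹ : Equiv.Perm (CosetRep N)) = (actPerm γ)⁻¹ := by
  apply eq_inv_of_mul_eq_one_left
  rw [← actPerm_mul, mul_inv_cancel, actPerm_one]

theorem actPerm_pow (γ : SL(2, ℤ)) (n : ℕ) :
    (actPerm (γ ^ n) : Equiv.Perm (CosetRep N)) = actPerm γ ^ n := by
  induction n with
  | zero => simp
  | succ n ih => rw [pow_succ, actPerm_mul, ih, pow_succ']

theorem actPerm_zpow (γ : SL(2, ℤ)) (i : ℤ) :
    (actPerm (γ ^ i) : Equiv.Perm (CosetRep N)) = actPerm γ ^ i := by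
  cases i with
  | ofNat n => simp [actPerm_pow]
  | negSucc n => simp only [zpow_negSucc, actPerm_inv, actPerm_pow]

/-- The action of `T ^ i` : `(a, b, d) ↦ (a, (b + i a) mod d, d)`. -/
theorem act_T_zpow (α : CosetRep N) (i : ℤ) :
    (α.act (T ^ i)).a = α.a ∧ (α.act (T ^ i)).d = α.d ∧
      ((α.act (T ^ i)).b : ℤ) = ((α.b : ℤ) + i * α.a) % α.d := by
  have h := α.toMatrix_mul (T ^ i)
  set β := α.act (T ^ i) with hβ
  set c := α.cofactor (T ^ i) with hc
  rw [coe_T_zpow] at h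
  have h00 := congrFun (congrFun h 0) 0
  have h01 := congrFun (congrFun h 0) 1
  have h10 := congrFun (congrFun h 1) 0
  have h11 := congrFun (congrFun h 1) 1
  simp only [Matrix.mul_apply, Fin.sum_univ_two, CosetRep.toMatrix_zero_zero, CosetRep.toMatrix_zero_one,
    CosetRep.toMatrix_one_zero, CosetRep.toMatrix_one_one, mul_zero, add_zero, Matrix.of_apply,
    Matrix.cons_val', Matrix.cons_val_zero, Matrix.cons_val_one, Matrix.cons_val_fin_one,
    mul_one, zero_mul, zero_add] at h00 h01 h10 h11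
  have ha : (0 : ℤ) < α.a := by exact_mod_cast α.a_pos
  have haβ : (0 : ℤ) < β.a := by exact_mod_cast β.a_pos
  have hdβ : (0 : ℤ) < β.d := by exact_mod_cast β.d_pos
  have hz : (c : Matrix (Fin 2) (Fin 2) ℤ) 1 0 = 0 := by
    rcases mul_eq_zero.mp h10.symm with h' | h'
    · exact h'
    · exact absurd h' haβ.ne'
  have hdet := Matrix.SpecialLinearGroup.det_coe c
  rw [det_fin_two, hz, mul_zero, sub_zero] at hdet
  have hx : (c : Matrix (Fin 2) (Fin 2) ℤ) 0 0 = 1 := by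
    rcases Int.eq_one_or_neg_one_of_mul_eq_one hdet with hx | hx
    · exact hx
    · exfalso
      rw [hx] at h00
      linarith
  have hw : (c : Matrix (Fin 2) (Fin 2) ℤ) 1 1 = 1 := by rw [hx, one_mul] at hdet; exact hdet
  rw [hx, one_mul] at h00
  rw [hz, zero_mul, zero_add, hw, one_mul] at h11
  rw [hx, one_mul] at h01
  have hbβ : (β.b : ℤ) < α.d := by rw [h11]; exact_mod_cast β.b_lt
  have hbβ0 : (0 : ℤ) ≤ β.b := by positivity
  refine ⟨by exact_mod_cast h00.symm, by exact_mod_cast h11.symm, ?_⟩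
  have h2 : (α.b : ℤ) + i * α.a = β.b + (c : Matrix (Fin 2) (Fin 2) ℤ) 0 1 * α.d := by
    rw [h11]; linarith
  rw [h2, Int.add_mul_emod_self_right, Int.emod_eq_of_lt hbβ0 hbβ]

/-- `T` acts by `(a, b, d) ↦ (a, (b + a) % d, d)`. -/
theorem act_T (α : CosetRep N) :
    (α.act T).a = α.a ∧ (α.act T).d = α.d ∧ (α.act T).b = (α.b + α.a) % α.d := by
  have h := act_T_zpow α 1
  rw [zpow_one, one_mul] at h
  refine ⟨h.1, h.2.1, ?_⟩
  have := h.2.2
  exact_mod_cast this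

end CosetRep


namespace CosetRep

variable {N : ℕ} [NeZero N]

lemma a_eq_of_d_eq {α β : CosetRep N} (h : α.d = β.d) : α.a = β.a := by
  have h1 : α.a * α.d = β.a * α.d := by rw [α.mul_eq, h, β.mul_eq]
  exact Nat.eq_of_mul_eq_mul_right α.d_pos h1

lemma a_eq_div (α : CosetRep N) : α.a = N / α.d :=
  (Nat.div_eq_of_eq_mul_left α.d_pos α.mul_eq.symm).symm

/-- Two representatives are in the same `T`-cycle iff they have the same `d` and the same
`b mod gcd(d, a)`. -/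
theorem sameCycle_T_iff (α β : CosetRep N) :
    (actPerm T : Equiv.Perm (CosetRep N)).SameCycle α β ↔
      α.d = β.d ∧ α.b % Nat.gcd α.d α.a = β.b % Nat.gcd α.d α.a := by
  set g := Nat.gcd α.d α.a with hg
  have hgd : (g : ℤ) ∣ (α.d : ℤ) := by exact_mod_cast Nat.gcd_dvd_left α.d α.a
  have hga : (g : ℤ) ∣ (α.a : ℤ) := by exact_mod_cast Nat.gcd_dvd_right α.d α.a
  constructor
  · rintro ⟨i, hi⟩
    rw [← actPerm_zpow, actPerm_apply] at hi
    obtain ⟨h1, h2, h3⟩ := act_T_zpow α i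
    rw [hi] at h1 h2 h3
    refine ⟨h2.symm, ?_⟩
    have h4 : ((β.b : ℤ)) % g = (α.b : ℤ) % g := by
      rw [h3, Int.emod_emod_of_dvd _ hgd]
      obtain ⟨m, hm⟩ := hga
      rw [hm, show (α.b : ℤ) + i * (↑g * m) = α.b + ↑g * (i * m) by ring,
        Int.add_mul_emod_self_left]
    have h5 : ((β.b % g : ℕ) : ℤ) = ((α.b % g : ℕ) : ℤ) := by
      rw [Int.natCast_mod, Int.natCast_mod]; exact h4
    exact_mod_cast h5.symm
  · rintro ⟨hd, hb⟩
    have ha : α.a = β.a := a_eq_of_d_eq hd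
    -- find `i` with `b + i a ≡ b' mod d`
    have hdvd : (g : ℤ) ∣ (β.b : ℤ) - α.b := (Nat.modEq_iff_dvd).mp hb
    obtain ⟨m, hm⟩ := hdvd
    have hbez : (g : ℤ) = α.d * Int.gcdA α.d α.a + α.a * Int.gcdB α.d α.a := by
      have := Int.gcd_eq_gcd_ab (α.d : ℤ) (α.a : ℤ)
      rw [Int.gcd_natCast_natCast] at this
      exact this
    refine ⟨Int.gcdB α.d α.a * m, ?_⟩
    rw [← actPerm_zpow, actPerm_apply]
    obtain ⟨h1, h2, h3⟩ := act_T_zpow α (Int.gcdB α.d α.a * m)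
    ext
    · rw [h1, ha]
    · have hbβ : (β.b : ℤ) < α.d := by rw [hd]; exact_mod_cast β.b_lt
      have hbβ0 : (0 : ℤ) ≤ β.b := by positivity
      have h4 : (α.b : ℤ) + Int.gcdB α.d α.a * m * α.a =
          β.b + α.d * (-(Int.gcdA α.d α.a * m)) := by
        have : (β.b : ℤ) = α.b + g * m := by linarith
        rw [this, hbez]; ring
      rw [h4, Int.add_mul_emod_self_left, Int.emod_eq_of_lt hbβ0 hbβ] at h3
      exact_mod_cast h3
    · rw [h2, hd]

/-- The invariant `(d, b mod gcd(d, N/d))` of a `T`-cycle. -/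
def cuspInv (α : CosetRep N) : Σ _ : ℕ, ℕ := ⟨α.d, α.b % Nat.gcd α.d (N / α.d)⟩

theorem sameCycle_T_iff_cuspInv (α β : CosetRep N) :
    (actPerm T : Equiv.Perm (CosetRep N)).SameCycle α β ↔ cuspInv α = cuspInv β := by
  rw [sameCycle_T_iff, cuspInv, cuspInv, ← a_eq_div, ← a_eq_div]
  constructor
  · rintro ⟨h1, h2⟩
    have ha := a_eq_of_d_eq h1
    rw [← h1, ← ha, h2]
  · intro h
    have h1 : α.d = β.d := congrArg Sigma.fst h
    have ha := a_eq_of_d_eq h1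
    refine ⟨h1, ?_⟩
    have h2 := h
    rw [← h1, ← ha] at h2
    simpa using h2

/-- The index set of the cusps of `X0(N)`. -/
def cuspIndex (N : ℕ) : Finset (Σ _ : ℕ, ℕ) :=
  N.divisors.sigma fun d =>
    (Finset.range (Nat.gcd d (N / d))).filter (Nat.Coprime (Nat.gcd d (N / d)))

theorem card_cuspIndex (N : ℕ) : (cuspIndex N).card = ModularCurve.cuspCount N := by
  rw [cuspIndex, Finset.card_sigma, ModularCurve.cuspCount]
  exact Finset.sum_congr rfl fun d _ => (Nat.totient_eq_card_coprime _).symm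

theorem range_cuspInv : Set.range (cuspInv : CosetRep N → Σ _ : ℕ, ℕ) = ↑(cuspIndex N) := by
  ext ⟨d, c⟩
  simp only [Set.mem_range, cuspIndex, Finset.coe_sigma, Set.mem_sigma_iff, Finset.mem_coe,
    Nat.mem_divisors, Finset.mem_filter, Finset.mem_range]
  constructor
  · rintro ⟨α, hα⟩
    have h1 : α.d = d := congrArg Sigma.fst hα
    subst h1
    have h2 : α.b % Nat.gcd α.d (N / α.d) = c := by
      simpa [cuspInv] using hα
    subst h2
    have hgpos : 0 < Nat.gcd α.d (N / α.d) := Nat.gcd_pos_of_pos_left _ α.d_pos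
    refine ⟨⟨α.d_dvd, NeZero.ne N⟩, Nat.mod_lt _ hgpos, ?_⟩
    -- coprimality
    rw [← a_eq_div]
    have h3 : Nat.gcd (Nat.gcd α.d α.a) (α.b % Nat.gcd α.d α.a) =
        Nat.gcd (Nat.gcd α.d α.a) α.b := by
      rw [Nat.gcd_comm, ← Nat.gcd_rec, Nat.gcd_comm]
    rw [Nat.Coprime, h3]
    have h4 : Nat.gcd (Nat.gcd α.d α.a) α.b ∣ Nat.gcd α.a (Nat.gcd α.b α.d) :=
      Nat.dvd_gcd ((Nat.gcd_dvd_left _ _).trans (Nat.gcd_dvd_right _ _))
        (Nat.dvd_gcd (Nat.gcd_dvd_right _ _) ((Nat.gcd_dvd_left _ _).trans (Nat.gcd_dvd_left _ _)))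
    rw [α.gcd_eq] at h4
    exact Nat.dvd_one.mp h4
  · rintro ⟨⟨hd, hN⟩, hc, hcop⟩
    have hdpos : 0 < d := Nat.pos_of_dvd_of_pos hd (Nat.pos_of_ne_zero hN)
    have hgd : Nat.gcd d (N / d) ≤ d := Nat.le_of_dvd hdpos (Nat.gcd_dvd_left _ _)
    refine ⟨⟨N / d, c, d, Nat.div_mul_cancel hd, lt_of_lt_of_le hc hgd, ?_⟩, ?_⟩
    · have h4 : Nat.gcd (N / d) (Nat.gcd c d) ∣ Nat.gcd (Nat.gcd d (N / d)) c :=
        Nat.dvd_gcd (Nat.dvd_gcd ((Nat.gcd_dvd_right _ _).trans (Nat.gcd_dvd_right _ _))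
          (Nat.gcd_dvd_left _ _)) ((Nat.gcd_dvd_right _ _).trans (Nat.gcd_dvd_left _ _))
      rw [Nat.Coprime] at hcop
      rw [hcop] at h4
      exact Nat.dvd_one.mp h4
    · simp only [cuspInv]
      rw [Nat.mod_eq_of_lt hc]

/-- **The number of `T`-cycles on `A_N` is the number of cusps `∑_{d ∣ N} φ(gcd(d, N/d))`.** -/
theorem card_cycles_T :
    Nat.card (Quotient (Equiv.Perm.SameCycle.setoid (actPerm T : Equiv.Perm (CosetRep N)))) =
      ModularCurve.cuspCount N := by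
  have hs : Equiv.Perm.SameCycle.setoid (actPerm T : Equiv.Perm (CosetRep N)) =
      Setoid.ker (cuspInv : CosetRep N → Σ _ : ℕ, ℕ) := by
    ext α β
    exact sameCycle_T_iff_cuspInv α β
  rw [hs, Nat.card_congr (Setoid.quotientKerEquivRange _), range_cuspInv, Nat.card_coe_set_eq,
    Set.ncard_coe_finset, card_cuspIndex]

end CosetRep


namespace CosetRep

variable {N : ℕ} [NeZero N]

/-- The index set `{(d, b) : d ∣ N, b < d, gcd(b, d, N/d) = 1}` of `A_N`. -/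
def repIndex (N : ℕ) : Finset (Σ _ : ℕ, ℕ) :=
  N.divisors.sigma fun d => (Finset.range d).filter (Nat.Coprime (Nat.gcd d (N / d)))

theorem card_repIndex (N : ℕ) : (repIndex N).card = psiF N := by
  rw [repIndex, Finset.card_sigma, psiF]
  exact Finset.sum_congr rfl fun d _ => card_filter_coprime_gcd d (N / d)

/-- `(a, b, d) ↦ (d, b)`. -/
def toIndex (α : CosetRep N) : Σ _ : ℕ, ℕ := ⟨α.d, α.b⟩

theorem toIndex_injective : Function.Injective (toIndex : CosetRep N → Σ _ : ℕ, ℕ) := by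
  intro α β h
  have h1 : α.d = β.d := congrArg Sigma.fst h
  have h2 : α.b = β.b := by
    have := h
    simp only [toIndex] at this
    exact eq_of_heq (Sigma.mk.inj this).2
  exact CosetRep.ext (a_eq_of_d_eq h1) h2 h1

theorem range_toIndex : Set.range (toIndex : CosetRep N → Σ _ : ℕ, ℕ) = ↑(repIndex N) := by
  ext ⟨d, b⟩
  simp only [Set.mem_range, repIndex, Finset.coe_sigma, Set.mem_sigma_iff, Finset.mem_coe,
    Nat.mem_divisors, Finset.mem_filter, Finset.mem_range]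
  constructor
  · rintro ⟨α, hα⟩
    have h1 : α.d = d := congrArg Sigma.fst hα
    subst h1
    have h2 : α.b = b := by
      simp only [toIndex] at hα
      exact eq_of_heq (Sigma.mk.inj hα).2
    subst h2
    refine ⟨⟨α.d_dvd, NeZero.ne N⟩, α.b_lt, ?_⟩
    rw [← a_eq_div]
    have h4 : Nat.gcd (Nat.gcd α.d α.a) α.b ∣ Nat.gcd α.a (Nat.gcd α.b α.d) :=
      Nat.dvd_gcd ((Nat.gcd_dvd_left _ _).trans (Nat.gcd_dvd_right _ _))
        (Nat.dvd_gcd (Nat.gcd_dvd_right _ _) ((Nat.gcd_dvd_left _ _).trans (Nat.gcd_dvd_left _ _)))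
    rw [α.gcd_eq] at h4
    exact Nat.dvd_one.mp h4
  · rintro ⟨⟨hd, hN⟩, hb, hcop⟩
    refine ⟨⟨N / d, b, d, Nat.div_mul_cancel hd, hb, ?_⟩, rfl⟩
    have h4 : Nat.gcd (N / d) (Nat.gcd b d) ∣ Nat.gcd (Nat.gcd d (N / d)) b :=
      Nat.dvd_gcd (Nat.dvd_gcd ((Nat.gcd_dvd_right _ _).trans (Nat.gcd_dvd_right _ _))
        (Nat.gcd_dvd_left _ _)) ((Nat.gcd_dvd_right _ _).trans (Nat.gcd_dvd_left _ _))
    rw [Nat.Coprime] at hcop
    rw [hcop] at h4
    exact Nat.dvd_one.mp h4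

/-- **`#A_N = ψ(N)`.** -/
theorem card_rep : Fintype.card (CosetRep N) = ModularCurve.dedekindPsi N := by
  rw [← Nat.card_eq_fintype_card, Nat.card_congr (Equiv.ofInjective _ toIndex_injective),
    range_toIndex, Nat.card_coe_set_eq, Set.ncard_coe_finset, card_repIndex, psiF_eq_dedekindPsi]

theorem natCard_rep : Nat.card (CosetRep N) = ModularCurve.dedekindPsi N := by
  rw [Nat.card_eq_fintype_card, card_rep]

/-- The index of `Γ0(N)` in `SL(2, ℤ)` is `ψ(N)`. -/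
theorem index_Gamma0 : (CongruenceSubgroup.Gamma0 N).index = ModularCurve.dedekindPsi N := by
  rw [Subgroup.index, ← Nat.card_congr (equivQuotient (N := N)), natCard_rep]

end CosetRep

end Fermat.Agent.X0
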