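/-
Mod/Setup: the base field `Kb = AlgebraicClosure ℚ`, its embedding into `ℂ`, the induced algebra
structures on `HolH` and `MerH`, and the functions `jAt α = j ∘ α` for `α ∈ CosetRep N`.
-/
import Mathlib
import Fermat.Prelude.Def_ModularCurve_ArithmeticGalois
import Fermat.Prelude.Def_ModularCurve_JqCoeff
import Fermat.Agent.X0.Ana.HolRing
import Fermat.Agent.X0.Ana.JFunction
import Fermat.Agent.X0.Ana.JHol
import Fermat.Agent.X0.Mod.Reps

set_option autoImplicit false

namespace Fermat.Agent.X0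

open UpperHalfPlane Matrix
open scoped MatrixGroups

/-! ### The base field -/

/-- The base field of the modular function field. -/
abbrev Kb : Type := AlgebraicClosure ℚ

/-- A fixed embedding of `Kb` into `ℂ`, as a `ℚ`-algebra homomorphism. -/
noncomputable def iotaAlg : Kb →ₐ[ℚ] ℂ :=
  haveI : Algebra.IsAlgebraic ℚ Kb := AlgebraicClosure.isAlgebraic ℚ
  IsAlgClosed.lift

/-- A fixed embedding of `Kb` into `ℂ`. -/
noncomputable def iota : Kb →+* ℂ := iotaAlg.toRingHom

theorem iota_injective : Function.Injective iota := iota.injective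

theorem iota_ratCast (q : ℚ) : iota (q : Kb) = (q : ℂ) := map_ratCast iota q

/-- Every complex number which is integral over `ℚ` is in the image of `iota`. -/
theorem mem_range_iota_of_isIntegral {z : ℂ} (hz : IsIntegral ℚ z) : z ∈ iota.range := by
  have h := hz.mem_range_algHom_of_minpoly_splits (IsAlgClosed.splits _) iotaAlg
  obtain ⟨y, hy⟩ := h
  exact ⟨y, hy⟩

noncomputable instance instAlgebraKbHolH : Algebra Kb HolH :=
  ((algebraMap ℂ HolH).comp iota).toAlgebra

theorem algebraMap_Kb_HolH (c : Kb) : algebraMap Kb HolH c = algebraMap ℂ HolH (iota c) := rfl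

/-- The `Kb`-algebra structure on `MerH = FractionRing HolH` is the one induced from `HolH`. -/
theorem algebraMap_Kb_MerH (c : Kb) : algebraMap Kb MerH c = algebraMap ℂ MerH (iota c) := by
  rw [IsScalarTower.algebraMap_apply Kb HolH MerH, algebraMap_Kb_HolH,
    ← IsScalarTower.algebraMap_apply ℂ HolH MerH]

/-- `ℂ` as a `Kb`-algebra via `iota`. -/
noncomputable instance instAlgebraKbComplex : Algebra Kb ℂ := iota.toAlgebra

theorem algebraMap_Kb_Complex (c : Kb) : algebraMap Kb ℂ c = iota c := rfl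

instance instIsScalarTowerKbComplexHolH : IsScalarTower Kb ℂ HolH :=
  IsScalarTower.of_algebraMap_eq (R := Kb) (S := ℂ) (A := HolH) fun _ => rfl

instance instIsScalarTowerKbComplexMerH : IsScalarTower Kb ℂ MerH :=
  IsScalarTower.of_algebraMap_eq (R := Kb) (S := ℂ) (A := MerH) fun c => algebraMap_Kb_MerH c

/-! ### Matrices -/

theorem coe_glPosOfMatrix (M : Matrix (Fin 2) (Fin 2) ℝ) (h : 0 < M.det) :
    ((glPosOfMatrix M h : GL (Fin 2) ℝ) : Matrix (Fin 2) (Fin 2) ℝ) = M := rfl

theorem coe_slToGLPos (γ : SL(2, ℤ)) :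
    ((slToGLPos γ : GL (Fin 2) ℝ) : Matrix (Fin 2) (Fin 2) ℝ)
      = (γ : Matrix (Fin 2) (Fin 2) ℤ).map (Int.cast : ℤ → ℝ) := rfl

namespace CosetRep

variable {N : ℕ} [NeZero N]

theorem det_map_toMatrix_pos (α : CosetRep N) :
    0 < (α.toMatrix.map (Int.cast : ℤ → ℝ)).det := by
  have h : (α.toMatrix.map (Int.cast : ℤ → ℝ)).det = ((α.toMatrix.det : ℤ) : ℝ) := by
    show (α.toMatrix.map (Int.castRingHom ℝ)).det = (Int.castRingHom ℝ) α.toMatrix.det
    rw [← RingHom.mapMatrix_apply, ← RingHom.map_det]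
  rw [h, det_toMatrix]
  exact_mod_cast Nat.pos_of_ne_zero (NeZero.ne N)

/-- The element of `GL(2, ℝ)⁺` attached to a representative. -/
noncomputable def glPos (α : CosetRep N) : GL(2, ℝ)⁺ :=
  glPosOfMatrix (α.toMatrix.map (Int.cast : ℤ → ℝ)) α.det_map_toMatrix_pos

theorem glPos_mul (α : CosetRep N) (γ : SL(2, ℤ)) :
    α.glPos * slToGLPos γ = slToGLPos (α.cofactor γ) * (α.act γ).glPos := by
  apply Subtype.ext
  apply Units.ext
  show (α.toMatrix.map (Int.castRingHom ℝ)) * ((γ : Matrix (Fin 2) (Fin 2) ℤ).map (Int.castRingHom ℝ))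
    = ((α.cofactor γ : Matrix (Fin 2) (Fin 2) ℤ).map (Int.castRingHom ℝ))
      * ((α.act γ).toMatrix.map (Int.castRingHom ℝ))
  rw [← RingHom.mapMatrix_apply, ← RingHom.mapMatrix_apply,
    ← RingHom.mapMatrix_apply, ← RingHom.mapMatrix_apply, ← map_mul, ← map_mul, toMatrix_mul]

theorem coe_glPos_smul (α : CosetRep N) (τ : ℍ) :
    ((α.glPos • τ : ℍ) : ℂ) = ((α.a : ℂ) * τ + ((α.b : ℤ) : ℂ)) / (α.d : ℂ) := by
  rw [glPos, coe_glPosOfMatrix_smul]
  simp [toMatrix]

end CosetRep

/-! ### The functions `j ∘ α` -/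

section jAt

variable {N : ℕ} [NeZero N]

/-- `jAt α = (τ ↦ j ((a τ + b) / d))`. -/
noncomputable def jAt (α : CosetRep N) : HolH := compGL α.glPos jH

theorem jAt_apply (α : CosetRep N) (τ : ℍ) : (jAt α : ℍ → ℂ) τ = jFun (α.glPos • τ) := rfl

theorem coe_jAt (α : CosetRep N) : (jAt α : ℍ → ℂ) = jFun ∘ (fun τ => α.glPos • τ) := rfl

/-- The right action of `SL(2, ℤ)` on the functions `j ∘ α`. -/
theorem compSL_jAt (γ : SL(2, ℤ)) (α : CosetRep N) : compSL γ (jAt α) = jAt (α.act γ) := by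
  ext τ
  rw [compSL_apply, jAt_apply, jAt_apply, ← slToGLPos_smul γ τ, ← mul_smul, CosetRep.glPos_mul,
    mul_smul, slToGLPos_smul, jFun_smul]

/-- The image of `jAt α` in `MerH`. -/
noncomputable def rM (α : CosetRep N) : MerH := algebraMap HolH MerH (jAt α)

theorem compSLMer_rM (γ : SL(2, ℤ)) (α : CosetRep N) : compSLMer γ (rM α) = rM (α.act γ) := by
  rw [rM, compSLMer_algebraMap, compSL_jAt, rM]

end jAt

theorem jAt_base_one : jAt (CosetRep.base 1) = jH := by
  ext τ
  rw [jAt_apply, jH_apply]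
  congr 1
  apply UpperHalfPlane.ext
  rw [CosetRep.coe_glPos_smul]
  simp [CosetRep.base]

end Fermat.Agent.X0
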