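/-
Mod/Invariant: the `Kb`-subalgebra `RK N` of `HolH` generated by the functions `j ∘ α`
(`α ∈ CosetRep N'`, `N' ∣ N`); its elements are meromorphic at `i∞` with expansion coefficients in
`iota Kb`; it is stable under `SL(2, ℤ)`; its `SL(2, ℤ)`-invariant elements are polynomials in `j`.
-/
import Mathlib
import Fermat.Agent.X0.Mod.Setup
import Fermat.Agent.X0.Ana.QExpJSubst
import Fermat.Agent.X0.Ana.Invariants
import Fermat.Agent.X0.Mod.Descent

set_option autoImplicit false
set_option linter.unusedSectionVars false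
set_option linter.style.haveILetI false

namespace Fermat.Agent.X0

open UpperHalfPlane Function Polynomial
open scoped MatrixGroups Manifold

/-! ### Boundedness in terms of `q = exp (2 π i τ)` -/

theorem qParam_one_eq_qPar_pow {N : ℕ} (hN : 0 < N) (τ : ℍ) :
    Function.Periodic.qParam 1 τ = qPar N τ ^ N := by
  have hNc : (N : ℂ) ≠ 0 := by exact_mod_cast hN.ne'
  rw [qPar_apply, Function.Periodic.qParam, Function.Periodic.qParam, ← Complex.exp_nat_mul]
  congr 1
  push_cast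
  field_simp

theorem IsMerInf.isBounded_mul_qParam_pow {N : ℕ} (hN : 0 < N) {f : ℍ → ℂ}
    (hf : IsMerInf N f) :
    ∃ m : ℕ, IsBoundedAtImInfty (fun τ : ℍ => f τ * Function.Periodic.qParam 1 τ ^ m) := by
  have hN' : (0 : ℝ) < N := by exact_mod_cast hN
  obtain ⟨m, hm⟩ := hf.bdd
  refine ⟨m, ?_⟩
  have h1 : (fun τ : ℍ => f τ * Function.Periodic.qParam 1 τ ^ m)
      = qPar N ^ ((N - 1) * m) * (qPar N ^ m * f) := by
    ext τ
    simp only [Pi.mul_apply, Pi.pow_apply]
    rw [qParam_one_eq_qPar_pow hN, ← pow_mul]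
    have : N * m = (N - 1) * m + m := by
      obtain ⟨k, rfl⟩ : ∃ k, N = k + 1 := ⟨N - 1, by omega⟩
      simp [Nat.add_mul]
    rw [this, pow_add]
    ring
  rw [h1]
  exact ((isHolInf_qPar hN').pow _).bdd.mul hm

/-! ### Rationality of expansions -/

/-- `f` is meromorphic at `i∞` of period `N` with all expansion coefficients in `iota Kb`. -/
def IsRatInf (N : ℕ) (f : ℍ → ℂ) : Prop :=
  IsMerInf N f ∧ ∀ k : ℤ, (expandFun N f).coeff k ∈ iota.fieldRange

namespace IsRatInf

variable {N : ℕ} {f g : ℍ → ℂ}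

theorem const (hN : 0 < N) (c : Kb) : IsRatInf N (fun _ => iota c) := by
  have hN' : (0 : ℝ) < N := by exact_mod_cast hN
  refine ⟨IsMerInf.const _ _, fun k => ?_⟩
  rw [expandFun_const hN', HahnSeries.C_apply, HahnSeries.coeff_single]
  split_ifs
  · exact ⟨c, rfl⟩
  · exact zero_mem _

theorem add (hN : 0 < N) (hf : IsRatInf N f) (hg : IsRatInf N g) : IsRatInf N (f + g) := by
  have hN' : (0 : ℝ) < N := by exact_mod_cast hN
  refine ⟨hf.1.add hN' hg.1, fun k => ?_⟩
  rw [expandFun_add hN' hf.1 hg.1, HahnSeries.coeff_add]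
  exact add_mem (hf.2 k) (hg.2 k)

theorem mul (hN : 0 < N) (hf : IsRatInf N f) (hg : IsRatInf N g) : IsRatInf N (f * g) := by
  have hN' : (0 : ℝ) < N := by exact_mod_cast hN
  refine ⟨hf.1.mul hg.1, fun k => ?_⟩
  rw [expandFun_mul hN' hf.1 hg.1, HahnSeries.coeff_mul]
  exact sum_mem fun ij _ => mul_mem (hf.2 _) (hg.2 _)

end IsRatInf

theorem zetaOf_mem_fieldRange (b : ℤ) {d : ℕ} (hd : 0 < d) : zetaOf b d ∈ iota.fieldRange := by
  have hint : IsIntegral ℚ (zetaOf b d) := by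
    refine ⟨X ^ d - 1, monic_X_pow_sub_C 1 hd.ne', ?_⟩
    simp [zetaOf_pow b hd]
  obtain ⟨y, hy⟩ := mem_range_iota_of_isIntegral hint
  exact ⟨y, hy⟩

theorem coeff_jqModC_mem_fieldRange (k : ℤ) :
    (ModularCurve.jqModC ℂ).coeff k ∈ iota.fieldRange := by
  rw [ModularCurve.jqModC_eq_map_intCast ℂ, HahnSeries.map_coeff]
  exact ⟨((ModularCurve.jqModC ℤ).coeff k : Kb), by simp⟩

section jAt

variable {N N' : ℕ} [NeZero N] [NeZero N']

/-- The exponent `e = N a / d` of the expansion of `j ∘ α` in `u = exp (2 π i τ / N)`. -/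
def CosetRep.expo (N : ℕ) (α : CosetRep N') : ℕ := N / α.d * α.a

theorem CosetRep.expo_mul (h : N' ∣ N) (α : CosetRep N') : α.expo N * α.d = N * α.a := by
  have hd : α.d ∣ N := α.d_dvd.trans h
  rw [CosetRep.expo, mul_assoc, mul_comm α.a, ← mul_assoc, Nat.div_mul_cancel hd]

theorem CosetRep.expo_pos (h : N' ∣ N) (α : CosetRep N') : 0 < α.expo N := by
  have hd : α.d ∣ N := α.d_dvd.trans h
  exact Nat.mul_pos (Nat.div_pos (Nat.le_of_dvd (Nat.pos_of_ne_zero (NeZero.ne N)) hd) α.d_pos)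
    α.a_pos

theorem isMerInf_jAt (h : N' ∣ N) (α : CosetRep N') : IsMerInf N (jAt α : ℍ → ℂ) := by
  rw [coe_jAt]
  exact isMerInf_jFun_comp_affine α.d_pos (Nat.pos_of_ne_zero (NeZero.ne N)) (α.expo_mul h)
    (α.expo_pos h) (fun τ => by rw [CosetRep.coe_glPos_smul])

theorem expandFun_jAt (h : N' ∣ N) (α : CosetRep N') :
    haveI : NeZero (α.expo N) := ⟨(α.expo_pos h).ne'⟩
    expandFun N (jAt α : ℍ → ℂ) =
      ModularCurve.qExpand ℂ (α.expo N) (twistSeries (zetaOf α.b α.d) (ModularCurve.jqModC ℂ)) := by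
  haveI : NeZero (α.expo N) := ⟨(α.expo_pos h).ne'⟩
  rw [coe_jAt]
  exact expandFun_jFun_comp_affine α.d_pos (Nat.pos_of_ne_zero (NeZero.ne N)) (α.expo_mul h)
    (fun τ => by rw [CosetRep.coe_glPos_smul])

theorem isRatInf_jAt (h : N' ∣ N) (α : CosetRep N') : IsRatInf N (jAt α : ℍ → ℂ) := by
  haveI : NeZero (α.expo N) := ⟨(α.expo_pos h).ne'⟩
  refine ⟨isMerInf_jAt h α, fun k => ?_⟩
  rw [expandFun_jAt h α]
  by_cases hk : ((α.expo N : ℕ) : ℤ) ∣ k
  · obtain ⟨m, rfl⟩ := hk
    rw [ModularCurve.qExpand_coeff_mul, twistSeries_coeff]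
    exact mul_mem (zpow_mem (zetaOf_mem_fieldRange _ α.d_pos) _) (coeff_jqModC_mem_fieldRange m)
  · rw [ModularCurve.qExpand_coeff_of_not_dvd _ _ hk]
    exact zero_mem _

end jAt

/-! ### Polynomials in a function meromorphic at `i∞` -/

theorem expandFun_pow {N : ℕ} (hN : 0 < N) {g : ℍ → ℂ} (hg : IsMerInf N g) (n : ℕ) :
    expandFun N (g ^ n) = expandFun N g ^ n := by
  have hN' : (0 : ℝ) < N := by exact_mod_cast hN
  induction n with
  | zero => rw [pow_zero, pow_zero, expandFun_one hN']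
  | succ n ih => rw [pow_succ, pow_succ, expandFun_mul hN' (hg.pow n) hg, ih]

theorem isMerInf_eval_and_expandFun {N : ℕ} (hN : 0 < N) {g : ℍ → ℂ} (hg : IsMerInf N g)
    (P : ℂ[X]) :
    IsMerInf N (fun τ => P.eval (g τ)) ∧
      expandFun N (fun τ => P.eval (g τ)) = aeval (expandFun N g) P := by
  have hN' : (0 : ℝ) < N := by exact_mod_cast hN
  induction P using Polynomial.induction_on' with
  | add p q hp hq =>
    have h : (fun τ => (p + q).eval (g τ)) = (fun τ => p.eval (g τ)) + fun τ => q.eval (g τ) := by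
      ext τ; simp
    rw [h]
    refine ⟨hp.1.add hN' hq.1, ?_⟩
    rw [expandFun_add hN' hp.1 hq.1, hp.2, hq.2, map_add]
  | monomial n c =>
    have h : (fun τ => (monomial n c).eval (g τ)) = (fun _ => c) * g ^ n := by
      ext τ; simp
    rw [h]
    refine ⟨(IsMerInf.const _ c).mul (hg.pow n), ?_⟩
    rw [expandFun_mul hN' (IsMerInf.const _ c) (hg.pow n), expandFun_const hN', expandFun_pow hN hg,
      aeval_monomial, ModularCurve.algebraMap_laurentSeries_eq_single, HahnSeries.C_apply]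

/-! ### Series with coefficients in `iota Kb` -/

theorem mem_range_coeffMap_iota {F : LaurentSeries ℂ} (h : ∀ k : ℤ, F.coeff k ∈ iota.fieldRange) :
    F ∈ (ModularCurve.coeffMap iota).range := by
  classical
  choose c hc using h
  have hsupp : Function.support c ⊆ F.support := by
    intro k hk
    rw [Function.mem_support] at hk
    rw [HahnSeries.mem_support, ← hc k]
    exact fun h0 => hk (iota_injective (by rw [h0, map_zero]))
  refine ⟨⟨c, F.isPWO_support.mono hsupp⟩, ?_⟩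
  ext k
  rw [ModularCurve.coeffMap_coeff]
  exact hc k

/-! ### The subalgebra `RK N` -/

/-- The generators: all `j ∘ α`, `α ∈ CosetRep N'`, `N' ∣ N`. -/
def genSet (N : ℕ) : Set HolH :=
  {f | ∃ (N' : ℕ) (hN' : NeZero N') (_ : N' ∣ N) (α : CosetRep N'), f = @jAt N' hN' α}

theorem jAt_mem_genSet {N N' : ℕ} [NeZero N'] (h : N' ∣ N) (α : CosetRep N') :
    jAt α ∈ genSet N := ⟨N', inferInstance, h, α, rfl⟩

/-- The `Kb`-subalgebra of `HolH` generated by the `j ∘ α`. -/
noncomputable def RK (N : ℕ) : Subalgebra Kb HolH := Algebra.adjoin Kb (genSet N)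

theorem jAt_mem_RK {N N' : ℕ} [NeZero N'] (h : N' ∣ N) (α : CosetRep N') : jAt α ∈ RK N :=
  Algebra.subset_adjoin (jAt_mem_genSet h α)

theorem jH_mem_RK (N : ℕ) : jH ∈ RK N := by
  rw [← jAt_base_one]
  exact jAt_mem_RK (one_dvd N) _

theorem isRatInf_of_mem_RK {N : ℕ} [NeZero N] {f : HolH} (hf : f ∈ RK N) :
    IsRatInf N (f : ℍ → ℂ) := by
  have hN : 0 < N := Nat.pos_of_ne_zero (NeZero.ne N)
  induction hf using Algebra.adjoin_induction with
  | mem x hx =>
    obtain ⟨N', hN', hdvd, α, rfl⟩ := hx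
    exact isRatInf_jAt hdvd α
  | algebraMap c => exact IsRatInf.const hN c
  | add x y _ _ hx hy => exact hx.add hN hy
  | mul x y _ _ hx hy => exact hx.mul hN hy

theorem compSL_mem_RK {N : ℕ} (γ : SL(2, ℤ)) {f : HolH} (hf : f ∈ RK N) :
    compSL γ f ∈ RK N := by
  induction hf using Algebra.adjoin_induction with
  | mem x hx =>
    obtain ⟨N', hN', hdvd, α, rfl⟩ := hx
    rw [compSL_jAt]
    exact jAt_mem_RK hdvd _
  | algebraMap c =>
    rw [algebraMap_Kb_HolH, AlgEquiv.commutes, ← algebraMap_Kb_HolH]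
    exact Subalgebra.algebraMap_mem _ _
  | add x y _ _ hx hy => rw [map_add]; exact add_mem hx hy
  | mul x y _ _ hx hy => rw [map_mul]; exact mul_mem hx hy

theorem expandFun_coe_jH {N : ℕ} [NeZero N] :
    expandFun N (jH : ℍ → ℂ) = ModularCurve.qExpand ℂ N (ModularCurve.jqModC ℂ) := by
  have hN : 0 < N := Nat.pos_of_ne_zero (NeZero.ne N)
  haveI : NeZero (N * 1) := ⟨by simpa using hN.ne'⟩
  have h := expandFun_jFun_comp_mul (N := N) (a := 1) (σ := id) hN (fun τ => by simp)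
  rw [Function.comp_id] at h
  rw [coe_jH, h]
  exact ModularCurve.qExpand_congr (mul_one N) _

/-- **The invariant lemma.**  An `SL(2, ℤ)`-invariant element of `RK N` is a polynomial in `j`
with coefficients in `Kb`. -/
theorem exists_poly_of_invariant {N : ℕ} [NeZero N] {f : HolH} (hf : f ∈ RK N)
    (hinv : ∀ γ : SL(2, ℤ), compSL γ f = f) : ∃ P₀ : Kb[X], f = aeval jH P₀ := by
  have hN : 0 < N := Nat.pos_of_ne_zero (NeZero.ne N)
  have hrat := isRatInf_of_mem_RK hf
  obtain ⟨m, hm⟩ := hrat.1.isBounded_mul_qParam_pow hN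
  obtain ⟨P, -, hP⟩ := exists_polynomial_of_invariant_of_qParam (f : ℍ → ℂ) f.2
    (fun γ τ => congrFun (congrArg Subtype.val (hinv γ)) τ) m hm
  have hfun : (f : ℍ → ℂ) = fun τ => P.eval (jFun τ) := funext hP
  have hj : IsMerInf N jFun := by
    have := (isRatInf_of_mem_RK (jH_mem_RK N)).1
    rwa [coe_jH] at this
  have hexp := (isMerInf_eval_and_expandFun hN hj P).2
  rw [← hfun, ← coe_jH, expandFun_coe_jH] at hexp
  have hmem : aeval (ModularCurve.qExpand ℂ N (ModularCurve.jqModC ℂ)) P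
      ∈ (ModularCurve.coeffMap iota).range := by
    rw [← hexp]
    exact mem_range_coeffMap_iota hrat.2
  obtain ⟨P₀, rfl⟩ := exists_map_eq_of_aeval_qExpand_jqModC_mem_range iota N P hmem
  refine ⟨P₀, ?_⟩
  ext τ
  rw [hP τ]
  have h1 : (aeval jH P₀ : HolH) = aeval jH (P₀.map iota) := by
    rw [aeval_def, aeval_def, eval₂_map]
    rfl
  rw [h1, evalH_aeval_jH]
  rfl

end Fermat.Agent.X0
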