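import Fermat.Agent.X0.Mod.ValInftyHol
import Fermat.Agent.X0.Mod.Invariant
import Fermat.Agent.X0.Ana.DjHol
import Fermat.Agent.X0.Ana.QExpJ

/-!
# Cusp inputs for the dictionary `S₂(Γ₀(N)) ↔ holomorphic differentials`

* `fieldAn N = ℂ(j, j_N) ⊆ MerH` and (C1): `compSLMer δ` maps it into `merInfField N`.
* (C3): `D j = -E₄² E₆ / Δ` is meromorphic at `i∞` with a simple pole in `q`, i.e.
  `wInfM N (D j) = exp N`.
* (C4): a holomorphic function in `merInfField N` with `wInfM < 1` vanishes at `i∞`.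
-/

set_option autoImplicit false

noncomputable section

namespace Fermat.Agent.X0

open Filter Topology Complex Function ModularForm EisensteinSeries WithZero
open UpperHalfPlane hiding I
open scoped Manifold MatrixGroups

local notation "Δ" => ModularForm.discriminant

section C4

variable {N : ℕ} [NeZero N]

theorem withZero_le_exp_neg_one_of_lt_one {x : ℤᵐ⁰} (hx : x < 1) :
    x ≤ WithZero.exp (-(1 : ℤ)) := by
  by_cases h0 : x = 0
  · rw [h0]; exact zero_le
  · have hx' : x = WithZero.exp (log x) := (exp_log h0).symm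
    have hlog : log x < 0 := by
      have h1 : WithZero.exp (log x) < WithZero.exp (0 : ℤ) := by
        rw [← hx']; simpa using hx
      exact exp_lt_exp.mp h1
    rw [hx']
    exact exp_le_exp.mpr (by omega)

/-- (C4) a holomorphic function lying in `merInfField N` with `wInfM`-valuation `< 1` vanishes at
`i∞`. -/
theorem isZeroAtImInfty_of_wInfM_lt_one (G : HolH) (hG : algebraMap HolH MerH G ∈ merInfField N)
    (hw : wInfM N ⟨algebraMap HolH MerH G, hG⟩ < 1) : IsZeroAtImInfty (G : ℍ → ℂ) :=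
  isZeroAtImInfty_of_wInfM_le (mem_merInfH_of_mem_merInfField hG)
    (withZero_le_exp_neg_one_of_lt_one hw)

/-- a holomorphic function lying in `merInfField N` with `wInfM`-valuation `≤ 1` is bounded at
`i∞`. -/
theorem isBoundedAtImInfty_of_wInfM_le_one' (G : HolH)
    (hG : algebraMap HolH MerH G ∈ merInfField N)
    (hw : wInfM N ⟨algebraMap HolH MerH G, hG⟩ ≤ 1) : IsBoundedAtImInfty (G : ℍ → ℂ) :=
  isBoundedAtImInfty_of_wInfM_le_one (mem_merInfH_of_mem_merInfField hG) hw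

end C4

section period

variable {f : ℍ → ℂ} {N : ℕ}

/-- A function meromorphic at `i∞` of period `1` is meromorphic of period `N`; the expansion in
`u = q ^ (1 / N)` is obtained by substituting `q = u ^ N`. -/
theorem IsMerInf.of_period_one (hN : 0 < N) (hf : IsMerInf 1 f) :
    IsMerInf N f ∧ (∀ k : ℤ, (expandFun N f).coeff (N * k) = (expandFun 1 f).coeff k) ∧
      ∀ j : ℤ, ¬ (N : ℤ) ∣ j → (expandFun N f).coeff j = 0 := by
  have h := expandFun_comp_affine (f := f) (a := 1) (d := 1) (N := N) (e := N) (b := 0) (σ := id)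
    hf one_pos hN (by ring) hN (fun τ => by simp)
  refine ⟨h.1, fun k => ?_, h.2.2⟩
  have := h.2.1 k
  rw [zetaOf_zero, one_zpow, one_mul] at this
  exact this

end period

section C3

theorem tendsto_E₆ : Tendsto E₆ atImInfty (𝓝 1) := by
  have h := tendsto_modForm E₆
  rwa [E_qExpansion_coeff_zero _ ⟨3, rfl⟩] at h

/-- `q * D j = - E₄ ^ 2 * E₆ / ∏ (1 - qⁿ) ^ 24`. -/
theorem qPar_mul_DjH (τ : ℍ) :
    qPar 1 τ * (DjH : ℍ → ℂ) τ = - E₄ τ ^ 2 * E₆ τ / etaFun τ ^ 24 := by
  have hΔ : Δ τ = qPar 1 τ * etaFun τ ^ 24 := by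
    have := congrFun discriminant_eq_qPar_mul_etaFun_pow τ
    simpa using this
  have h1 : qPar 1 τ ≠ 0 := qPar_ne_zero 1 τ
  have h2 : etaFun τ ^ 24 ≠ 0 := pow_ne_zero _ (etaFun_ne_zero τ)
  rw [DjH_apply, hΔ]
  field_simp

theorem tendsto_qPar_mul_DjH : Tendsto (qPar 1 * (DjH : ℍ → ℂ)) atImInfty (𝓝 (-1)) := by
  have h : Tendsto (fun τ : ℍ => - E₄ τ ^ 2 * E₆ τ / etaFun τ ^ 24) atImInfty
      (𝓝 (-(1 : ℂ) ^ 2 * 1 / 1 ^ 24)) :=
    (((tendsto_E₄.pow 2).neg).mul tendsto_E₆).div (tendsto_etaFun.pow 24) (by norm_num)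
  rw [show -(1 : ℂ) ^ 2 * 1 / 1 ^ 24 = -1 by norm_num] at h
  refine h.congr fun τ => ?_
  rw [Pi.mul_apply, qPar_mul_DjH]

theorem periodic_DjH : Periodic ((DjH : ℍ → ℂ) ∘ ofComplex) (1 : ℝ) := by
  intro z
  have h1 := periodic_modForm E₄ z
  have h2 := periodic_modForm E₆ z
  have h3 := isHolInf_discriminant.periodic z
  simp only [Function.comp_apply, ofReal_one, DjH_apply] at h1 h2 h3 ⊢
  rw [h1, h2, h3]

/-- `D j` is meromorphic at `i∞` (period `1`), with a simple pole. -/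
theorem isMerInf_DjH : IsMerInf 1 (DjH : ℍ → ℂ) where
  mdiff := DjH.2
  periodic := periodic_DjH
  bdd := ⟨1, by rw [pow_one]; exact tendsto_qPar_mul_DjH.isBigO_one ℝ⟩

theorem coeff_expandFun_one_DjH_neg_one : (expandFun 1 (DjH : ℍ → ℂ)).coeff (-1) = -1 := by
  have hm : IsBoundedAtImInfty (qPar 1 ^ 1 * (DjH : ℍ → ℂ)) := by
    rw [pow_one]; exact tendsto_qPar_mul_DjH.isBigO_one ℝ
  rw [isMerInf_DjH.expandFun_eq one_pos hm, shiftSeries_coeff]
  have h0 : (-1 : ℤ) + ((1 : ℕ) : ℤ) = ((0 : ℕ) : ℤ) := by norm_num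
  rw [h0, HahnSeries.ofPowerSeries_apply_coeff]
  have hhol := isMerInf_DjH.isHolInf one_pos hm
  have h1 := hhol.tendsto_coeff_zero one_pos
  have h2 : Tendsto (qPar 1 ^ 1 * (DjH : ℍ → ℂ)) atImInfty (𝓝 (-1)) := by
    rw [pow_one]; exact tendsto_qPar_mul_DjH
  exact tendsto_nhds_unique h1 h2

theorem coeff_expandFun_one_DjH_of_lt {k : ℤ} (hk : k < -1) :
    (expandFun 1 (DjH : ℍ → ℂ)).coeff k = 0 := by
  have hm : IsBoundedAtImInfty (qPar 1 ^ 1 * (DjH : ℍ → ℂ)) := by
    rw [pow_one]; exact tendsto_qPar_mul_DjH.isBigO_one ℝ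
  rw [isMerInf_DjH.expandFun_eq one_pos hm, shiftSeries_coeff]
  exact ModularCurve.ofPowerSeries_coeff_of_neg _ (by push_cast; omega)

variable {N : ℕ} [NeZero N]

/-- (C3) `D j ∈ merInfH N`. -/
theorem DjH_mem_merInfH : DjH ∈ merInfH N :=
  (IsMerInf.of_period_one (Nat.pos_of_ne_zero (NeZero.ne N)) isMerInf_DjH).1

/-- (C3) `D j` has a pole of order `N` in `u = q ^ (1 / N)` at `i∞`. -/
theorem wInfM_DjM :
    wInfM N ⟨DjM, algebraMap_mem_merInfField DjH_mem_merInfH⟩ = WithZero.exp (N : ℤ) := by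
  have hN : 0 < N := Nat.pos_of_ne_zero (NeZero.ne N)
  obtain ⟨-, h1, h2⟩ := IsMerInf.of_period_one hN isMerInf_DjH
  have h := wInfM_algebraMap_eq (N := N) DjH_mem_merInfH (D := -(N : ℤ)) ?_ ?_
  · rw [neg_neg] at h
    exact h
  · have : (-(N : ℤ)) = (N : ℤ) * (-1) := by ring
    rw [this, h1, coeff_expandFun_one_DjH_neg_one]
    norm_num
  · intro n hn
    by_cases hd : (N : ℤ) ∣ n
    · obtain ⟨k, rfl⟩ := hd
      rw [h1]
      apply coeff_expandFun_one_DjH_of_lt
      have hN' : (0 : ℤ) < N := by exact_mod_cast hN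
      by_contra hk
      rw [not_lt] at hk
      have : -(N : ℤ) ≤ N * k := by nlinarith
      omega
    · exact h2 n hd

end C3

section C1

variable (N : ℕ) [NeZero N]

/-- The field `ℂ(j, j_N) ⊆ MerH` of modular functions for `Γ₀(N)`. -/
abbrev fieldAn : IntermediateField ℂ MerH :=
  IntermediateField.adjoin ℂ ({xM, rM (CosetRep.base N)} : Set MerH)

variable {N}

/-- (C1), generic form. -/
theorem compSLMer_mem_merInfField_of_mem_adjoin {S : Set MerH} (δ : SL(2, ℤ))
    (hS : ∀ s ∈ S, compSLMer δ s ∈ merInfField N) {y : MerH}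
    (hy : y ∈ IntermediateField.adjoin ℂ S) : compSLMer δ y ∈ merInfField N := by
  have h : IntermediateField.adjoin ℂ S ≤
      (merInfField N).comap (compSLMer δ : MerH ≃ₐ[ℂ] MerH).toAlgHom := by
    rw [IntermediateField.adjoin_le_iff]
    intro s hs
    exact hS s hs
  exact h hy

theorem rM_mem_merInfField (α : CosetRep N) : rM α ∈ merInfField N :=
  algebraMap_mem_merInfField (mem_merInfH.mpr (isMerInf_jAt dvd_rfl α))

/-- (C1) `compSLMer δ` maps `ℂ(j, j_N)` into `merInfField N`. -/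
theorem compSLMer_mem_merInfField_of_mem_fieldAn (δ : SL(2, ℤ)) {y : MerH}
    (hy : y ∈ fieldAn N) : compSLMer δ y ∈ merInfField N := by
  refine compSLMer_mem_merInfField_of_mem_adjoin δ ?_ hy
  intro s hs
  rcases hs with rfl | rfl
  · rw [compSLMer_xM]; exact xM_mem_merInfField
  · rw [compSLMer_rM]; exact rM_mem_merInfField _

/-- Elements of `ℂ(j, j_N)` are invariant under `Γ₀(N)`. -/
theorem compSLMer_eq_self_of_mem_fieldAn {γ : SL(2, ℤ)} (hγ : γ ∈ CongruenceSubgroup.Gamma0 N)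
    {y : MerH} (hy : y ∈ fieldAn N) : compSLMer γ y = y := by
  induction hy using IntermediateField.adjoin_induction with
  | mem s hs =>
    rcases hs with rfl | rfl
    · exact compSLMer_xM γ
    · rw [compSLMer_rM, (CosetRep.act_base_eq_base_iff γ).mpr hγ]
  | algebraMap c => exact AlgEquiv.commutes _ c
  | add x y _ _ hx hy => rw [map_add, hx, hy]
  | inv x _ hx => rw [map_inv₀, hx]
  | mul x y _ _ hx hy => rw [map_mul, hx, hy]

end C1

end Fermat.Agent.X0
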