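import Fermat.Agent.X0.Mod.QuotientCounts

/-!
# X0 cluster, package C4: the genus arithmetic and the orders of `S`, `S * T`, `T` on `A_N`

* `genusFormula_eq_sameCycle`: with `n = ψ(N)` and `cT, cU, cS` the numbers of cycles of
  `actPerm T`, `actPerm (S * T)`, `actPerm S` on `A_N`,
  `(((n - cT) + (n - cU) + (n - cS) + 2 - 2 n).toNat / 2 : ℚ) = genusFormula N`;
* for `1 < N`: `S`, `S * T` do not fix the base point; `orderOf (actPerm S) = 2`,
  `orderOf (actPerm (S * T)) = 3`; for all `N`: `orderOf (actPerm T) = N`.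
-/

set_option autoImplicit false
set_option linter.unusedSectionVars false

open Matrix ModularGroup
open scoped MatrixGroups

namespace Fermat.Agent.X0

namespace CosetRep

variable {N : ℕ} [NeZero N]

/-- **the genus arithmetic** in the `SameCycle` form on `A_N`. -/
theorem genusFormula_eq_sameCycle :
    (((((ModularCurve.dedekindPsi N : ℤ) -
        Nat.card (Quotient (Equiv.Perm.SameCycle.setoid (actPerm T : Equiv.Perm (CosetRep N))))) +
      ((ModularCurve.dedekindPsi N : ℤ) -
        Nat.card (Quotient (Equiv.Perm.SameCycle.setoid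
          (actPerm (S * T) : Equiv.Perm (CosetRep N))))) +
      ((ModularCurve.dedekindPsi N : ℤ) -
        Nat.card (Quotient (Equiv.Perm.SameCycle.setoid (actPerm S : Equiv.Perm (CosetRep N))))) +
      2 - 2 * (ModularCurve.dedekindPsi N : ℤ)).toNat / 2 : ℕ) : ℚ) =
      ModularCurve.genusFormula N := by
  have h := genusFormula_eq_of_counts N _ _ _ (card_cycles_T (N := N))
    (two_mul_card_cycles_S (N := N)) (three_mul_card_cycles_ST (N := N))
  rw [← h]
  congr 3
  ring

/-- general form: any three numbers satisfying the three counting identities. -/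
theorem genusFormula_eq_of_counts' (cT cU cS : ℕ) (hT : cT = ModularCurve.cuspCount N)
    (hS : 2 * cS = ModularCurve.dedekindPsi N + ModularCurve.nuTwo N)
    (hU : 3 * cU = ModularCurve.dedekindPsi N + 2 * ModularCurve.nuThree N) :
    (((((ModularCurve.dedekindPsi N : ℤ) - cT) + ((ModularCurve.dedekindPsi N : ℤ) - cU) +
      ((ModularCurve.dedekindPsi N : ℤ) - cS) + 2 - 2 * (ModularCurve.dedekindPsi N : ℤ)).toNat / 2
        : ℕ) : ℚ) = ModularCurve.genusFormula N := by
  have h := genusFormula_eq_of_counts N cT cS cU hT hS hU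
  rw [← h]
  congr 3
  ring

/-! ### `S` and `S * T` move the base point for `1 < N` -/

lemma S_notMem_Gamma0 (hN : 1 < N) : S ∉ CongruenceSubgroup.Gamma0 N := by
  rw [CongruenceSubgroup.Gamma0_mem]
  have : ((S : SL(2, ℤ)) 1 0 : ℤ) = 1 := by simp [S]
  rw [this, Int.cast_one]
  have : Fact (1 < N) := ⟨hN⟩
  exact one_ne_zero

lemma ST_notMem_Gamma0 (hN : 1 < N) : S * T ∉ CongruenceSubgroup.Gamma0 N := by
  rw [CongruenceSubgroup.Gamma0_mem]
  have : ((S * T : SL(2, ℤ)) 1 0 : ℤ) = 1 := by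
    have := coe_ST
    change ((S * T : SL(2, ℤ)) : Matrix (Fin 2) (Fin 2) ℤ) 1 0 = 1
    rw [this]; rfl
  rw [this, Int.cast_one]
  have : Fact (1 < N) := ⟨hN⟩
  exact one_ne_zero

theorem base_act_S_ne (hN : 1 < N) : (base N).act S ≠ base N := fun h =>
  S_notMem_Gamma0 hN ((act_base_eq_base_iff S).mp h)

theorem base_act_ST_ne (hN : 1 < N) : (base N).act (S * T) ≠ base N := fun h =>
  ST_notMem_Gamma0 hN ((act_base_eq_base_iff (S * T)).mp h)

theorem orderOf_actPerm_S (hN : 1 < N) : orderOf (actPerm S : Equiv.Perm (CosetRep N)) = 2 := by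
  refine orderOf_eq_prime actPerm_S_sq ?_
  intro h
  apply base_act_S_ne hN
  have := congrArg (fun π : Equiv.Perm (CosetRep N) => π (base N)) h
  simpa using this

theorem orderOf_actPerm_ST (hN : 1 < N) :
    orderOf (actPerm (S * T) : Equiv.Perm (CosetRep N)) = 3 := by
  have : Fact (Nat.Prime 3) := ⟨Nat.prime_three⟩
  refine orderOf_eq_prime actPerm_ST_cube ?_
  intro h
  apply base_act_ST_ne hN
  have := congrArg (fun π : Equiv.Perm (CosetRep N) => π (base N)) h
  simpa using this

/-! ### the order of `T` -/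

/-- the representative `(1, 0, N)` (the cusp `∞` in the `j(τ/N)` normalisation). -/
def inftyRep (N : ℕ) [NeZero N] : CosetRep N where
  a := 1
  b := 0
  d := N
  mul_eq := one_mul N
  b_lt := Nat.pos_of_ne_zero (NeZero.ne N)
  gcd_eq := Nat.gcd_one_left _

theorem actPerm_T_pow_N : (actPerm T : Equiv.Perm (CosetRep N)) ^ N = 1 := by
  refine Equiv.ext fun α => ?_
  rw [← actPerm_pow, actPerm_apply, Equiv.Perm.coe_one, id]
  obtain ⟨h1, h2, h3⟩ := act_T_zpow α (N : ℤ)
  rw [zpow_natCast] at h1 h2 h3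
  ext
  · exact h1
  · have hN : (N : ℤ) = α.a * α.d := by exact_mod_cast α.mul_eq.symm
    have : (α.b : ℤ) + (N : ℤ) * α.a = α.b + α.d * (α.a * α.a) := by rw [hN]; ring
    rw [this, Int.add_mul_emod_self_left,
      Int.emod_eq_of_lt (by positivity) (by exact_mod_cast α.b_lt)] at h3
    exact_mod_cast h3
  · exact h2

theorem inftyRep_act_T_pow (k : ℕ) :
    ((inftyRep N).act (T ^ k)).a = 1 ∧ ((inftyRep N).act (T ^ k)).d = N ∧
      ((inftyRep N).act (T ^ k)).b = k % N := by
  obtain ⟨h1, h2, h3⟩ := act_T_zpow (inftyRep N) (k : ℤ)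
  rw [zpow_natCast] at h1 h2 h3
  refine ⟨h1, h2, ?_⟩
  have : (((inftyRep N).act (T ^ k)).b : ℤ) = ((k % N : ℕ) : ℤ) := by
    rw [h3]
    simp [inftyRep]
  exact_mod_cast this

theorem orderOf_actPerm_T : orderOf (actPerm T : Equiv.Perm (CosetRep N)) = N := by
  have hdvd : orderOf (actPerm T : Equiv.Perm (CosetRep N)) ∣ N :=
    orderOf_dvd_of_pow_eq_one actPerm_T_pow_N
  have hpos : 0 < orderOf (actPerm T : Equiv.Perm (CosetRep N)) :=
    Nat.pos_of_dvd_of_pos hdvd (Nat.pos_of_ne_zero (NeZero.ne N))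
  refine le_antisymm (Nat.le_of_dvd (Nat.pos_of_ne_zero (NeZero.ne N)) hdvd) ?_
  by_contra hlt
  push Not at hlt
  set k := orderOf (actPerm T : Equiv.Perm (CosetRep N)) with hk
  have h1 : (actPerm T : Equiv.Perm (CosetRep N)) ^ k = 1 := pow_orderOf_eq_one _
  have h2 := congrArg (fun π : Equiv.Perm (CosetRep N) => (π (inftyRep N)).b) h1
  simp only [← actPerm_pow, actPerm_apply, Equiv.Perm.coe_one, id] at h2
  rw [(inftyRep_act_T_pow k).2.2, Nat.mod_eq_of_lt hlt] at h2
  simp only [inftyRep] at h2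
  omega

/-- for `0 < k < N`, `T ^ k` moves `(1, 0, N)`. -/
theorem inftyRep_act_T_pow_ne {k : ℕ} (hk : 0 < k) (hkN : k < N) :
    (inftyRep N).act (T ^ k) ≠ inftyRep N := by
  intro h
  have := (inftyRep_act_T_pow (N := N) k).2.2
  rw [h, Nat.mod_eq_of_lt hkN] at this
  simp only [inftyRep] at this
  omega

end CosetRep

end Fermat.Agent.X0
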