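/-
Pure field theory used on the analytic side of the X0(N) cluster:
a field `L` generated over `E` by finitely many distinct elements `r α` whose
"characteristic polynomial" `∏ (X - r α)` has coefficients in `E`.
-/
import Mathlib

set_option autoImplicit false

namespace Fermat.Agent.X0.GaloisAbstract

open Polynomial IntermediateField

variable {E L : Type*} [Field E] [Field L] [Algebra E L]
variable {A : Type*} [Fintype A]

section Basic

variable (r : A → L) (Φ : E[X])

theorem prod_ne_zero : (∏ α, (X - C (r α)) : L[X]) ≠ 0 :=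
  (monic_prod_of_monic _ _ fun α _ => monic_X_sub_C (r α)).ne_zero

theorem splits_of_map_eq_prod (hΦ : Φ.map (algebraMap E L) = ∏ α, (X - C (r α))) :
    (Φ.map (algebraMap E L)).Splits := by
  rw [hΦ]
  exact Splits.prod fun α _ => Splits.X_sub_C (r α)

theorem monic_of_map_eq_prod (hΦ : Φ.map (algebraMap E L) = ∏ α, (X - C (r α))) :
    Φ.Monic := by
  have h : (Φ.map (algebraMap E L)).Monic := by
    rw [hΦ]; exact monic_prod_of_monic _ _ fun α _ => monic_X_sub_C (r α)
  exact monic_map_iff.mp h

theorem natDegree_of_map_eq_prod (hΦ : Φ.map (algebraMap E L) = ∏ α, (X - C (r α))) :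
    Φ.natDegree = Fintype.card A := by
  have h : (Φ.map (algebraMap E L)).natDegree = Fintype.card A := by
    rw [hΦ, natDegree_prod_of_monic _ _ fun α _ => monic_X_sub_C (r α)]
    simp
  rwa [natDegree_map] at h

theorem rootSet_of_map_eq_prod (hΦ : Φ.map (algebraMap E L) = ∏ α, (X - C (r α))) :
    Φ.rootSet L = Set.range r := by
  classical
  ext y
  rw [mem_rootSet_of_ne (monic_of_map_eq_prod r Φ hΦ).ne_zero, ← eval_map_algebraMap, hΦ,
    eval_prod, Finset.prod_eq_zero_iff]
  constructor
  · rintro ⟨α, -, hα⟩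
    rw [eval_sub, eval_X, eval_C, sub_eq_zero] at hα
    exact ⟨α, hα.symm⟩
  · rintro ⟨α, rfl⟩
    exact ⟨α, Finset.mem_univ _, by simp⟩

theorem separable_of_map_eq_prod (hr : Function.Injective r)
    (hΦ : Φ.map (algebraMap E L) = ∏ α, (X - C (r α))) : Φ.Separable := by
  rw [← separable_map (algebraMap E L), hΦ]
  exact separable_prod_X_sub_C_iff.mpr hr

theorem isSplittingField_of_map_eq_prod
    (hgen : IntermediateField.adjoin E (Set.range r) = ⊤)
    (hΦ : Φ.map (algebraMap E L) = ∏ α, (X - C (r α))) : Φ.IsSplittingField E L := by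
  rw [isSplittingField_iff_intermediateField]
  exact ⟨splits_of_map_eq_prod r Φ hΦ, by rw [rootSet_of_map_eq_prod r Φ hΦ, hgen]⟩

/-- `L` is Galois over `E`. -/
theorem isGalois_of_map_eq_prod (hr : Function.Injective r)
    (hgen : IntermediateField.adjoin E (Set.range r) = ⊤)
    (hΦ : Φ.map (algebraMap E L) = ∏ α, (X - C (r α))) : IsGalois E L := by
  have := isSplittingField_of_map_eq_prod r Φ hgen hΦ
  exact IsGalois.of_separable_splitting_field (separable_of_map_eq_prod r Φ hr hΦ)

theorem finiteDimensional_of_map_eq_prod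
    (hgen : IntermediateField.adjoin E (Set.range r) = ⊤)
    (hΦ : Φ.map (algebraMap E L) = ∏ α, (X - C (r α))) : FiniteDimensional E L := by
  have := isSplittingField_of_map_eq_prod r Φ hgen hΦ
  exact IsSplittingField.finiteDimensional L Φ

/-- If a group of `E`-automorphisms permutes the `r α` transitively, `Φ` is the minimal
polynomial of each of them. -/
theorem minpoly_eq_of_transitive (hr : Function.Injective r)
    (hΦ : Φ.map (algebraMap E L) = ∏ α, (X - C (r α))) (α₀ : A)
    (htrans : ∀ α, ∃ σ : L →ₐ[E] L, σ (r α₀) = r α) : minpoly E (r α₀) = Φ := by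
  classical
  have hmonic := monic_of_map_eq_prod r Φ hΦ
  have hroot : aeval (r α₀) Φ = 0 := by
    rw [← eval_map_algebraMap, hΦ, eval_prod]
    exact Finset.prod_eq_zero (Finset.mem_univ α₀) (by simp)
  have hint : IsIntegral E (r α₀) := ⟨Φ, hmonic, hroot⟩
  have hdvd : minpoly E (r α₀) ∣ Φ := minpoly.dvd E _ hroot
  have hall : ∀ α, aeval (r α) (minpoly E (r α₀)) = 0 := by
    intro α
    obtain ⟨σ, hσ⟩ := htrans α
    rw [← hσ, aeval_algHom_apply, minpoly.aeval, map_zero]
  have hcard : Fintype.card A ≤ (minpoly E (r α₀)).natDegree := by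
    have hne : (minpoly E (r α₀)).map (algebraMap E L) ≠ 0 :=
      (Polynomial.map_ne_zero_iff (algebraMap E L).injective).mpr (minpoly.ne_zero hint)
    have hsub : (Finset.univ.image r).val ⊆ ((minpoly E (r α₀)).map (algebraMap E L)).roots := by
      intro y hy
      rw [Finset.mem_val, Finset.mem_image] at hy
      obtain ⟨α, -, rfl⟩ := hy
      rw [mem_roots hne, IsRoot, eval_map_algebraMap]
      exact hall α
    have h1 := card_le_degree_of_subset_roots hsub
    rw [Finset.card_image_of_injective _ hr, Finset.card_univ, natDegree_map] at h1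
    exact h1
  refine (eq_of_monic_of_dvd_of_natDegree_le (minpoly.monic hint) hmonic hdvd ?_).symm
  rw [natDegree_of_map_eq_prod r Φ hΦ]
  exact hcard

theorem isIntegral_of_map_eq_prod (hΦ : Φ.map (algebraMap E L) = ∏ α, (X - C (r α)))
    (α₀ : A) : IsIntegral E (r α₀) := by
  classical
  refine ⟨Φ, monic_of_map_eq_prod r Φ hΦ, ?_⟩
  show aeval (r α₀) Φ = 0
  rw [← eval_map_algebraMap, hΦ, eval_prod]
  exact Finset.prod_eq_zero (Finset.mem_univ α₀) (by simp)

theorem finrank_adjoin_of_transitive (hr : Function.Injective r)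
    (hΦ : Φ.map (algebraMap E L) = ∏ α, (X - C (r α))) (α₀ : A)
    (htrans : ∀ α, ∃ σ : L →ₐ[E] L, σ (r α₀) = r α) :
    Module.finrank E E⟮r α₀⟯ = Fintype.card A := by
  rw [IntermediateField.adjoin.finrank (isIntegral_of_map_eq_prod r Φ hΦ α₀),
    minpoly_eq_of_transitive r Φ hr hΦ α₀ htrans, natDegree_of_map_eq_prod r Φ hΦ]

/-- Lagrange interpolation: if `∑ α, s α * ∏_{β ≠ α} (X - r β)` has coefficients in `E`
then `s α₀ ∈ E(r α₀)`. -/
theorem mem_adjoin_of_lagrange [DecidableEq A] (hr : Function.Injective r) (s : A → L)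
    (P : E[X]) (hΦ : Φ.map (algebraMap E L) = ∏ α, (X - C (r α)))
    (hP : P.map (algebraMap E L)
      = ∑ α, C (s α) * ∏ β ∈ Finset.univ.erase α, (X - C (r β)))
    (α₀ : A) : s α₀ ∈ E⟮r α₀⟯ := by
  set d : L := ∏ β ∈ Finset.univ.erase α₀, (r α₀ - r β) with hd
  have hd0 : d ≠ 0 := by
    rw [hd, Finset.prod_ne_zero_iff]
    intro β hβ
    rw [sub_ne_zero]
    exact fun h => (Finset.ne_of_mem_erase hβ) (hr h).symm
  have hPe : aeval (r α₀) P = s α₀ * d := by
    rw [← eval_map_algebraMap, hP, eval_finsetSum, Finset.sum_eq_single α₀]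
    · rw [eval_mul, eval_C, eval_prod, hd]
      congr 1
      exact Finset.prod_congr rfl fun β _ => by simp
    · intro α _ hα
      rw [eval_mul, eval_prod, Finset.prod_eq_zero (i := α₀), mul_zero]
      · exact Finset.mem_erase.mpr ⟨hα.symm, Finset.mem_univ _⟩
      · simp
    · intro h; exact absurd (Finset.mem_univ _) h
  have hΦe : aeval (r α₀) (derivative Φ) = d := by
    rw [← eval_map_algebraMap, ← derivative_map, hΦ]
    have h := Lagrange.eval_nodal_derivative_eval_node_eq (s := Finset.univ) (v := r)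
      (Finset.mem_univ α₀)
    rw [Lagrange.nodal, Lagrange.nodal] at h
    rw [h, eval_prod, hd]
    exact Finset.prod_congr rfl fun β _ => by simp
  have hmem : ∀ Q : E[X], aeval (r α₀) Q ∈ E⟮r α₀⟯ := fun Q =>
    IntermediateField.algebra_adjoin_le_adjoin E _ (aeval_mem_adjoin_singleton E (r α₀))
  have : s α₀ = aeval (r α₀) P / aeval (r α₀) (derivative Φ) := by
    rw [hPe, hΦe, mul_div_cancel_right₀ _ hd0]
  rw [this]
  exact div_mem (hmem P) (hmem _)

end Basic

end Fermat.Agent.X0.GaloisAbstract
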