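import Fermat.Agent.X0.Ana.QExpH
import Fermat.Agent.X0.Ana.JHol
import Fermat.Agent.X0.Ana.Invariants
import Fermat.Agent.X0.Mod.GaloisAbstract

/-!
# Invariant polynomials over `HolH` and Lagrange interpolation

* `exists_aeval_jH_eq_of_merInfH`: an `SL(2, ℤ)`-invariant element of `merInfH N` is a polynomial
  in `j`.
* `exists_map_aeval_jH_eq`: a polynomial over `HolH` fixed by all `compSL γ` with coefficients in
  `merInfH N` has coefficients in `ℂ[j]`.
* `mem_adjoin_xM_of_family`: **Lagrange interpolation**: for families `g r : A → HolH` permuted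
  compatibly by `SL(2, ℤ)`, with all members in `merInfH N` and `r` injective,
  `g α₀ ∈ ℂ(j, r α₀)` inside `MerH`.
-/

set_option autoImplicit false

noncomputable section

namespace Fermat.Agent.X0

open Polynomial
open UpperHalfPlane hiding I
open scoped MatrixGroups

variable {N : ℕ} [NeZero N]

/-- An `SL(2, ℤ)`-invariant holomorphic function which is meromorphic at `i∞` (for the period `N`)
is a polynomial in `j`. -/
theorem exists_aeval_jH_eq_of_merInfH (c : HolH) (hinv : ∀ γ : SL(2, ℤ), compSL γ c = c)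
    (hmer : c ∈ merInfH N) : ∃ P : ℂ[X], c = Polynomial.aeval jH P := by
  have hN : 0 < N := Nat.pos_of_ne_zero (NeZero.ne N)
  obtain ⟨m, hm⟩ := IsMerInf.exists_bdd_mul_qParam_one hN (mem_merInfH.mp hmer)
  obtain ⟨P, -, hP⟩ := exists_polynomial_of_invariant_of_qParam (c : ℍ → ℂ) c.2
    (fun γ τ => by
      have := congrArg (fun g : HolH => (g : ℍ → ℂ) τ) (hinv γ)
      simpa using this) m hm
  refine ⟨P, ?_⟩
  ext τ
  rw [evalH_aeval_jH, hP τ]
  rfl

/-- A polynomial over `HolH` which is fixed by every `compSL γ` and whose coefficients are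
meromorphic at `i∞` has coefficients in `ℂ[j]`. -/
theorem exists_map_aeval_jH_eq (P : HolH[X])
    (hinv : ∀ γ : SL(2, ℤ), P.map ((compSL γ : HolH ≃ₐ[ℂ] HolH) : HolH →+* HolH) = P)
    (hmer : ∀ n, P.coeff n ∈ merInfH N) :
    ∃ P₀ : ℂ[X][X], P₀.map ((Polynomial.aeval jH : ℂ[X] →ₐ[ℂ] HolH) : ℂ[X] →+* HolH) = P := by
  rw [← Polynomial.mem_lifts, Polynomial.lifts_iff_coeff_lifts]
  intro n
  have h1 : ∀ γ : SL(2, ℤ), compSL γ (P.coeff n) = P.coeff n := by
    intro γ
    have := congrArg (fun Q : HolH[X] => Q.coeff n) (hinv γ)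
    simpa [Polynomial.coeff_map] using this
  obtain ⟨Q, hQ⟩ := exists_aeval_jH_eq_of_merInfH (P.coeff n) h1 (hmer n)
  exact ⟨Q, hQ.symm⟩

section family

variable {A : Type*} [Fintype A] [DecidableEq A]

/-- The Lagrange interpolation polynomial `∑ α, g α * ∏ β ≠ α, (X - r β)`. -/
def lagrangePoly {R : Type*} [CommRing R] (g r : A → R) : R[X] :=
  ∑ α, C (g α) * ∏ β ∈ Finset.univ.erase α, (X - C (r β))

theorem lagrangePoly_map {R S : Type*} [CommRing R] [CommRing S] (φ : R →+* S) (g r : A → R) :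
    (lagrangePoly g r).map φ = lagrangePoly (φ ∘ g) (φ ∘ r) := by
  simp [lagrangePoly, Polynomial.map_sum, Polynomial.map_prod]

theorem lagrangePoly_comp_equiv {R : Type*} [CommRing R] (g r : A → R) (e : Equiv.Perm A) :
    lagrangePoly (g ∘ e) (r ∘ e) = lagrangePoly g r := by
  unfold lagrangePoly
  refine Fintype.sum_equiv e _ _ fun α => ?_
  simp only [Function.comp_apply]
  congr 1
  refine Finset.prod_equiv e (fun β => ?_) (fun β _ => rfl)
  simp [Finset.mem_erase]

theorem lagrangePoly_coeff_mem {R : Type*} [CommRing R] (S : Subring R) (g r : A → R)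
    (hg : ∀ α, g α ∈ S) (hr : ∀ α, r α ∈ S) (n : ℕ) : (lagrangePoly g r).coeff n ∈ S := by
  have h : lagrangePoly g r ∈ Polynomial.lifts S.subtype := by
    unfold lagrangePoly
    refine Subsemiring.sum_mem _ fun α _ => ?_
    refine Subsemiring.mul_mem _ ?_ ?_
    · exact Polynomial.C_mem_lifts S.subtype ⟨g α, hg α⟩
    · refine Subsemiring.prod_mem _ fun β _ => ?_
      have : (X - C (r β) : R[X]) = X + C (-(r β)) := by simp [sub_eq_add_neg]
      rw [this]
      exact Subsemiring.add_mem _ (Polynomial.X_mem_lifts _)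
        (Polynomial.C_mem_lifts S.subtype ⟨-(r β), S.neg_mem (hr β)⟩)
  obtain ⟨q, hq⟩ := (Polynomial.lifts_iff_coeff_lifts _).mp h n
  rw [← hq]
  exact q.2

/-- The polynomial `∏ α, (X - r α)`. -/
def rootsPoly {R : Type*} [CommRing R] (r : A → R) : R[X] := ∏ α, (X - C (r α))

omit [DecidableEq A] in
theorem rootsPoly_map {R S : Type*} [CommRing R] [CommRing S] (φ : R →+* S) (r : A → R) :
    (rootsPoly r).map φ = rootsPoly (φ ∘ r) := by
  simp [rootsPoly, Polynomial.map_prod]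

omit [DecidableEq A] in
theorem rootsPoly_comp_equiv {R : Type*} [CommRing R] (r : A → R) (e : Equiv.Perm A) :
    rootsPoly (r ∘ e) = rootsPoly r := by
  unfold rootsPoly
  exact Fintype.prod_equiv e _ _ fun α => rfl

omit [DecidableEq A] in
theorem rootsPoly_coeff_mem {R : Type*} [CommRing R] (S : Subring R) (r : A → R)
    (hr : ∀ α, r α ∈ S) (n : ℕ) : (rootsPoly r).coeff n ∈ S := by
  have h : rootsPoly r ∈ Polynomial.lifts S.subtype := by
    unfold rootsPoly
    refine Subsemiring.prod_mem _ fun β _ => ?_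
    have : (X - C (r β) : R[X]) = X + C (-(r β)) := by simp [sub_eq_add_neg]
    rw [this]
    exact Subsemiring.add_mem _ (Polynomial.X_mem_lifts _)
      (Polynomial.C_mem_lifts S.subtype ⟨-(r β), S.neg_mem (hr β)⟩)
  obtain ⟨q, hq⟩ := (Polynomial.lifts_iff_coeff_lifts _).mp h n
  rw [← hq]
  exact q.2

variable (act : SL(2, ℤ) → Equiv.Perm A) (g r : A → HolH)

omit [DecidableEq A] in
theorem rootsPoly_map_compSL (hr : ∀ γ α, compSL γ (r α) = r (act γ α)) (γ : SL(2, ℤ)) :
    (rootsPoly r).map ((compSL γ : HolH ≃ₐ[ℂ] HolH) : HolH →+* HolH) = rootsPoly r := by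
  rw [rootsPoly_map]
  have h2 : (((compSL γ : HolH ≃ₐ[ℂ] HolH) : HolH →+* HolH) ∘ r) = r ∘ act γ := by
    funext α; exact hr γ α
  rw [h2, rootsPoly_comp_equiv]

theorem lagrangePoly_map_compSL
    (hg : ∀ γ α, compSL γ (g α) = g (act γ α)) (hr : ∀ γ α, compSL γ (r α) = r (act γ α))
    (γ : SL(2, ℤ)) :
    (lagrangePoly g r).map ((compSL γ : HolH ≃ₐ[ℂ] HolH) : HolH →+* HolH) = lagrangePoly g r := by
  rw [lagrangePoly_map]
  have h1 : (((compSL γ : HolH ≃ₐ[ℂ] HolH) : HolH →+* HolH) ∘ g) = g ∘ act γ := by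
    funext α; exact hg γ α
  have h2 : (((compSL γ : HolH ≃ₐ[ℂ] HolH) : HolH →+* HolH) ∘ r) = r ∘ act γ := by
    funext α; exact hr γ α
  rw [h1, h2, lagrangePoly_comp_equiv]

/-- The field `ℂ(j) ⊆ MerH`. -/
abbrev fieldJ : IntermediateField ℂ MerH := IntermediateField.adjoin ℂ ({xM} : Set MerH)

/-- `ℂ[X] → ℂ(j)`, `X ↦ j`. -/
def toFieldJ : ℂ[X] →ₐ[ℂ] fieldJ :=
  Polynomial.aeval (⟨xM, IntermediateField.mem_adjoin_simple_self ℂ xM⟩ : fieldJ)

theorem algebraMap_comp_toFieldJ :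
    (algebraMap fieldJ MerH).comp (toFieldJ : ℂ[X] →+* fieldJ) =
      (algebraMap HolH MerH).comp ((Polynomial.aeval jH : ℂ[X] →ₐ[ℂ] HolH) : ℂ[X] →+* HolH) := by
  refine Polynomial.ringHom_ext (fun a => ?_) ?_
  · simp only [RingHom.comp_apply, RingHom.coe_coe, toFieldJ, Polynomial.aeval_C]
    rw [← IsScalarTower.algebraMap_apply, ← IsScalarTower.algebraMap_apply]
  · simp only [RingHom.comp_apply, RingHom.coe_coe, toFieldJ, Polynomial.aeval_X]
    rfl

/-- **Lagrange interpolation**: if `SL(2, ℤ)` permutes the families `g` and `r` compatibly, all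
their members are meromorphic at `i∞` and `r` is injective, then `g α₀ ∈ ℂ(j, r α₀)`. -/
theorem mem_adjoin_xM_of_family
    (hg : ∀ γ α, compSL γ (g α) = g (act γ α)) (hr : ∀ γ α, compSL γ (r α) = r (act γ α))
    (hgm : ∀ α, g α ∈ merInfH N) (hrm : ∀ α, r α ∈ merInfH N) (hinj : Function.Injective r)
    (α₀ : A) :
    algebraMap HolH MerH (g α₀) ∈
      IntermediateField.adjoin ℂ ({xM, algebraMap HolH MerH (r α₀)} : Set MerH) := by
  obtain ⟨P₀, hP₀⟩ := exists_map_aeval_jH_eq (N := N) (lagrangePoly g r)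
    (lagrangePoly_map_compSL act g r hg hr)
    (lagrangePoly_coeff_mem (merInfH N).toSubring g r hgm hrm)
  obtain ⟨Φ₀, hΦ₀⟩ := exists_map_aeval_jH_eq (N := N) (rootsPoly r)
    (rootsPoly_map_compSL act r hr) (rootsPoly_coeff_mem (merInfH N).toSubring r hrm)
  set rM : A → MerH := fun α => algebraMap HolH MerH (r α) with hrM
  set gM : A → MerH := fun α => algebraMap HolH MerH (g α) with hgM
  have hrMinj : Function.Injective rM := fun α β h =>
    hinj (IsFractionRing.injective HolH MerH h)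
  have key : ∀ Q₀ : ℂ[X][X], (Q₀.map (toFieldJ : ℂ[X] →+* fieldJ)).map (algebraMap fieldJ MerH) =
      (Q₀.map ((Polynomial.aeval jH : ℂ[X] →ₐ[ℂ] HolH) : ℂ[X] →+* HolH)).map
        (algebraMap HolH MerH) := by
    intro Q₀
    rw [Polynomial.map_map, Polynomial.map_map, algebraMap_comp_toFieldJ]
  have hΦ : (Φ₀.map (toFieldJ : ℂ[X] →+* fieldJ)).map (algebraMap fieldJ MerH) =
      ∏ α, (X - C (rM α)) := by
    rw [key, hΦ₀, rootsPoly_map]
    rfl
  have hP : (P₀.map (toFieldJ : ℂ[X] →+* fieldJ)).map (algebraMap fieldJ MerH) =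
      ∑ α, C (gM α) * ∏ β ∈ Finset.univ.erase α, (X - C (rM β)) := by
    rw [key, hP₀, lagrangePoly_map]
    rfl
  have h := GaloisAbstract.mem_adjoin_of_lagrange (E := fieldJ) (L := MerH) rM
    (Φ₀.map (toFieldJ : ℂ[X] →+* fieldJ)) hrMinj gM (P₀.map (toFieldJ : ℂ[X] →+* fieldJ)) hΦ hP α₀
  have h2 := IntermediateField.adjoin_adjoin_left ℂ ({xM} : Set MerH) ({rM α₀} : Set MerH)
  have h3 : gM α₀ ∈ (IntermediateField.adjoin fieldJ ({rM α₀} : Set MerH)).restrictScalars ℂ := h
  rw [h2] at h3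
  have h4 : ({xM} ∪ {rM α₀} : Set MerH) = {xM, rM α₀} := by
    ext; simp [or_comm]
  rw [h4] at h3
  exact h3

end family

end Fermat.Agent.X0
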