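/-
Mod/ModularPoly: descent of `SL(2, ℤ)`-invariant polynomials with coefficients in `RK N` to
`Kb[j]`, Lagrange interpolation over `Kb(j)`, injectivity of `α ↦ j ∘ α`, and the generation
`j(d τ) ∈ Kb(j, j(N τ))`.
-/
import Mathlib
import Fermat.Agent.X0.Mod.Invariant
import Fermat.Agent.X0.Mod.InvPoly
import Fermat.Agent.X0.Mod.GenusArith
import Fermat.Prelude.Thm_ModularCurve_coeff_jqModC_neg_one
import Fermat.Prelude.Thm_ModularCurve_coeff_jqModC_pow_of_lt

set_option autoImplicit false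
set_option linter.unusedSectionVars false
set_option linter.style.haveILetI false

noncomputable section

namespace Fermat.Agent.X0

open Polynomial
open UpperHalfPlane hiding I
open scoped MatrixGroups

variable {N : ℕ} [NeZero N]

/-- A polynomial over `HolH` fixed by all `compSL γ` with coefficients in `RK N` has
coefficients in `Kb[j]`. -/
theorem exists_map_aeval_jH_eq_Kb (P : HolH[X])
    (hinv : ∀ γ : SL(2, ℤ), P.map ((compSL γ : HolH ≃ₐ[ℂ] HolH) : HolH →+* HolH) = P)
    (hmem : ∀ n, P.coeff n ∈ RK N) :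
    ∃ P₀ : Kb[X][X], P₀.map ((Polynomial.aeval jH : Kb[X] →ₐ[Kb] HolH) : Kb[X] →+* HolH) = P := by
  rw [← Polynomial.mem_lifts, Polynomial.lifts_iff_coeff_lifts]
  intro n
  have h1 : ∀ γ : SL(2, ℤ), compSL γ (P.coeff n) = P.coeff n := by
    intro γ
    have := congrArg (fun Q : HolH[X] => Q.coeff n) (hinv γ)
    simpa [Polynomial.coeff_map] using this
  obtain ⟨Q, hQ⟩ := exists_poly_of_invariant (hmem n) h1
  exact ⟨Q, hQ.symm⟩

/-- The field `Kb(j) ⊆ MerH`. -/
abbrev fieldJK : IntermediateField Kb MerH := IntermediateField.adjoin Kb ({xM} : Set MerH)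

/-- `Kb[X] → Kb(j)`, `X ↦ j`. -/
def toFieldJK : Kb[X] →ₐ[Kb] fieldJK :=
  Polynomial.aeval (⟨xM, IntermediateField.mem_adjoin_simple_self Kb xM⟩ : fieldJK)

theorem algebraMap_comp_toFieldJK :
    (algebraMap fieldJK MerH).comp (toFieldJK : Kb[X] →+* fieldJK) =
      (algebraMap HolH MerH).comp ((Polynomial.aeval jH : Kb[X] →ₐ[Kb] HolH) : Kb[X] →+* HolH) := by
  refine Polynomial.ringHom_ext (fun a => ?_) ?_
  · simp only [RingHom.comp_apply, RingHom.coe_coe, toFieldJK, Polynomial.aeval_C]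
    rw [← IsScalarTower.algebraMap_apply, ← IsScalarTower.algebraMap_apply]
  · simp only [RingHom.comp_apply, RingHom.coe_coe, toFieldJK, Polynomial.aeval_X]
    rfl

section family

variable {A : Type*} [Fintype A] [DecidableEq A]
variable (act : SL(2, ℤ) → Equiv.Perm A) (g r : A → HolH)

theorem map_map_toFieldJK (Q₀ : Kb[X][X]) :
    (Q₀.map (toFieldJK : Kb[X] →+* fieldJK)).map (algebraMap fieldJK MerH) =
      (Q₀.map ((Polynomial.aeval jH : Kb[X] →ₐ[Kb] HolH) : Kb[X] →+* HolH)).map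
        (algebraMap HolH MerH) := by
  rw [Polynomial.map_map, Polynomial.map_map, algebraMap_comp_toFieldJK]

/-- The polynomial `∏ (X - r α)` descends to `Kb(j)`. -/
theorem exists_rootsPoly_Kb (hr : ∀ γ α, compSL γ (r α) = r (act γ α))
    (hrm : ∀ α, r α ∈ RK N) :
    ∃ Φ : fieldJK[X], Φ.map (algebraMap fieldJK MerH) =
      ∏ α, (X - C (algebraMap HolH MerH (r α))) := by
  obtain ⟨Φ₀, hΦ₀⟩ := exists_map_aeval_jH_eq_Kb (N := N) (rootsPoly r)
    (rootsPoly_map_compSL act r hr) (rootsPoly_coeff_mem (RK N).toSubring r hrm)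
  refine ⟨Φ₀.map (toFieldJK : Kb[X] →+* fieldJK), ?_⟩
  rw [map_map_toFieldJK, hΦ₀, rootsPoly_map]
  rfl

/-- **Lagrange interpolation over `Kb`**. -/
theorem mem_adjoin_xM_of_family_Kb
    (hg : ∀ γ α, compSL γ (g α) = g (act γ α)) (hr : ∀ γ α, compSL γ (r α) = r (act γ α))
    (hgm : ∀ α, g α ∈ RK N) (hrm : ∀ α, r α ∈ RK N) (hinj : Function.Injective r)
    (α₀ : A) :
    algebraMap HolH MerH (g α₀) ∈
      IntermediateField.adjoin Kb ({xM, algebraMap HolH MerH (r α₀)} : Set MerH) := by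
  obtain ⟨P₀, hP₀⟩ := exists_map_aeval_jH_eq_Kb (N := N) (lagrangePoly g r)
    (lagrangePoly_map_compSL act g r hg hr)
    (lagrangePoly_coeff_mem (RK N).toSubring g r hgm hrm)
  obtain ⟨Φ₀, hΦ₀⟩ := exists_map_aeval_jH_eq_Kb (N := N) (rootsPoly r)
    (rootsPoly_map_compSL act r hr) (rootsPoly_coeff_mem (RK N).toSubring r hrm)
  set rM' : A → MerH := fun α => algebraMap HolH MerH (r α) with hrM
  set gM' : A → MerH := fun α => algebraMap HolH MerH (g α) with hgM
  have hrMinj : Function.Injective rM' := fun α β h =>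
    hinj (IsFractionRing.injective HolH MerH h)
  have hΦ : (Φ₀.map (toFieldJK : Kb[X] →+* fieldJK)).map (algebraMap fieldJK MerH) =
      ∏ α, (X - C (rM' α)) := by
    rw [map_map_toFieldJK, hΦ₀, rootsPoly_map]
    rfl
  have hP : (P₀.map (toFieldJK : Kb[X] →+* fieldJK)).map (algebraMap fieldJK MerH) =
      ∑ α, C (gM' α) * ∏ β ∈ Finset.univ.erase α, (X - C (rM' β)) := by
    rw [map_map_toFieldJK, hP₀, lagrangePoly_map]
    rfl
  have h := GaloisAbstract.mem_adjoin_of_lagrange (E := fieldJK) (L := MerH) rM'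
    (Φ₀.map (toFieldJK : Kb[X] →+* fieldJK)) hrMinj gM' (P₀.map (toFieldJK : Kb[X] →+* fieldJK))
    hΦ hP α₀
  have h2 := IntermediateField.adjoin_adjoin_left Kb ({xM} : Set MerH) ({rM' α₀} : Set MerH)
  have h3 : gM' α₀ ∈ (IntermediateField.adjoin fieldJK ({rM' α₀} : Set MerH)).restrictScalars Kb := h
  rw [h2] at h3
  have h4 : ({xM} ∪ {rM' α₀} : Set MerH) = {xM, rM' α₀} := by
    ext; simp [or_comm]
  rw [h4] at h3
  exact h3

end family

/-! ### Leading terms of the expansions and injectivity of `α ↦ j ∘ α` -/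

theorem expo_eq_mul_self (α : CosetRep N) : α.expo N = α.a * α.a := by
  have h : N / α.d = α.a :=
    Nat.div_eq_of_eq_mul_left α.d_pos α.mul_eq.symm
  rw [CosetRep.expo, h]

theorem coeff_expandFun_jAt_top (α : CosetRep N) :
    (expandFun N (jAt α : ℍ → ℂ)).coeff (-(α.expo N : ℤ)) = (zetaOf α.b α.d)⁻¹ := by
  haveI : NeZero (α.expo N) := ⟨(α.expo_pos dvd_rfl).ne'⟩
  rw [expandFun_jAt dvd_rfl α]
  have h : (-(α.expo N : ℤ)) = (α.expo N : ℤ) * (-1) := by ring
  rw [h, ModularCurve.qExpand_coeff_mul, twistSeries_coeff, ModularCurve.coeff_jqModC_neg_one,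
    mul_one, zpow_neg_one]

theorem coeff_expandFun_jAt_low (α : CosetRep N) {k : ℤ} (hk : k < -(α.expo N : ℤ)) :
    (expandFun N (jAt α : ℍ → ℂ)).coeff k = 0 := by
  haveI : NeZero (α.expo N) := ⟨(α.expo_pos dvd_rfl).ne'⟩
  have he : (0 : ℤ) < α.expo N := by exact_mod_cast α.expo_pos dvd_rfl
  rw [expandFun_jAt dvd_rfl α]
  by_cases hd : ((α.expo N : ℕ) : ℤ) ∣ k
  · obtain ⟨m, rfl⟩ := hd
    rw [ModularCurve.qExpand_coeff_mul, twistSeries_coeff]
    have hm : m < -((1 : ℕ) : ℤ) := by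
      by_contra hcon
      rw [not_lt] at hcon
      have : -(α.expo N : ℤ) ≤ (α.expo N : ℤ) * m := by
        have := mul_le_mul_of_nonneg_left hcon he.le
        simpa using this
      omega
    have h0 := ModularCurve.coeff_jqModC_pow_of_lt ℂ (b := 1) hm
    rw [pow_one] at h0
    rw [h0, mul_zero]
  · exact ModularCurve.qExpand_coeff_of_not_dvd _ _ hd

theorem zetaOf_eq_iff_of_lt {d b b' : ℕ} (hb : b < d) (hb' : b' < d)
    (h : zetaOf (b : ℤ) d = zetaOf (b' : ℤ) d) : b = b' := by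
  have hd : 0 < d := lt_of_le_of_lt (Nat.zero_le _) hb
  have hdc : (d : ℂ) ≠ 0 := by exact_mod_cast hd.ne'
  rw [zetaOf, zetaOf, Complex.exp_eq_exp_iff_exists_int] at h
  obtain ⟨n, hn⟩ := h
  have hpi : (2 * (Real.pi : ℂ) * Complex.I) ≠ 0 := by
    simp [Real.pi_ne_zero, Complex.I_ne_zero]
  have h1 : ((b : ℤ) : ℂ) = ((b' : ℤ) : ℂ) + n * d := by
    field_simp at hn
    rw [hn]; ring
  have h3 : (b : ℤ) = (b' : ℤ) + n * d := by exact_mod_cast h1
  have hn0 : n = 0 := by
    by_contra hne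
    rcases lt_or_gt_of_ne hne with hlt | hgt
    · have : n * (d : ℤ) ≤ -1 * d := mul_le_mul_of_nonneg_right (by omega) (by positivity)
      omega
    · have : 1 * (d : ℤ) ≤ n * d := mul_le_mul_of_nonneg_right (by omega) (by positivity)
      omega
  rw [hn0] at h3
  omega

theorem jAt_injective : Function.Injective (jAt : CosetRep N → HolH) := by
  intro α β h
  have hexp : expandFun N (jAt α : ℍ → ℂ) = expandFun N (jAt β : ℍ → ℂ) := by rw [h]
  have hz : ∀ γ : CosetRep N, (zetaOf γ.b γ.d)⁻¹ ≠ 0 := fun γ => inv_ne_zero (zetaOf_ne_zero _ _)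
  have he : α.expo N = β.expo N := by
    rcases lt_trichotomy (α.expo N) (β.expo N) with hlt | heq | hgt
    · exfalso
      have h1 := coeff_expandFun_jAt_top β
      rw [← hexp, coeff_expandFun_jAt_low α (by exact_mod_cast (neg_lt_neg (Int.ofNat_lt.mpr hlt)))]
        at h1
      exact hz β h1.symm
    · exact heq
    · exfalso
      have h1 := coeff_expandFun_jAt_top α
      rw [hexp, coeff_expandFun_jAt_low β (by exact_mod_cast (neg_lt_neg (Int.ofNat_lt.mpr hgt)))]
        at h1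
      exact hz α h1.symm
  have ha : α.a = β.a := by
    rw [expo_eq_mul_self, expo_eq_mul_self] at he
    exact Nat.mul_self_inj.mp he
  have hd : α.d = β.d := by
    have h1 := α.mul_eq
    have h2 := β.mul_eq
    rw [ha] at h1
    exact Nat.eq_of_mul_eq_mul_left β.a_pos (h1.trans h2.symm)
  have hb : α.b = β.b := by
    have h1 := coeff_expandFun_jAt_top α
    rw [hexp, he, coeff_expandFun_jAt_top β, inv_inj, hd] at h1
    exact (zetaOf_eq_iff_of_lt (hd ▸ α.b_lt) β.b_lt h1.symm)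
  exact CosetRep.ext ha hb hd

theorem rM_injective : Function.Injective (rM : CosetRep N → MerH) := fun _ _ h =>
  jAt_injective (IsFractionRing.injective HolH MerH h)

/-! ### The families `j ∘ α` and the generation of `j (d τ)` -/

theorem jAt_mem_RK_self (α : CosetRep N) : jAt α ∈ RK N := jAt_mem_RK dvd_rfl α

theorem compSL_jAt_actPerm (γ : SL(2, ℤ)) (α : CosetRep N) :
    compSL γ (jAt α) = jAt (CosetRep.actPerm γ α) := compSL_jAt γ α

/-- The modular polynomial `∏ (X - j ∘ α)` has coefficients in `Kb(j)`. -/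
theorem exists_modularPoly :
    ∃ Φ : fieldJK[X], Φ.map (algebraMap fieldJK MerH) = ∏ α : CosetRep N, (X - C (rM α)) :=
  exists_rootsPoly_Kb (N := N) CosetRep.actPerm jAt compSL_jAt_actPerm jAt_mem_RK_self

/-- A chosen `γ` with `(base N).act γ = α`. -/
def CosetRep.toSL (α : CosetRep N) : SL(2, ℤ) := (CosetRep.exists_act_base_eq α).choose

theorem CosetRep.base_act_toSL (α : CosetRep N) : (CosetRep.base N).act α.toSL = α :=
  (CosetRep.exists_act_base_eq α).choose_spec

theorem Gamma0_le_of_dvd {d N : ℕ} (h : d ∣ N) :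
    CongruenceSubgroup.Gamma0 N ≤ CongruenceSubgroup.Gamma0 d := by
  intro γ hγ
  rw [CongruenceSubgroup.Gamma0_mem] at hγ ⊢
  rw [ZMod.intCast_zmod_eq_zero_iff_dvd] at hγ ⊢
  exact (Int.natCast_dvd_natCast.mpr h).trans hγ

theorem base_act_eq_of_dvd {d : ℕ} [NeZero d] (h : d ∣ N) {γ δ : SL(2, ℤ)}
    (hγδ : (CosetRep.base N).act γ = (CosetRep.base N).act δ) :
    (CosetRep.base d).act γ = (CosetRep.base d).act δ := by
  have h1 : (CosetRep.base N).act (γ * δ⁻¹) = CosetRep.base N := by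
    rw [CosetRep.act_mul, hγδ, CosetRep.act_act_inv]
  have h2 : γ * δ⁻¹ ∈ CongruenceSubgroup.Gamma0 d :=
    Gamma0_le_of_dvd h ((CosetRep.act_base_eq_base_iff _).mp h1)
  have h3 : (CosetRep.base d).act (γ * δ⁻¹) = CosetRep.base d :=
    (CosetRep.act_base_eq_base_iff _).mpr h2
  have h4 : γ = (γ * δ⁻¹) * δ := by group
  rw [h4, CosetRep.act_mul, h3]

/-- The family `α ↦ j_d ∘ γ_α`. -/
def gFam (N : ℕ) [NeZero N] (d : ℕ) [NeZero d] (α : CosetRep N) : HolH :=
  jAt ((CosetRep.base d).act α.toSL)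

theorem compSL_gFam {d : ℕ} [NeZero d] (h : d ∣ N) (γ : SL(2, ℤ)) (α : CosetRep N) :
    compSL γ (gFam N d α) = gFam N d (CosetRep.actPerm γ α) := by
  rw [gFam, gFam, compSL_jAt, ← CosetRep.act_mul]
  congr 1
  apply base_act_eq_of_dvd h
  rw [CosetRep.act_mul, CosetRep.base_act_toSL, CosetRep.base_act_toSL, CosetRep.actPerm_apply]

theorem gFam_base {d : ℕ} [NeZero d] (h : d ∣ N) : gFam N d (CosetRep.base N) = jAt (CosetRep.base d) := by
  rw [gFam]
  congr 1
  have h1 : (CosetRep.base N).act (CosetRep.base N).toSL = (CosetRep.base N).act 1 := by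
    rw [CosetRep.base_act_toSL, CosetRep.act_one]
  rw [base_act_eq_of_dvd h h1, CosetRep.act_one]

/-- **Generation**: `j (d τ) ∈ Kb(j, j (N τ))` for `d ∣ N`. -/
theorem rM_base_mem_adjoin {d : ℕ} [NeZero d] (h : d ∣ N) :
    rM (CosetRep.base d) ∈
      IntermediateField.adjoin Kb ({xM, rM (CosetRep.base N)} : Set MerH) := by
  have := mem_adjoin_xM_of_family_Kb (N := N) CosetRep.actPerm (gFam N d) jAt
    (compSL_gFam h) compSL_jAt_actPerm (fun α => jAt_mem_RK h _) jAt_mem_RK_self jAt_injective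
    (CosetRep.base N)
  rw [gFam_base h] at this
  exact this

end Fermat.Agent.X0
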