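/-
Mod/EmbCount: degree of `F = K(x, y)` over `K(x)` and the `K(x)`-embeddings of `F` into a field `L`
containing all conjugates `r α` of the image of `y`, permuted transitively by automorphisms.
-/
import Mathlib
import Fermat.Agent.X0.Mod.GaloisAbstract
import Fermat.Agent.X0.FF.Bridge

set_option autoImplicit false
set_option linter.unusedSectionVars false
set_option linter.style.haveILetI false

noncomputable section

namespace Fermat.Agent.X0.EmbCount

open Polynomial IntermediateField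

variable {K F L : Type*} [Field K] [Field F] [Field L] [Algebra K F] [Algebra K L]

/-- Two `K`-algebra homomorphisms agreeing at `x` agree on `K(x)`. -/
theorem algHom_eq_on_adjoin_simple {x : F} (ψ₁ ψ₂ : F →ₐ[K] L) (h : ψ₁ x = ψ₂ x) (e : K⟮x⟯) :
    ψ₁ (e : F) = ψ₂ (e : F) := by
  have h1 : ψ₁.comp (K⟮x⟯).val = ψ₂.comp (K⟮x⟯).val := by
    refine IntermediateField.adjoin_algHom_ext K ?_
    intro z hz
    rw [Set.mem_singleton_iff] at hz
    subst hz
    exact h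
  exact DFunLike.congr_fun h1 e

/-- Two `K`-algebra homomorphisms agreeing on a generating set are equal. -/
theorem algHom_ext_of_adjoin_eq_top {s : Set F} (hs : IntermediateField.adjoin K s = ⊤)
    (ψ₁ ψ₂ : F →ₐ[K] L) (h : ∀ z ∈ s, ψ₁ z = ψ₂ z) : ψ₁ = ψ₂ := by
  ext f
  have hf : f ∈ IntermediateField.adjoin K s := by rw [hs]; trivial
  induction hf using IntermediateField.adjoin_induction with
  | mem z hz => exact h z hz
  | algebraMap c => rw [AlgHom.commutes, AlgHom.commutes]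
  | add a b _ _ ha hb => rw [map_add, map_add, ha, hb]
  | inv a _ ha => rw [map_inv₀, map_inv₀, ha]
  | mul a b _ _ ha hb => rw [map_mul, map_mul, ha, hb]

variable {A : Type*} [Fintype A] [DecidableEq A]
variable (xF yF : F) (hgen : IntermediateField.adjoin K ({xF, yF} : Set F) = ⊤)
  (φ : F →ₐ[K] L) (r : A → L) (hr : Function.Injective r) (α₀ : A) (hy : φ yF = r α₀)
  (hcoeff : ∀ k : ℕ, ∃ P : K[X], (∏ α, (X - C (r α)) : L[X]).coeff k = aeval (φ xF) P)
  (htrans : ∀ α, ∃ σ : L ≃ₐ[K] L, σ (φ xF) = φ xF ∧ σ (r α₀) = r α)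

/-- `L` as an algebra over `K(xF)` via `φ`. -/
@[reducible] def algebraE : Algebra K⟮xF⟯ L :=
  ((φ : F →+* L).comp (algebraMap K⟮xF⟯ F)).toAlgebra

theorem algebraMap_E_apply (e : K⟮xF⟯) :
    letI := algebraE xF φ
    algebraMap K⟮xF⟯ L e = φ (e : F) := rfl

/-- A `K`-algebra homomorphism agreeing with `φ` at `xF` is `K(xF)`-linear. -/
def toE (ψ : F →ₐ[K] L) (hψ : ψ xF = φ xF) :
    letI := algebraE xF φ
    F →ₐ[K⟮xF⟯] L :=
  letI := algebraE xF φ
  { (ψ : F →+* L) with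
    commutes' := fun e => algHom_eq_on_adjoin_simple ψ φ hψ e }

include hcoeff in
theorem exists_polyE :
    letI := algebraE xF φ
    ∃ Φ : (K⟮xF⟯)[X], Φ.map (algebraMap K⟮xF⟯ L) = ∏ α, (X - C (r α)) := by
  letI := algebraE xF φ
  rw [← Polynomial.mem_lifts, Polynomial.lifts_iff_coeff_lifts]
  intro k
  obtain ⟨P, hP⟩ := hcoeff k
  refine ⟨aeval (⟨xF, IntermediateField.mem_adjoin_simple_self K xF⟩ : K⟮xF⟯) P, ?_⟩
  rw [hP]
  show φ ((aeval (⟨xF, _⟩ : K⟮xF⟯) P : K⟮xF⟯) : F) = _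
  rw [← IntermediateField.aeval_coe, ← aeval_algHom_apply]

include hr hy hcoeff htrans in
theorem natDegree_minpoly_yF : (minpoly K⟮xF⟯ yF).natDegree = Fintype.card A ∧
    IsIntegral K⟮xF⟯ yF := by
  letI := algebraE xF φ
  obtain ⟨Φ, hΦ⟩ := exists_polyE xF φ r hcoeff
  let φE : F →ₐ[K⟮xF⟯] L := toE xF φ φ rfl
  have hφE : ∀ f, φE f = φ f := fun _ => rfl
  have htr : ∀ α, ∃ σ : L →ₐ[K⟮xF⟯] L, σ (r α₀) = r α := by
    intro α
    obtain ⟨σ, hσx, hσr⟩ := htrans α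
    refine ⟨{ (σ : L →+* L) with commutes' := fun e => ?_ }, hσr⟩
    show σ (φ (e : F)) = φ (e : F)
    exact algHom_eq_on_adjoin_simple ((σ : L →ₐ[K] L).comp φ) φ hσx e
  have hmin := GaloisAbstract.minpoly_eq_of_transitive r Φ hr hΦ α₀ htr
  have hint : IsIntegral K⟮xF⟯ (r α₀) := GaloisAbstract.isIntegral_of_map_eq_prod r Φ hΦ α₀
  have h1 : minpoly K⟮xF⟯ (φE yF) = minpoly K⟮xF⟯ yF :=
    minpoly.algHom_eq φE φE.toRingHom.injective yF
  rw [hφE, hy] at h1
  refine ⟨?_, ?_⟩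
  · rw [← h1, hmin, GaloisAbstract.natDegree_of_map_eq_prod r Φ hΦ]
  · rw [← hy, ← hφE] at hint
    exact (isIntegral_algHom_iff φE φE.toRingHom.injective).mp hint

include hgen in
theorem adjoin_E_yF : K⟮xF⟯⟮yF⟯ = ⊤ := by
  rw [← IntermediateField.restrictScalars_eq_top_iff (K := K),
    IntermediateField.adjoin_adjoin_left]
  have : ({xF} ∪ {yF} : Set F) = {xF, yF} := by ext; simp [or_comm]
  rw [this, hgen]

include hgen hr hy hcoeff htrans in
/-- `[F : K(xF)] = card A`. -/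
theorem finrank_eq_card :
    FiniteDimensional K⟮xF⟯ F ∧ Module.finrank K⟮xF⟯ F = Fintype.card A := by
  obtain ⟨hdeg, hint⟩ := natDegree_minpoly_yF xF yF φ r hr α₀ hy hcoeff htrans
  have htop := adjoin_E_yF xF yF hgen
  have hfd : FiniteDimensional K⟮xF⟯ K⟮xF⟯⟮yF⟯ := IntermediateField.adjoin.finiteDimensional hint
  have hfr : Module.finrank K⟮xF⟯ K⟮xF⟯⟮yF⟯ = Fintype.card A := by
    rw [IntermediateField.adjoin.finrank hint, hdeg]
  rw [htop] at hfd hfr
  refine ⟨?_, ?_⟩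
  · exact (IntermediateField.topEquiv (F := K⟮xF⟯) (E := F)).toLinearEquiv.finiteDimensional
  · rw [← hfr]
    exact (IntermediateField.topEquiv (F := K⟮xF⟯) (E := F)).toLinearEquiv.finrank_eq.symm

/-! ### The embeddings over `K(xF)` -/

include hy hcoeff in
theorem exists_root (ψ : EmbOver K xF (φ xF)) : ∃ α, ψ.1 yF = r α := by
  letI := algebraE xF φ
  obtain ⟨Φ, hΦ⟩ := exists_polyE xF φ r hcoeff
  let φE : F →ₐ[K⟮xF⟯] L := toE xF φ φ rfl
  let ψE : F →ₐ[K⟮xF⟯] L := toE xF φ ψ.1 ψ.2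
  have h0 : aeval (φE yF) Φ = 0 := by
    show aeval (φ yF) Φ = 0
    rw [hy, ← eval_map_algebraMap, hΦ, eval_prod]
    exact Finset.prod_eq_zero (Finset.mem_univ α₀) (by simp)
  have h1 : aeval yF Φ = 0 := by
    rw [aeval_algHom_apply] at h0
    exact (map_eq_zero_iff φE φE.toRingHom.injective).mp h0
  have h2 : aeval (ψE yF) Φ = 0 := by rw [aeval_algHom_apply, h1, map_zero]
  have h3 : aeval (ψ.1 yF) Φ = 0 := h2
  rw [← eval_map_algebraMap, hΦ, eval_prod, Finset.prod_eq_zero_iff] at h3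
  obtain ⟨α, -, hα⟩ := h3
  refine ⟨α, ?_⟩
  rw [eval_sub, eval_X, eval_C, sub_eq_zero] at hα
  exact hα

/-- The root attached to an embedding. -/
def toA (ψ : EmbOver K xF (φ xF)) : A := (exists_root xF yF φ r α₀ hy hcoeff ψ).choose

theorem toA_spec (ψ : EmbOver K xF (φ xF)) : ψ.1 yF = r (toA xF yF φ r α₀ hy hcoeff ψ) :=
  (exists_root xF yF φ r α₀ hy hcoeff ψ).choose_spec

include hgen in
theorem embOver_ext {ψ ψ' : EmbOver K xF (φ xF)} (h : ψ.1 yF = ψ'.1 yF) : ψ = ψ' := by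
  apply Subtype.ext
  refine algHom_ext_of_adjoin_eq_top hgen _ _ ?_
  rintro z (rfl | rfl)
  · rw [ψ.2, ψ'.2]
  · exact h

include hgen hr in
theorem toA_injective : Function.Injective (toA xF yF φ r α₀ hy hcoeff) := by
  intro ψ ψ' h
  apply embOver_ext xF yF hgen φ
  rw [toA_spec xF yF φ r α₀ hy hcoeff ψ, toA_spec xF yF φ r α₀ hy hcoeff ψ', h]

include hr htrans in
theorem toA_surjective : Function.Surjective (toA xF yF φ r α₀ hy hcoeff) := by
  intro α
  obtain ⟨σ, hσx, hσr⟩ := htrans α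
  refine ⟨⟨(σ : L →ₐ[K] L).comp φ, hσx⟩, ?_⟩
  apply hr
  rw [← toA_spec xF yF φ r α₀ hy hcoeff]
  show σ (φ yF) = r α
  rw [hy, hσr]

/-- `EmbOver K xF (φ xF) ≃ A`. -/
def equivA (hgen : IntermediateField.adjoin K ({xF, yF} : Set F) = ⊤)
    (hr : Function.Injective r)
    (htrans : ∀ α, ∃ σ : L ≃ₐ[K] L, σ (φ xF) = φ xF ∧ σ (r α₀) = r α) :
    EmbOver K xF (φ xF) ≃ A :=
  Equiv.ofBijective (toA xF yF φ r α₀ hy hcoeff)
    ⟨toA_injective xF yF hgen φ r hr α₀ hy hcoeff, toA_surjective xF yF φ r hr α₀ hy hcoeff htrans⟩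

theorem equivA_spec (ψ : EmbOver K xF (φ xF)) :
    ψ.1 yF = r (equivA xF yF φ r α₀ hy hcoeff hgen hr htrans ψ) :=
  toA_spec xF yF φ r α₀ hy hcoeff ψ

/-! ### Transport of orbit counts -/

section orbits

variable (σ : L ≃ₐ[K] L) (hσx : σ (φ xF) = φ xF) (π : Equiv.Perm A)
  (hσπ : ∀ α, σ (r α) = r (π α))

include hσπ in
theorem inv_apply_r (α : A) : σ⁻¹ (r α) = r (π⁻¹ α) := by
  have h := hσπ (π.symm α)
  rw [Equiv.apply_symm_apply] at h
  show σ.symm (r α) = r (π.symm α)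
  rw [← h]
  exact σ.symm_apply_apply _

theorem pow_apply_r' (σ : L ≃ₐ[K] L) (π : Equiv.Perm A) (h : ∀ α, σ (r α) = r (π α)) (k : ℕ)
    (α : A) : (σ ^ k) (r α) = r ((π ^ k) α) := by
  induction k generalizing α with
  | zero => rfl
  | succ k ih =>
    rw [pow_succ, pow_succ, AlgEquiv.mul_apply, h, ih, Equiv.Perm.mul_apply]

include hσπ in
theorem zpow_apply_r (k : ℤ) (α : A) : (σ ^ k) (r α) = r ((π ^ k) α) := by
  cases k with
  | ofNat k =>
    rw [Int.ofNat_eq_natCast, zpow_natCast, zpow_natCast]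
    exact pow_apply_r' r σ π hσπ k α
  | negSucc k =>
    rw [zpow_negSucc, zpow_negSucc, ← inv_pow, ← inv_pow]
    exact pow_apply_r' r σ⁻¹ π⁻¹ (inv_apply_r r σ π hσπ) (k + 1) α

include hσx in
theorem zpow_apply_x (k : ℤ) : (σ ^ k) (φ xF) = φ xF := by
  have hinv : σ⁻¹ (φ xF) = φ xF := by
    conv_lhs => rw [← hσx]
    exact σ.symm_apply_apply _
  have hpow : ∀ (τ : L ≃ₐ[K] L), τ (φ xF) = φ xF → ∀ n : ℕ, (τ ^ n) (φ xF) = φ xF := by
    intro τ hτ n
    induction n with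
    | zero => rfl
    | succ n ih => rw [pow_succ, AlgEquiv.mul_apply, hτ, ih]
  cases k with
  | ofNat k => rw [Int.ofNat_eq_natCast, zpow_natCast]; exact hpow σ hσx k
  | negSucc k => rw [zpow_negSucc, ← inv_pow]; exact hpow σ⁻¹ hinv (k + 1)

include hσx hσπ in
theorem orbit_iff_sameCycle (ψ ψ' : EmbOver K xF (φ xF)) :
    (orbitSetoidK K xF (φ xF) (Subgroup.zpowers σ)).r ψ ψ' ↔
      π.SameCycle (equivA xF yF φ r α₀ hy hcoeff hgen hr htrans ψ)
        (equivA xF yF φ r α₀ hy hcoeff hgen hr htrans ψ') := by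
  constructor
  · rintro ⟨τ, hτ, h⟩
    obtain ⟨k, rfl⟩ := Subgroup.mem_zpowers_iff.mp hτ
    refine ⟨k, ?_⟩
    apply hr
    rw [← zpow_apply_r r σ π hσπ, ← equivA_spec xF yF hgen φ r hr α₀ hy hcoeff htrans ψ,
      ← equivA_spec xF yF hgen φ r hr α₀ hy hcoeff htrans ψ', h]
    rfl
  · rintro ⟨k, hk⟩
    refine ⟨σ ^ k, Subgroup.zpow_mem_zpowers σ k, ?_⟩
    have : ψ' = ⟨((σ ^ k : L ≃ₐ[K] L) : L →ₐ[K] L).comp ψ.1, by
        show (σ ^ k) (ψ.1 xF) = φ xF
        rw [ψ.2]; exact zpow_apply_x xF φ σ hσx k⟩ := by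
      apply embOver_ext xF yF hgen φ
      show ψ'.1 yF = (σ ^ k) (ψ.1 yF)
      rw [equivA_spec xF yF hgen φ r hr α₀ hy hcoeff htrans ψ,
        equivA_spec xF yF hgen φ r hr α₀ hy hcoeff htrans ψ', zpow_apply_r r σ π hσπ, hk]
    exact congrArg Subtype.val this

include yF hgen hr α₀ hy hcoeff htrans hσx hσπ in
/-- The number of `⟨σ⟩`-orbits on the embeddings is the number of cycles of `π`. -/
theorem card_orbits_eq_card_cycles :
    Nat.card (Quotient (orbitSetoidK K xF (φ xF) (Subgroup.zpowers σ))) =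
      Nat.card (Quotient (Equiv.Perm.SameCycle.setoid π)) :=
  Nat.card_congr (Quotient.congr (equivA xF yF φ r α₀ hy hcoeff hgen hr htrans)
    (fun ψ ψ' => orbit_iff_sameCycle xF yF hgen φ r hr α₀ hy hcoeff htrans σ hσx π hσπ ψ ψ'))

end orbits

end Fermat.Agent.X0.EmbCount
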