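import Fermat.Agent.X0.Mod.FracExtend
import Fermat.Agent.X0.Mod.Descent
import Fermat.Agent.X0.Ana.QExpH
import Fermat.Agent.X0.Ana.QExpJSubst
import Fermat.Agent.X0.Ana.JHol

/-!
# The valuation at `i∞` on the field of fractions of `merInfH N`

`merInfField N ⊆ MerH` is the field of fractions of `merInfH N`, `expandMer N` is the extension of
the Laurent expansion `expandH N` to it, and `wInfM N` is the pull-back of the `X`-adic valuation
of `LaurentSeries ℂ`.
-/

set_option autoImplicit false

noncomputable section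

namespace Fermat.Agent.X0

open WithZero
open UpperHalfPlane hiding I
open scoped MatrixGroups

/-- If `F.coeff D ≠ 0` and `F.coeff n = 0` for `n < D` then the `X`-adic valuation of `F` is
`exp (-D)`. -/
theorem laurent_valuation_eq_of_coeff {K : Type*} [Field K] {F : LaurentSeries K} {D : ℤ}
    (hD : F.coeff D ≠ 0) (hlt : ∀ n : ℤ, n < D → F.coeff n = 0) :
    (Valued.v F : ℤᵐ⁰) = exp (-D) := by
  have hle : (Valued.v F : ℤᵐ⁰) ≤ exp (-D) :=
    (LaurentSeries.valuation_le_iff_coeff_lt_eq_zero K).mpr hlt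
  have hF : F ≠ 0 := by
    rintro rfl
    simp at hD
  have hv : (Valued.v F : ℤᵐ⁰) ≠ 0 := (Valuation.ne_zero_iff _).mpr hF
  obtain ⟨k, hk⟩ : ∃ k : ℤ, (Valued.v F : ℤᵐ⁰) = exp k := ⟨log (Valued.v F), (exp_log hv).symm⟩
  rw [hk] at hle ⊢
  have h1 : k ≤ -D := exp_le_exp.mp hle
  rcases h1.lt_or_eq with h2 | h2
  · exfalso
    have h3 : (Valued.v F : ℤᵐ⁰) ≤ exp (-(-k)) := by rw [neg_neg, hk]
    exact hD ((LaurentSeries.valuation_le_iff_coeff_lt_eq_zero K).mp h3 D (by omega))
  · rw [h2]

variable (N : ℕ) [NeZero N]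

/-- The field of fractions of `merInfH N` inside `MerH`. -/
abbrev merInfField : IntermediateField ℂ MerH := FracExtend.merField (merInfH N)

/-- The Laurent expansion at `i∞` on `merInfField N`. -/
def expandMer : merInfField N →ₐ[ℂ] LaurentSeries ℂ :=
  FracExtend.exMer (expandH N) expandH_injective

/-- The valuation at `i∞` (normalised by the parameter `u = exp (2 π i τ / N)`). -/
def wInfM : Valuation (merInfField N) ℤᵐ⁰ :=
  (Valued.v : Valuation (LaurentSeries ℂ) ℤᵐ⁰).comap (expandMer N : merInfField N →+* _)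

variable {N}

theorem wInfM_apply (m : merInfField N) : wInfM N m = Valued.v (expandMer N m) := rfl

theorem algebraMap_mem_merInfField {f : HolH} (hf : f ∈ merInfH N) :
    algebraMap HolH MerH f ∈ merInfField N :=
  FracExtend.algebraMap_mem_merField (merInfH N) ⟨f, hf⟩

theorem expandMer_algebraMap {f : HolH} (hf : f ∈ merInfH N) :
    expandMer N ⟨algebraMap HolH MerH f, algebraMap_mem_merInfField hf⟩ =
      expandFun N (f : ℍ → ℂ) :=
  FracExtend.exMer_algebraMap (expandH N) expandH_injective ⟨f, hf⟩ _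

/-- (e) the valuation of a holomorphic function from its expansion. -/
theorem wInfM_algebraMap_eq {f : HolH} (hf : f ∈ merInfH N) {D : ℤ}
    (hD : (expandFun N (f : ℍ → ℂ)).coeff D ≠ 0)
    (hlt : ∀ n : ℤ, n < D → (expandFun N (f : ℍ → ℂ)).coeff n = 0) :
    wInfM N ⟨algebraMap HolH MerH f, algebraMap_mem_merInfField hf⟩ = exp (-D) := by
  rw [wInfM_apply, expandMer_algebraMap hf]
  exact laurent_valuation_eq_of_coeff hD hlt

/-- (b) the valuation is trivial on nonzero constants. -/
theorem wInfM_algebraMap_const {c : ℂ} (hc : c ≠ 0) :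
    wInfM N (algebraMap ℂ (merInfField N) c) = 1 := by
  rw [wInfM_apply, AlgHom.commutes, algebraMap_laurentSeries_eq_C]
  have := laurent_valuation_eq_of_coeff (F := (HahnSeries.C c : LaurentSeries ℂ)) (D := 0)
    (by simpa using hc) (fun n hn => by
      rw [HahnSeries.C_apply, HahnSeries.coeff_single_of_ne hn.ne])
  simpa using this

theorem wInfM_algebraMap_const_le (c : ℂ) : wInfM N (algebraMap ℂ (merInfField N) c) ≤ 1 := by
  by_cases hc : c = 0
  · simp [hc]
  · exact (wInfM_algebraMap_const hc).le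

/-- `j ∈ merInfH N`. -/
theorem jH_mem_merInfH : jH ∈ merInfH N := by
  have hN : 0 < N := Nat.pos_of_ne_zero (NeZero.ne N)
  have h := isMerInf_jFun_comp_affine (a := 1) (d := 1) (b := 0) (e := N) (N := N) (σ := id)
    one_pos hN (by ring) hN (fun τ => by simp)
  exact h

theorem expandFun_jH : expandFun N (jH : ℍ → ℂ) =
    ModularCurve.qExpand ℂ N (ModularCurve.jqModC ℂ) := by
  have hN : 0 < N := Nat.pos_of_ne_zero (NeZero.ne N)
  have : NeZero (N * 1) := ⟨by simpa using NeZero.ne N⟩
  have h := expandFun_jFun_comp_mul (N := N) (a := 1) (σ := id) hN (fun τ => by simp)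
  rw [coe_jH]
  simpa using h

theorem xM_mem_merInfField : xM ∈ merInfField N := algebraMap_mem_merInfField jH_mem_merInfH

/-- (c) `j` has a pole of order `N` (in the parameter `u`) at `i∞`. -/
theorem wInfM_xM : wInfM N ⟨xM, xM_mem_merInfField⟩ = exp (N : ℤ) := by
  have h := wInfM_algebraMap_eq (N := N) jH_mem_merInfH (D := -(N : ℤ))
    (by rw [expandFun_jH, coeff_qExpand_jqModC_top]; exact one_ne_zero)
    (fun n hn => by rw [expandFun_jH, coeff_qExpand_jqModC_low ℂ N hn])
  rw [neg_neg] at h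
  exact h

theorem wInfM_xM_inv : wInfM N (⟨xM, xM_mem_merInfField⟩ : merInfField N)⁻¹ = exp (-(N : ℤ)) := by
  rw [map_inv₀, wInfM_xM, exp_neg]

/-- every element of `merInfField N` is a quotient of elements of `merInfH N`. -/
theorem exists_eq_div_of_mem_merInfField (m : merInfField N) :
    ∃ a b : HolH, a ∈ merInfH N ∧ b ∈ merInfH N ∧ b ≠ 0 ∧
      (m : MerH) = algebraMap HolH MerH a / algebraMap HolH MerH b := by
  obtain ⟨y, hy⟩ := m.2
  obtain ⟨a, b, hb, rfl⟩ := IsFractionRing.div_surjective (A := merInfH N) y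
  have hb0 : b ≠ 0 := nonZeroDivisors.ne_zero hb
  refine ⟨a, b, a.2, b.2, fun h => hb0 (Subtype.ext h), ?_⟩
  have hy' : FracExtend.toMer (merInfH N) (algebraMap (merInfH N) (FractionRing (merInfH N)) a /
      algebraMap (merInfH N) (FractionRing (merInfH N)) b) = (m : MerH) := hy
  rw [← hy', map_div₀, FracExtend.toMer_algebraMap, FracExtend.toMer_algebraMap]

theorem wInfM_div {a b : HolH} (ha : a ∈ merInfH N) (hb : b ∈ merInfH N)
    (h : algebraMap HolH MerH a / algebraMap HolH MerH b ∈ merInfField N) :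
    wInfM N ⟨algebraMap HolH MerH a / algebraMap HolH MerH b, h⟩ =
      Valued.v (expandFun N (a : ℍ → ℂ)) / Valued.v (expandFun N (b : ℍ → ℂ)) := by
  have : (⟨algebraMap HolH MerH a / algebraMap HolH MerH b, h⟩ : merInfField N) =
      ⟨algebraMap HolH MerH a, algebraMap_mem_merInfField ha⟩ /
        ⟨algebraMap HolH MerH b, algebraMap_mem_merInfField hb⟩ := Subtype.ext rfl
  rw [this, map_div₀, wInfM_apply, wInfM_apply, expandMer_algebraMap ha, expandMer_algebraMap hb]

/-- Twisting the coefficients by powers of a nonzero number does not change the valuation. -/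
theorem laurent_valuation_eq_of_coeff_eq {F G : LaurentSeries ℂ} {ζ : ℂ} (hζ : ζ ≠ 0)
    (h : ∀ k : ℤ, G.coeff k = ζ ^ k * F.coeff k) :
    (Valued.v G : ℤᵐ⁰) = Valued.v F := by
  have key : ∀ D : ℤ, (Valued.v G : ℤᵐ⁰) ≤ exp (-D) ↔ (Valued.v F : ℤᵐ⁰) ≤ exp (-D) := by
    intro D
    rw [LaurentSeries.valuation_le_iff_coeff_lt_eq_zero, LaurentSeries.valuation_le_iff_coeff_lt_eq_zero]
    refine forall₂_congr fun n _ => ?_
    rw [h n, mul_eq_zero, or_iff_right (zpow_ne_zero n hζ)]
  by_cases hF : F = 0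
  · have hG : G = 0 := by
      ext k; rw [h k, hF]; simp
    rw [hF, hG]
  · have hG : G ≠ 0 := by
      intro hG
      apply hF
      ext k
      have := h k
      rw [hG, HahnSeries.coeff_zero, eq_comm, mul_eq_zero, or_iff_right (zpow_ne_zero k hζ)] at this
      simpa using this
    have hvF : (Valued.v F : ℤᵐ⁰) ≠ 0 := (Valuation.ne_zero_iff _).mpr hF
    have hvG : (Valued.v G : ℤᵐ⁰) ≠ 0 := (Valuation.ne_zero_iff _).mpr hG
    have eF : (Valued.v F : ℤᵐ⁰) = exp (-(-log (Valued.v F))) := by rw [neg_neg, exp_log hvF]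
    have eG : (Valued.v G : ℤᵐ⁰) = exp (-(-log (Valued.v G))) := by rw [neg_neg, exp_log hvG]
    apply le_antisymm
    · rw [eF]; exact (key _).mpr eF.le
    · rw [eG]; exact (key _).mp eG.le

/-- (d) `compSLMer T` preserves `merInfField N`. -/
theorem compSLMer_T_mem_merInfField (m : merInfField N) :
    compSLMer ModularGroup.T (m : MerH) ∈ merInfField N := by
  obtain ⟨a, b, ha, hb, hb0, hm⟩ := exists_eq_div_of_mem_merInfField m
  rw [hm, map_div₀, compSLMer_algebraMap, compSLMer_algebraMap]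
  exact div_mem (algebraMap_mem_merInfField (compSL_T_mem_merInfH ha))
    (algebraMap_mem_merInfField (compSL_T_mem_merInfH hb))

/-- (d) the valuation at `i∞` is invariant under `T`. -/
theorem wInfM_compSLMer_T (m : merInfField N) :
    wInfM N ⟨compSLMer ModularGroup.T (m : MerH), compSLMer_T_mem_merInfField m⟩ = wInfM N m := by
  obtain ⟨a, b, ha, hb, hb0, hm⟩ := exists_eq_div_of_mem_merInfField m
  have h1 : compSLMer ModularGroup.T (m : MerH) =
      algebraMap HolH MerH (compSL ModularGroup.T a) /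
        algebraMap HolH MerH (compSL ModularGroup.T b) := by
    rw [hm, map_div₀, compSLMer_algebraMap, compSLMer_algebraMap]
  have h2 : (⟨compSLMer ModularGroup.T (m : MerH), compSLMer_T_mem_merInfField m⟩ :
      merInfField N) = ⟨algebraMap HolH MerH (compSL ModularGroup.T a) /
        algebraMap HolH MerH (compSL ModularGroup.T b), h1 ▸ compSLMer_T_mem_merInfField m⟩ :=
    Subtype.ext h1
  have h3 : m = ⟨algebraMap HolH MerH a / algebraMap HolH MerH b, hm ▸ m.2⟩ := Subtype.ext hm
  rw [h2, wInfM_div (compSL_T_mem_merInfH ha) (compSL_T_mem_merInfH hb)]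
  conv_rhs => rw [h3, wInfM_div ha hb]
  rw [laurent_valuation_eq_of_coeff_eq (zetaOf_ne_zero 1 N) (expandFun_compSL_T_coeff ha),
    laurent_valuation_eq_of_coeff_eq (zetaOf_ne_zero 1 N) (expandFun_compSL_T_coeff hb)]

end Fermat.Agent.X0
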