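import Mathlib
import Fermat.Agent.X0.Ana.JHol
import Fermat.Agent.X0.Mod.ValInfty
import Fermat.Agent.X0.FF.Main

/-!
# Monodromy glue (generic in the base field)

`K` is a field with an embedding `ι : K → ℂ` and an algebra structure on `MerH` compatible with it
(`hK`); this covers `K = AlgebraicClosure ℚ` (with `iota`) and `K = ℂ` (with `ι = id`).
`L` is a subfield of `MerH` (as an `IntermediateField K MerH`) stable under all `compSLMer γ` and
containing `xM = j`.

* `autL γ : L ≃ₐ[K] L`: the automorphism induced by `γ ∈ SL(2, ℤ)` (an anti-homomorphism);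
* `wAt τ₀`, `wInfL`: the valuations `ord_{τ₀}` and `ord_{i∞}` restricted to `L`;
* `card_zpowers_autL`: the order of `autL γ` is the order of the permutation induced on a family of
  generators;
* `finsum_ramIdx_sub_one`, `genus_eq_of_monodromy`: the hypotheses of FF-main are satisfied with
  `D = ⟨S⟩, ⟨S T⟩, ⟨T⟩` over `1728, 0, ∞`.
-/

set_option autoImplicit false
set_option linter.unusedSectionVars false

universe u

namespace Fermat.Agent.X0.Monodromy

open Fermat.Agent.X0 UpperHalfPlane WithZero AlgebraicCurve IntermediateField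
open scoped MatrixGroups

section Aut

variable {K : Type*} [Field K] [Algebra K MerH] (ι : K →+* ℂ)
  (hK : ∀ a : K, algebraMap K MerH a = algebraMap ℂ MerH (ι a))

include hK in
theorem compSLMer_algebraMap (γ : SL(2, ℤ)) (a : K) :
    compSLMer γ (algebraMap K MerH a) = algebraMap K MerH a := by
  rw [hK, AlgEquiv.commutes]

/-- `compSLMer γ` as a `K`-algebra automorphism of `MerH`. -/
noncomputable def compSLMerK (γ : SL(2, ℤ)) : MerH ≃ₐ[K] MerH :=
  { compSLMer γ with commutes' := compSLMer_algebraMap ι hK γ }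

@[simp]
theorem compSLMerK_apply (γ : SL(2, ℤ)) (y : MerH) : compSLMerK ι hK γ y = compSLMer γ y := rfl

variable (L : IntermediateField K MerH)
  (hstab : ∀ (γ : SL(2, ℤ)) (y : MerH), y ∈ L → compSLMer γ y ∈ L)

/-- The restriction of `compSLMer γ` to a stable subfield, as an algebra homomorphism. -/
noncomputable def resHom (γ : SL(2, ℤ)) : L →ₐ[K] L :=
  (((compSLMerK ι hK γ).toAlgHom).comp L.val).codRestrict L.toSubalgebra
    (fun y => hstab γ y y.2)

@[simp]
theorem coe_resHom (γ : SL(2, ℤ)) (y : L) :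
    ((resHom ι hK L hstab γ y : L) : MerH) = compSLMer γ y :=
  rfl

theorem compSLMer_inv_apply (γ : SL(2, ℤ)) (y : MerH) : compSLMer γ⁻¹ (compSLMer γ y) = y := by
  have h := compSLMer_mul γ γ⁻¹
  rw [mul_inv_cancel, compSLMer_one] at h
  exact (DFunLike.congr_fun h y).symm

theorem compSLMer_apply_inv (γ : SL(2, ℤ)) (y : MerH) : compSLMer γ (compSLMer γ⁻¹ y) = y := by
  have h := compSLMer_inv_apply γ⁻¹ y
  rwa [inv_inv] at h

/-- The automorphism of a stable subfield `L` induced by `γ`. -/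
noncomputable def autL (γ : SL(2, ℤ)) : L ≃ₐ[K] L :=
  AlgEquiv.ofAlgHom (resHom ι hK L hstab γ) (resHom ι hK L hstab γ⁻¹)
    (by
      ext y
      simp only [AlgHom.coe_comp, Function.comp_apply, coe_resHom, AlgHom.coe_id, id_eq]
      exact compSLMer_apply_inv γ y)
    (by
      ext y
      simp only [AlgHom.coe_comp, Function.comp_apply, coe_resHom, AlgHom.coe_id, id_eq]
      exact compSLMer_inv_apply γ y)

@[simp]
theorem coe_autL (γ : SL(2, ℤ)) (y : L) :
    ((autL ι hK L hstab γ y : L) : MerH) = compSLMer γ y := rfl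

theorem autL_one : autL ι hK L hstab 1 = 1 := by
  ext y
  rw [coe_autL, compSLMer_one]
  rfl

theorem autL_mul (γ δ : SL(2, ℤ)) :
    autL ι hK L hstab (γ * δ) = autL ι hK L hstab δ * autL ι hK L hstab γ := by
  ext y
  rw [coe_autL, compSLMer_mul]
  rfl

theorem autL_neg (γ : SL(2, ℤ)) : autL ι hK L hstab (-γ) = autL ι hK L hstab γ := by
  ext y
  rw [coe_autL, coe_autL, compSLMer_neg]

theorem autL_pow (γ : SL(2, ℤ)) (k : ℕ) :
    autL ι hK L hstab (γ ^ k) = autL ι hK L hstab γ ^ k := by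
  induction k with
  | zero => rw [pow_zero, pow_zero, autL_one]
  | succ k ih => rw [pow_succ, autL_mul, ih, pow_succ']

theorem autL_S_sq : autL ι hK L hstab ModularGroup.S ^ 2 = 1 := by
  rw [← autL_pow, pow_two, modularS_mul_S, autL_neg, autL_one]

theorem autL_ST_cube : autL ι hK L hstab (ModularGroup.S * ModularGroup.T) ^ 3 = 1 := by
  rw [← autL_pow, pow_succ, pow_two, modularST_cube, autL_neg, autL_one]

/-- `autL γ` fixes `xM`. -/
theorem autL_xM (hx : xM ∈ L) (γ : SL(2, ℤ)) :
    autL ι hK L hstab γ ⟨xM, hx⟩ = ⟨xM, hx⟩ := by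
  apply Subtype.ext
  rw [coe_autL]
  exact compSLMer_xM γ

end Aut

section Val

variable {K : Type*} [Field K] [Algebra K MerH] (ι : K →+* ℂ)
  (hK : ∀ a : K, algebraMap K MerH a = algebraMap ℂ MerH (ι a))
variable (L : IntermediateField K MerH)
  (hstab : ∀ (γ : SL(2, ℤ)) (y : MerH), y ∈ L → compSLMer γ y ∈ L)

/-- The valuation `ord_{τ₀}` restricted to `L`. -/
noncomputable def wAt (τ₀ : ℍ) : Valuation L ℤᵐ⁰ := (ordAt τ₀).comap (algebraMap L MerH)

theorem wAt_apply (τ₀ : ℍ) (y : L) : wAt L τ₀ y = ordAt τ₀ (y : MerH) := rfl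

theorem ordAt_const_le_one (τ₀ : ℍ) (c : ℂ) : ordAt τ₀ (algebraMap ℂ MerH c) ≤ 1 := by
  rcases eq_or_ne c 0 with rfl | hc
  · rw [map_zero, map_zero]
    exact zero_le_one
  · exact (ordAt_const τ₀ c hc).le

include hK in
theorem wAt_algebraMap_le_one (τ₀ : ℍ) (a : K) : wAt L τ₀ (algebraMap K L a) ≤ 1 := by
  rw [wAt_apply]
  change ordAt τ₀ (algebraMap K MerH a) ≤ 1
  rw [hK]
  exact ordAt_const_le_one τ₀ _

theorem wAt_autL (τ₀ : ℍ) (γ : SL(2, ℤ)) (y : L) :
    wAt L τ₀ (autL ι hK L hstab γ y) = wAt L (γ • τ₀) y := by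
  rw [wAt_apply, wAt_apply, coe_autL, ordAt_compSLMer]

theorem wAt_autL_of_smul_eq (τ₀ : ℍ) (γ : SL(2, ℤ)) (hγ : γ • τ₀ = τ₀) (y : L) :
    wAt L τ₀ (autL ι hK L hstab γ y) = wAt L τ₀ y := by
  rw [wAt_autL, hγ]

include hK in
/-- The value of `wAt τ₀` at `x - c`. -/
theorem wAt_xM_sub (hx : xM ∈ L) (τ₀ : ℍ) (c : K) :
    wAt L τ₀ ((⟨xM, hx⟩ : L) - algebraMap K L c) = ordAt τ₀ (xM - algebraMap ℂ MerH (ι c)) := by
  rw [wAt_apply]
  change ordAt τ₀ (xM - algebraMap K MerH c) = _
  rw [hK]

/-- A valuation invariant under `σ` is invariant under the group generated by `σ`. -/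
theorem valuation_zpowers_invariant {L' : Type*} [Field L'] {K' : Type*} [Field K'] [Algebra K' L']
    (w : Valuation L' ℤᵐ⁰) (σ : L' ≃ₐ[K'] L') (hσ : ∀ y, w (σ y) = w y) :
    ∀ τ ∈ Subgroup.zpowers σ, ∀ y, w (τ y) = w y := by
  have hinv : ∀ y, w (σ⁻¹ y) = w y := by
    intro y
    have := hσ (σ⁻¹ y)
    rw [← this]
    congr 1
    exact (σ.apply_symm_apply y)
  have key : ∀ (k : ℤ) (y : L'), w ((σ ^ k) y) = w y := by
    intro k
    induction k using Int.induction_on with
    | zero => intro y; rfl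
    | succ k ih =>
      intro y
      rw [zpow_add_one]
      change w ((σ ^ (k : ℤ)) (σ y)) = w y
      rw [ih, hσ]
    | pred k ih =>
      intro y
      rw [zpow_sub_one]
      change w ((σ ^ (-(k : ℤ))) (σ⁻¹ y)) = w y
      rw [ih, hinv]
  intro τ hτ
  obtain ⟨k, rfl⟩ := Subgroup.mem_zpowers_iff.mp hτ
  exact key k

/-- An automorphism fixing `z` generates a group fixing `z`. -/
theorem zpowers_fix {L' : Type*} [Field L'] {K' : Type*} [Field K'] [Algebra K' L']
    (σ : L' ≃ₐ[K'] L') (z : L') (hσ : σ z = z) : ∀ τ ∈ Subgroup.zpowers σ, τ z = z := by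
  have hinv : σ⁻¹ z = z := by
    conv_lhs => rw [← hσ]
    exact σ.symm_apply_apply z
  have key : ∀ k : ℤ, (σ ^ k) z = z := by
    intro k
    induction k using Int.induction_on with
    | zero => rfl
    | succ k ih =>
      rw [zpow_add_one]
      change (σ ^ (k : ℤ)) (σ z) = z
      rw [hσ, ih]
    | pred k ih =>
      rw [zpow_sub_one]
      change (σ ^ (-(k : ℤ))) (σ⁻¹ z) = z
      rw [hinv, ih]
  intro τ hτ
  obtain ⟨k, rfl⟩ := Subgroup.mem_zpowers_iff.mp hτ
  exact key k

end Val

section ValInf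

variable {K : Type*} [Field K] [Algebra K MerH] (ι : K →+* ℂ)
  (hK : ∀ a : K, algebraMap K MerH a = algebraMap ℂ MerH (ι a))
variable (L : IntermediateField K MerH)
  (hstab : ∀ (γ : SL(2, ℤ)) (y : MerH), y ∈ L → compSLMer γ y ∈ L)
variable (N : ℕ) [NeZero N] (hLN : ∀ y : MerH, y ∈ L → y ∈ merInfField N)

/-- The inclusion of `L` into the field of functions meromorphic at `i∞`. -/
noncomputable def inclInf : L →+* merInfField N :=
  (algebraMap L MerH).codRestrict (merInfField N) (fun y => hLN y y.2)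

@[simp]
theorem coe_inclInf (y : L) : ((inclInf L N hLN y : merInfField N) : MerH) = y := rfl

/-- The valuation at `i∞` restricted to `L`. -/
noncomputable def wInfL : Valuation L ℤᵐ⁰ := (wInfM N).comap (inclInf L N hLN)

theorem wInfL_apply (y : L) : wInfL L N hLN y = wInfM N (inclInf L N hLN y) := rfl

include hK in
theorem wInfL_algebraMap_le_one (a : K) : wInfL L N hLN (algebraMap K L a) ≤ 1 := by
  rw [wInfL_apply]
  have h : inclInf L N hLN (algebraMap K L a) = algebraMap ℂ (merInfField N) (ι a) := by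
    apply Subtype.ext
    rw [coe_inclInf]
    change algebraMap K MerH a = algebraMap ℂ MerH (ι a)
    exact hK a
  rw [h]
  exact wInfM_algebraMap_const_le (ι a)

theorem wInfL_autL_T (y : L) :
    wInfL L N hLN (autL ι hK L hstab ModularGroup.T y) = wInfL L N hLN y := by
  rw [wInfL_apply, wInfL_apply]
  have h : inclInf L N hLN (autL ι hK L hstab ModularGroup.T y) =
      ⟨compSLMer ModularGroup.T ((inclInf L N hLN y : merInfField N) : MerH),
        compSLMer_T_mem_merInfField _⟩ := by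
    apply Subtype.ext
    rw [coe_inclInf, coe_autL]
    rfl
  rw [h, wInfM_compSLMer_T]

theorem wInfL_xM_inv (hx : xM ∈ L) :
    wInfL L N hLN (⟨xM, hx⟩ : L)⁻¹ = exp (-(N : ℤ)) := by
  rw [wInfL_apply, map_inv₀]
  have h : inclInf L N hLN (⟨xM, hx⟩ : L) = ⟨xM, xM_mem_merInfField⟩ := Subtype.ext rfl
  rw [h]
  exact wInfM_xM_inv

end ValInf

section Orders

variable {K : Type*} [Field K] [Algebra K MerH] (ι : K →+* ℂ)
  (hK : ∀ a : K, algebraMap K MerH a = algebraMap ℂ MerH (ι a))
variable (L : IntermediateField K MerH)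
  (hstab : ∀ (γ : SL(2, ℤ)) (y : MerH), y ∈ L → compSLMer γ y ∈ L)
variable {A : Type*} (act : SL(2, ℤ) → Equiv.Perm A) (r : A → L)
  (hr : ∀ γ α, autL ι hK L hstab γ (r α) = r (act γ α))
  (hinj : Function.Injective r) (hx : xM ∈ L)
  (hgen : L = IntermediateField.adjoin K ({xM} ∪ Set.range (fun α => (r α : MerH))))

include hr in
theorem autL_pow_apply (γ : SL(2, ℤ)) (k : ℕ) (α : A) :
    (autL ι hK L hstab γ ^ k) (r α) = r ((act γ ^ k) α) := by
  induction k generalizing α with
  | zero => rfl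
  | succ k ih =>
    rw [pow_succ, pow_succ]
    change (autL ι hK L hstab γ ^ k) (autL ι hK L hstab γ (r α)) = r ((act γ ^ k) (act γ α))
    rw [hr, ih]

theorem autL_pow_xM (γ : SL(2, ℤ)) (k : ℕ) :
    (autL ι hK L hstab γ ^ k) ⟨xM, hx⟩ = ⟨xM, hx⟩ := by
  induction k with
  | zero => rfl
  | succ k ih =>
    rw [pow_succ]
    change (autL ι hK L hstab γ ^ k) (autL ι hK L hstab γ ⟨xM, hx⟩) = _
    rw [autL_xM, ih]

include hr hinj hgen hx in
theorem autL_pow_eq_one_iff (γ : SL(2, ℤ)) (k : ℕ) :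
    autL ι hK L hstab γ ^ k = 1 ↔ act γ ^ k = 1 := by
  constructor
  · intro h
    ext α
    apply hinj
    rw [← autL_pow_apply ι hK L hstab act r hr, h]
    rfl
  · intro h
    have key : (autL ι hK L hstab γ ^ k : L ≃ₐ[K] L).toAlgHom = AlgHom.id K L := by
      refine IntermediateField.algHom_ext_of_eq_adjoin K hgen ?_
      intro y hy
      rcases hy with hy | ⟨α, rfl⟩
      · rw [Set.mem_singleton_iff] at hy
        subst hy
        exact autL_pow_xM ι hK L hstab hx γ k
      · change (autL ι hK L hstab γ ^ k) (r α) = r α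
        rw [autL_pow_apply ι hK L hstab act r hr, h]
        rfl
    ext y
    exact congrArg Subtype.val (DFunLike.congr_fun key y)

include hr hinj hgen hx in
theorem orderOf_autL (γ : SL(2, ℤ)) : orderOf (autL ι hK L hstab γ) = orderOf (act γ) :=
  orderOf_eq_orderOf_iff.mpr (autL_pow_eq_one_iff ι hK L hstab act r hr hinj hx hgen γ)

include hr hinj hgen hx in
theorem card_zpowers_autL (γ : SL(2, ℤ)) :
    Nat.card (Subgroup.zpowers (autL ι hK L hstab γ)) = orderOf (act γ) := by
  rw [Nat.card_zpowers, orderOf_autL ι hK L hstab act r hr hinj hx hgen]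

end Orders

section Package

variable {K : Type u} [Field K] [IsAlgClosed K] [CharZero K] [Algebra K MerH] (ι : K →+* ℂ)
  (hK : ∀ a : K, algebraMap K MerH a = algebraMap ℂ MerH (ι a))
variable (L : IntermediateField K MerH)
  (hstab : ∀ (γ : SL(2, ℤ)) (y : MerH), y ∈ L → compSLMer γ y ∈ L)
variable (hx : xM ∈ L)

/-- A point of `ℍ` over `c`. -/
noncomputable def tauOf (c : K) : ℍ := (jFun_surjective (ι c)).choose

theorem jFun_tauOf (c : K) : jFun (tauOf ι c) = ι c := (jFun_surjective (ι c)).choose_spec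

open Classical in
/-- The valuation of `L` over the centre `c`. -/
noncomputable def wCentre (c : K) : Valuation L ℤᵐ⁰ :=
  if c = 1728 then wAt L UpperHalfPlane.I else if c = 0 then wAt L rho else wAt L (tauOf ι c)

open Classical in
/-- The decomposition group over the centre `c`. -/
noncomputable def dCentre (c : K) : Subgroup (L ≃ₐ[K] L) :=
  if c = 1728 then Subgroup.zpowers (autL ι hK L hstab ModularGroup.S)
  else if c = 0 then Subgroup.zpowers (autL ι hK L hstab (ModularGroup.S * ModularGroup.T))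
  else ⊥

include hK in
theorem wCentre_algebraMap_le_one (c a : K) : wCentre ι L c (algebraMap K L a) ≤ 1 := by
  unfold wCentre
  split_ifs <;> exact wAt_algebraMap_le_one ι hK L _ a

theorem dCentre_fix (c : K) : ∀ σ ∈ dCentre ι hK L hstab c, σ ⟨xM, hx⟩ = ⟨xM, hx⟩ := by
  unfold dCentre
  split_ifs
  · exact zpowers_fix _ _ (autL_xM ι hK L hstab hx _)
  · exact zpowers_fix _ _ (autL_xM ι hK L hstab hx _)
  · intro σ hσ
    rw [Subgroup.mem_bot] at hσ
    rw [hσ]
    rfl

theorem wCentre_invariant (c : K) :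
    ∀ σ ∈ dCentre ι hK L hstab c, ∀ y : L, wCentre ι L c (σ y) = wCentre ι L c y := by
  unfold dCentre wCentre
  split_ifs
  · exact valuation_zpowers_invariant _ _
      (wAt_autL_of_smul_eq ι hK L hstab _ _ S_smul_I)
  · exact valuation_zpowers_invariant _ _
      (wAt_autL_of_smul_eq ι hK L hstab _ _ ST_smul_rho)
  · intro σ hσ y
    rw [Subgroup.mem_bot] at hσ
    rw [hσ]
    rfl

include hK in
theorem wCentre_xM_sub (c : K)
    (hS2 : Nat.card (Subgroup.zpowers (autL ι hK L hstab ModularGroup.S)) = 2)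
    (hST3 : Nat.card (Subgroup.zpowers (autL ι hK L hstab (ModularGroup.S * ModularGroup.T))) = 3) :
    wCentre ι L c ((⟨xM, hx⟩ : L) - algebraMap K L c) =
      exp (-(Nat.card (dCentre ι hK L hstab c) : ℤ)) := by
  have hinj : Function.Injective ι := ι.injective
  unfold dCentre wCentre
  split_ifs with h1 h2
  · subst h1
    rw [wAt_xM_sub ι hK L hx, hS2, map_ofNat]
    exact ordAt_I_xM_sub_1728
  · subst h2
    rw [wAt_xM_sub ι hK L hx, hST3, map_zero, map_zero, sub_zero]
    exact ordAt_rho_xM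
  · rw [wAt_xM_sub ι hK L hx, Subgroup.card_bot, ← jFun_tauOf ι c]
    refine ordAt_xM_sub_of_ne _ ?_ ?_
    · rw [jFun_tauOf]
      intro h0
      exact h2 (hinj (h0.trans (map_zero ι).symm))
    · rw [jFun_tauOf]
      intro h0
      exact h1 (hinj (h0.trans (map_ofNat ι 1728).symm))

end Package

section Package2

variable {K : Type u} [Field K] [IsAlgClosed K] [CharZero K] [Algebra K MerH] (ι : K →+* ℂ)
  (hK : ∀ a : K, algebraMap K MerH a = algebraMap ℂ MerH (ι a))
variable (L : IntermediateField K MerH)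
  (hstab : ∀ (γ : SL(2, ℤ)) (y : MerH), y ∈ L → compSLMer γ y ∈ L)
variable (hx : xM ∈ L)
variable (N : ℕ) [NeZero N] (hLN : ∀ y : MerH, y ∈ L → y ∈ merInfField N)
variable {F : Type*} [Field F] [Algebra K F]

include hLN in
/-- **Monodromy package**: the total ramification of `x` in terms of the numbers of orbits of
`⟨S⟩`, `⟨S T⟩`, `⟨T⟩` on the embeddings `F → L` over `K(x)`. -/
theorem finsum_ramIdx_sub_one {x : F} (h : IsFFGen K x) (φ : F →ₐ[K] L)
    (hφ : φ x = ⟨xM, hx⟩) [FiniteDimensional K⟮φ x⟯ L] [IsGalois K⟮φ x⟯ L]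
    (hS2 : Nat.card (Subgroup.zpowers (autL ι hK L hstab ModularGroup.S)) = 2)
    (hST3 : Nat.card (Subgroup.zpowers (autL ι hK L hstab (ModularGroup.S * ModularGroup.T))) = 3)
    (hTN : Nat.card (Subgroup.zpowers (autL ι hK L hstab ModularGroup.T)) = N) :
    ∑ᶠ v : Place K F, (ramIdx x v - 1) =
      ((Module.finrank K⟮x⟯ F : ℤ) - Nat.card (Quotient (orbitSetoidK K x (φ x)
          (Subgroup.zpowers (autL ι hK L hstab ModularGroup.T))))) +
      (((Module.finrank K⟮x⟯ F : ℤ) - Nat.card (Quotient (orbitSetoidK K x (φ x)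
          (Subgroup.zpowers (autL ι hK L hstab ModularGroup.S))))) +
       ((Module.finrank K⟮x⟯ F : ℤ) - Nat.card (Quotient (orbitSetoidK K x (φ x)
          (Subgroup.zpowers (autL ι hK L hstab (ModularGroup.S * ModularGroup.T))))))) := by
  classical
  have h1728 : (1728 : K) ≠ 0 := by norm_num
  have key := finsum_ramIdx_sub_one_of_orbit_data K h φ (wCentre ι L) (dCentre ι hK L hstab)
    (wCentre_algebraMap_le_one ι hK L)
    (fun c σ hσ => by rw [hφ]; exact dCentre_fix ι hK L hstab hx c σ hσ)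
    (wCentre_invariant ι hK L hstab)
    (fun c => by rw [hφ]; exact wCentre_xM_sub ι hK L hstab hx c hS2 hST3)
    (wInfL L N hLN) (Subgroup.zpowers (autL ι hK L hstab ModularGroup.T))
    (wInfL_algebraMap_le_one ι hK L N hLN)
    (fun σ hσ => by rw [hφ]; exact zpowers_fix _ _ (autL_xM ι hK L hstab hx _) σ hσ)
    (valuation_zpowers_invariant _ _ (wInfL_autL_T ι hK L hstab N hLN))
    (by rw [hφ, hTN]; exact wInfL_xM_inv L N hLN hx)
    {1728, 0}
    (fun c hc => by
      rw [Finset.mem_insert, Finset.mem_singleton, not_or] at hc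
      unfold dCentre
      rw [if_neg hc.1, if_neg hc.2])
  rw [key, Finset.sum_pair h1728]
  have hD1 : dCentre ι hK L hstab 1728 = Subgroup.zpowers (autL ι hK L hstab ModularGroup.S) := by
    unfold dCentre
    rw [if_pos rfl]
  have hD0 : dCentre ι hK L hstab 0 =
      Subgroup.zpowers (autL ι hK L hstab (ModularGroup.S * ModularGroup.T)) := by
    unfold dCentre
    rw [if_neg h1728.symm, if_pos rfl]
  rw [hD1, hD0]

end Package2

section Package3

variable {K : Type u} [Field K] [IsAlgClosed K] [CharZero K] [Algebra K MerH] (ι : K →+* ℂ)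
  (hK : ∀ a : K, algebraMap K MerH a = algebraMap ℂ MerH (ι a))
variable (L : IntermediateField K MerH)
  (hstab : ∀ (γ : SL(2, ℤ)) (y : MerH), y ∈ L → compSLMer γ y ∈ L)
variable (hx : xM ∈ L)
variable (N : ℕ) [NeZero N] (hLN : ∀ y : MerH, y ∈ L → y ∈ merInfField N)
variable {F : Type*} [Field F] [Algebra K F]

include hLN in
/-- **Monodromy package, genus form.** -/
theorem genus_eq_of_monodromy {x : F} (h : IsFFGen K x)
    [HasCanonicalDivisor (K := K) (F := F)] [HasPrincipalDivisors K F] (φ : F →ₐ[K] L)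
    (hφ : φ x = ⟨xM, hx⟩) [FiniteDimensional K⟮φ x⟯ L] [IsGalois K⟮φ x⟯ L]
    (hS2 : Nat.card (Subgroup.zpowers (autL ι hK L hstab ModularGroup.S)) = 2)
    (hST3 : Nat.card (Subgroup.zpowers (autL ι hK L hstab (ModularGroup.S * ModularGroup.T))) = 3)
    (hTN : Nat.card (Subgroup.zpowers (autL ι hK L hstab ModularGroup.T)) = N) :
    genus K F =
      (((Module.finrank K⟮x⟯ F : ℤ) - Nat.card (Quotient (orbitSetoidK K x (φ x)
          (Subgroup.zpowers (autL ι hK L hstab ModularGroup.T))))) +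
      (((Module.finrank K⟮x⟯ F : ℤ) - Nat.card (Quotient (orbitSetoidK K x (φ x)
          (Subgroup.zpowers (autL ι hK L hstab ModularGroup.S))))) +
       ((Module.finrank K⟮x⟯ F : ℤ) - Nat.card (Quotient (orbitSetoidK K x (φ x)
          (Subgroup.zpowers (autL ι hK L hstab (ModularGroup.S * ModularGroup.T))))))) + 2 -
        2 * (Module.finrank K⟮x⟯ F : ℤ)).toNat / 2 := by
  rw [Fermat.Agent.X0.genus_eq h.placeInputs h.transcendental (ramIdx x)
    (fun v hv => ramIdx_of_pole hv) (fun v c hv => ramIdx_of_centre hv), h.finsum_max_neg_ord,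
    finsum_ramIdx_sub_one ι hK L hstab hx N hLN h φ hφ hS2 hST3 hTN]

end Package3

end Fermat.Agent.X0.Monodromy
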