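import Mathlib
import Fermat.Agent.X0.Mod.Monodromy
import Fermat.Agent.X0.Mod.GenusArith

/-!
# Monodromy count: the total ramification of `j` on `X₀(N)` is `2 g(N) - 2 + 2 ψ(N)`

Generic in the base field `K` (as `Mod/Monodromy.lean`).  Inputs: a stable subfield `L ⊆ MerH`
generated by `xM = j` and a family `r : CosetRep N → L` permuted by the automorphisms `autL γ`
according to `actPerm γ`, a function field `F` with generator `x`, an embedding `φ : F → L` with
`φ x = j`, the degree `[F : K(x)] = ψ(N)` and the transport of orbit counts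
(embeddings `F → L` over `K(x)` modulo `⟨autL γ⟩` ↔ cycles of `actPerm γ`).

Output: `finsum_ramIdx_eq_genusFormula`:
`((∑ᶠ v, (ramIdx x v - 1)) + 2 - 2 [F : K(x)]).toNat / 2 = genusFormula N`.
-/

set_option autoImplicit false
set_option linter.unusedSectionVars false

universe u

namespace Fermat.Agent.X0.MonodromyCount

open Fermat.Agent.X0 Fermat.Agent.X0.Monodromy UpperHalfPlane AlgebraicCurve IntermediateField
open scoped MatrixGroups

section Count

variable {K : Type u} [Field K] [IsAlgClosed K] [CharZero K] [Algebra K MerH] (ι : K →+* ℂ)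
  (hK : ∀ a : K, algebraMap K MerH a = algebraMap ℂ MerH (ι a))
variable (L : IntermediateField K MerH)
  (hstab : ∀ (γ : SL(2, ℤ)) (y : MerH), y ∈ L → compSLMer γ y ∈ L)
variable (hx : xM ∈ L)
variable (N : ℕ) [NeZero N] (hLN : ∀ y : MerH, y ∈ L → y ∈ merInfField N)
variable {F : Type*} [Field F] [Algebra K F]
variable (r : CosetRep N → L)
  (hr : ∀ γ α, autL ι hK L hstab γ (r α) = r (CosetRep.actPerm γ α))
  (hinj : Function.Injective r)
  (hgenL : L = IntermediateField.adjoin K ({xM} ∪ Set.range (fun α => (r α : MerH))))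

include hLN hr hinj hgenL in
/-- The total ramification of `x` in terms of the cycle counts of `T`, `S`, `S T` on `A_N`. -/
theorem finsum_ramIdx_sub_one_eq_sameCycle (hN : 1 < N) {x : F} (h : IsFFGen K x)
    (φ : F →ₐ[K] L) (hφ : φ x = ⟨xM, hx⟩) [FiniteDimensional K⟮φ x⟯ L] [IsGalois K⟮φ x⟯ L]
    (hn : Module.finrank K⟮x⟯ F = ModularCurve.dedekindPsi N)
    (hcount : ∀ γ : SL(2, ℤ),
      Nat.card (Quotient (orbitSetoidK K x (φ x) (Subgroup.zpowers (autL ι hK L hstab γ)))) =
        Nat.card (Quotient (Equiv.Perm.SameCycle.setoid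
          (CosetRep.actPerm γ : Equiv.Perm (CosetRep N))))) :
    ∑ᶠ v : Place K F, (ramIdx x v - 1) =
      ((ModularCurve.dedekindPsi N : ℤ) - Nat.card (Quotient (Equiv.Perm.SameCycle.setoid
          (CosetRep.actPerm ModularGroup.T : Equiv.Perm (CosetRep N))))) +
      (((ModularCurve.dedekindPsi N : ℤ) - Nat.card (Quotient (Equiv.Perm.SameCycle.setoid
          (CosetRep.actPerm ModularGroup.S : Equiv.Perm (CosetRep N))))) +
       ((ModularCurve.dedekindPsi N : ℤ) - Nat.card (Quotient (Equiv.Perm.SameCycle.setoid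
          (CosetRep.actPerm (ModularGroup.S * ModularGroup.T) : Equiv.Perm (CosetRep N)))))) := by
  have hS2 : Nat.card (Subgroup.zpowers (autL ι hK L hstab ModularGroup.S)) = 2 := by
    rw [card_zpowers_autL ι hK L hstab CosetRep.actPerm r hr hinj hx hgenL]
    exact CosetRep.orderOf_actPerm_S hN
  have hST3 : Nat.card (Subgroup.zpowers
      (autL ι hK L hstab (ModularGroup.S * ModularGroup.T))) = 3 := by
    rw [card_zpowers_autL ι hK L hstab CosetRep.actPerm r hr hinj hx hgenL]
    exact CosetRep.orderOf_actPerm_ST hN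
  have hTN : Nat.card (Subgroup.zpowers (autL ι hK L hstab ModularGroup.T)) = N := by
    rw [card_zpowers_autL ι hK L hstab CosetRep.actPerm r hr hinj hx hgenL]
    exact CosetRep.orderOf_actPerm_T
  rw [finsum_ramIdx_sub_one ι hK L hstab hx N hLN h φ hφ hS2 hST3 hTN, hn, hcount, hcount, hcount]

include hLN hr hinj hgenL in
/-- **The number**: `((∑ (e_v - 1)) + 2 - 2n) / 2 = g(N)`. -/
theorem finsum_ramIdx_eq_genusFormula (hN : 1 < N) {x : F} (h : IsFFGen K x)
    (φ : F →ₐ[K] L) (hφ : φ x = ⟨xM, hx⟩) [FiniteDimensional K⟮φ x⟯ L] [IsGalois K⟮φ x⟯ L]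
    (hn : Module.finrank K⟮x⟯ F = ModularCurve.dedekindPsi N)
    (hcount : ∀ γ : SL(2, ℤ),
      Nat.card (Quotient (orbitSetoidK K x (φ x) (Subgroup.zpowers (autL ι hK L hstab γ)))) =
        Nat.card (Quotient (Equiv.Perm.SameCycle.setoid
          (CosetRep.actPerm γ : Equiv.Perm (CosetRep N))))) :
    (((((∑ᶠ v : Place K F, (ramIdx x v - 1)) + 2 - 2 * (Module.finrank K⟮x⟯ F : ℤ)).toNat / 2 : ℕ))
      : ℚ) = ModularCurve.genusFormula N := by
  rw [finsum_ramIdx_sub_one_eq_sameCycle ι hK L hstab hx N hLN r hr hinj hgenL hN h φ hφ hn hcount,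
    hn, ← CosetRep.genusFormula_eq_sameCycle (N := N)]
  congr 3
  ring

include hr in
/-- Transitivity: every root `r α` is the image of `r (base N)` under some `autL γ`. -/
theorem exists_aut_base_eq (α : CosetRep N) :
    ∃ σ : L ≃ₐ[K] L, σ ⟨xM, hx⟩ = ⟨xM, hx⟩ ∧ σ (r (CosetRep.base N)) = r α := by
  obtain ⟨γ, hγ⟩ := CosetRep.exists_act_base_eq α
  exact ⟨autL ι hK L hstab γ, autL_xM ι hK L hstab hx γ, by rw [hr, CosetRep.actPerm_apply, hγ]⟩

end Count

end Fermat.Agent.X0.MonodromyCount
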