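import Mathlib
import Fermat.Agent.X0.Mod.MonodromyCount
import Fermat.Agent.X0.Mod.EmbCount

/-!
# Monodromy count, main form

Generic in the base field `K` (as `Mod/Monodromy.lean`).  Inputs: a stable subfield `L ⊆ MerH`
generated by `xM = j` and a family `r : CosetRep N → L` permuted by the automorphisms `autL γ`
according to `actPerm γ`; a field `F = K(xF, yF)` with an embedding `φ : F → L`, `φ xF = j`,
`φ yF = r (base N)`, such that the coefficients of `∏ (X - r α)` are polynomials in `j`.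

Outputs: `isFFGen`, `finrank_eq_dedekindPsi`, `card_orbits_eq`, and
`finsum_ramIdx_eq_genusFormula'`:
`((∑ᶠ v, (ramIdx xF v - 1)) + 2 - 2 [F : K(xF)]).toNat / 2 = genusFormula N`.
-/

set_option autoImplicit false
set_option linter.unusedSectionVars false

universe u

namespace Fermat.Agent.X0.MonodromyCount

open Fermat.Agent.X0 Fermat.Agent.X0.Monodromy UpperHalfPlane AlgebraicCurve IntermediateField
  Polynomial
open scoped MatrixGroups

section Main

variable {K : Type u} [Field K] [IsAlgClosed K] [CharZero K] [Algebra K MerH] (ι : K →+* ℂ)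
  (hK : ∀ a : K, algebraMap K MerH a = algebraMap ℂ MerH (ι a))
variable (L : IntermediateField K MerH)
  (hstab : ∀ (γ : SL(2, ℤ)) (y : MerH), y ∈ L → compSLMer γ y ∈ L)
variable (hx : xM ∈ L)
variable (N : ℕ) [NeZero N] (hLN : ∀ y : MerH, y ∈ L → y ∈ merInfField N)
variable {F : Type*} [Field F] [Algebra K F]
variable (r : CosetRep N → L)
  (hr : ∀ γ α, autL ι hK L hstab γ (r α) = r (CosetRep.actPerm γ α))
  (hinj : Function.Injective r)
  (hgenL : L = IntermediateField.adjoin K ({xM} ∪ Set.range (fun α => (r α : MerH))))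
variable (xF yF : F) (hgen : IntermediateField.adjoin K ({xF, yF} : Set F) = ⊤)
  (φ : F →ₐ[K] L) (hφx : φ xF = ⟨xM, hx⟩) (hy : φ yF = r (CosetRep.base N))
  (hcoeff : ∀ k : ℕ, ∃ P : K[X], (∏ α, (X - C (r α)) : L[X]).coeff k = aeval (φ xF) P)

include hr hφx in
/-- `htrans` of `EmbCount`. -/
theorem exists_aut_base_eq' (α : CosetRep N) :
    ∃ σ : L ≃ₐ[K] L, σ (φ xF) = φ xF ∧ σ (r (CosetRep.base N)) = r α := by
  rw [hφx]
  exact exists_aut_base_eq ι hK L hstab hx N r hr α

include hr hinj hgen hφx hy hcoeff in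
theorem finiteDimensional_adjoin : FiniteDimensional K⟮xF⟯ F :=
  (EmbCount.finrank_eq_card xF yF hgen φ r hinj (CosetRep.base N) hy hcoeff
    (exists_aut_base_eq' ι hK L hstab hx N r hr xF φ hφx)).1

include hr hinj hgen hφx hy hcoeff in
/-- `[F : K(xF)] = ψ(N)`. -/
theorem finrank_eq_dedekindPsi : Module.finrank K⟮xF⟯ F = ModularCurve.dedekindPsi N := by
  rw [(EmbCount.finrank_eq_card xF yF hgen φ r hinj (CosetRep.base N) hy hcoeff
    (exists_aut_base_eq' ι hK L hstab hx N r hr xF φ hφx)).2]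
  exact CosetRep.card_rep

include hr hinj hgen hφx hy hcoeff in
/-- `xF` is a function field generator of `F`. -/
theorem isFFGen (htr : Transcendental K xF) : IsFFGen K xF :=
  ⟨htr, finiteDimensional_adjoin ι hK L hstab hx N r hr hinj xF yF hgen φ hφx hy hcoeff⟩

include hr hinj hgen hφx hy hcoeff in
/-- Transport of orbit counts: `⟨autL γ⟩`-orbits on the embeddings ↔ cycles of `actPerm γ`. -/
theorem card_orbits_eq (γ : SL(2, ℤ)) :
    Nat.card (Quotient (orbitSetoidK K xF (φ xF) (Subgroup.zpowers (autL ι hK L hstab γ)))) =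
      Nat.card (Quotient (Equiv.Perm.SameCycle.setoid
        (CosetRep.actPerm γ : Equiv.Perm (CosetRep N)))) :=
  EmbCount.card_orbits_eq_card_cycles xF yF hgen φ r hinj (CosetRep.base N) hy hcoeff
    (exists_aut_base_eq' ι hK L hstab hx N r hr xF φ hφx) (autL ι hK L hstab γ)
    (by rw [hφx]; exact autL_xM ι hK L hstab hx γ) (CosetRep.actPerm γ) (hr γ)

include hLN hr hinj hgenL hgen hφx hy hcoeff in
/-- **The number**, from the concrete inputs. -/
theorem finsum_ramIdx_eq_genusFormula' (hN : 1 < N) (htr : Transcendental K xF)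
    [FiniteDimensional K⟮φ xF⟯ L] [IsGalois K⟮φ xF⟯ L] :
    (((((∑ᶠ v : Place K F, (ramIdx xF v - 1)) + 2 -
      2 * (Module.finrank K⟮xF⟯ F : ℤ)).toNat / 2 : ℕ)) : ℚ) = ModularCurve.genusFormula N :=
  finsum_ramIdx_eq_genusFormula ι hK L hstab hx N hLN r hr hinj hgenL hN
    (isFFGen ι hK L hstab hx N r hr hinj xF yF hgen φ hφx hy hcoeff htr) φ hφx
    (finrank_eq_dedekindPsi ι hK L hstab hx N r hr hinj xF yF hgen φ hφx hy hcoeff)
    (card_orbits_eq ι hK L hstab hx N r hr hinj xF yF hgen φ hφx hy hcoeff)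

end Main

end Fermat.Agent.X0.MonodromyCount
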