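import Mathlib
import Fermat.Agent.X0.Mod.CuspInputs
import Fermat.Agent.X0.Mod.ModularPoly
import Fermat.Agent.X0.Mod.MonodromyCountMain

/-!
# The analytic function field `ℂ(j, j_N)` and its Galois closure over `ℂ(j)`

The `ℂ`-analogue of `Mod/Field.lean`: `LC = ℂ(j, j ∘ α : α ∈ A_N) ⊆ MerH`, stable under
`SL(2, ℤ)`, finite Galois over `ℂ(j)`; `fieldAn N = ℂ(j, j_N) ⊆ LC`.  Feeding
`Mod/MonodromyCountMain.lean` (at `K = ℂ`, `ι = id`) gives:

* `isFFGen_xC : IsFFGen ℂ (xC N)`;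
* `finrank_fieldAn : finrank ℂ⟮xC N⟯ (fieldAn N) = ψ(N)`;
* `ramification_count (hN : 1 < N)`:
  `((∑ᶠ v, (ramIdx (xC N) v - 1)) + 2 - 2 [F : ℂ(x)]).toNat / 2 = genusFormula N`.
-/

set_option autoImplicit false
set_option linter.unusedSectionVars false

noncomputable section

namespace Fermat.Agent.X0.FieldC2

open Fermat.Agent.X0 Fermat.Agent.X0.Monodromy Polynomial IntermediateField UpperHalfPlane
  AlgebraicCurve
open scoped MatrixGroups

variable (N : ℕ) [NeZero N]

/-- The Galois closure `ℂ(j, j ∘ α : α ∈ A_N)` of `ℂ(j, j_N)` over `ℂ(j)`. -/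
def LC : IntermediateField ℂ MerH :=
  IntermediateField.adjoin ℂ ({xM} ∪ Set.range (rM : CosetRep N → MerH))

theorem xM_mem_LC : xM ∈ LC N :=
  IntermediateField.subset_adjoin _ _ (Or.inl rfl)

theorem rM_mem_LC (α : CosetRep N) : rM α ∈ LC N :=
  IntermediateField.subset_adjoin _ _ (Or.inr ⟨α, rfl⟩)

theorem hstab_LC (γ : SL(2, ℤ)) (y : MerH) (hy : y ∈ LC N) : compSLMer γ y ∈ LC N := by
  have h1 : (compSLMer γ : MerH →ₐ[ℂ] MerH) y ∈ (LC N).map (compSLMer γ : MerH →ₐ[ℂ] MerH) :=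
    ⟨y, hy, rfl⟩
  rw [LC, IntermediateField.adjoin_map] at h1
  refine (IntermediateField.adjoin_le_iff.mpr ?_) h1
  rintro z ⟨w, hw | ⟨α, rfl⟩, rfl⟩
  · rw [Set.mem_singleton_iff] at hw
    subst hw
    show compSLMer γ xM ∈ _
    rw [compSLMer_xM]
    exact xM_mem_LC N
  · show compSLMer γ (rM α) ∈ _
    rw [compSLMer_rM]
    exact rM_mem_LC N _

theorem hLN_LC (y : MerH) (hy : y ∈ LC N) : y ∈ merInfField N := by
  have h : LC N ≤ merInfField N := by
    rw [LC, IntermediateField.adjoin_le_iff]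
    rintro z (hz | ⟨α, rfl⟩)
    · rw [Set.mem_singleton_iff] at hz
      subst hz
      exact xM_mem_merInfField
    · exact rM_mem_merInfField α
  exact h hy

/-- `j ∘ α` as an element of `LC`. -/
def rLC (α : CosetRep N) : LC N := ⟨rM α, rM_mem_LC N α⟩

theorem rLC_injective : Function.Injective (rLC N) := fun _ _ h =>
  rM_injective (congrArg Subtype.val h)

/-- The automorphisms of `LC` (from `Mod/Monodromy.lean`, `K = ℂ`, `ι = id`). -/
abbrev autLC (γ : SL(2, ℤ)) : LC N ≃ₐ[ℂ] LC N :=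
  autL (RingHom.id ℂ) (fun _ => rfl) (LC N) (hstab_LC N) γ

theorem autLC_rLC (γ : SL(2, ℤ)) (α : CosetRep N) :
    autLC N γ (rLC N α) = rLC N (CosetRep.actPerm γ α) :=
  Subtype.ext (by rw [coe_autL]; exact compSLMer_rM γ α)

theorem hgen_LC : LC N = IntermediateField.adjoin ℂ
    ({xM} ∪ Set.range (fun α => ((rLC N α : LC N) : MerH))) := rfl

/-! ### The field `ℂ(j, j_N)` -/

theorem fieldAn_le_LC : fieldAn N ≤ LC N := by
  rw [IntermediateField.adjoin_le_iff]
  rintro y (rfl | rfl)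
  · exact xM_mem_LC N
  · exact rM_mem_LC N _

/-- `j` as an element of `ℂ(j, j_N)`. -/
def xC : fieldAn N := ⟨xM, IntermediateField.subset_adjoin _ _ (Or.inl rfl)⟩

/-- `j_N` as an element of `ℂ(j, j_N)`. -/
def yC : fieldAn N := ⟨rM (CosetRep.base N), IntermediateField.subset_adjoin _ _ (Or.inr rfl)⟩

theorem coe_xC : ((xC N : fieldAn N) : MerH) = xM := rfl

theorem adjoin_xC_yC : IntermediateField.adjoin ℂ ({xC N, yC N} : Set (fieldAn N)) = ⊤ := by
  apply IntermediateField.map_injective (fieldAn N).val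
  rw [IntermediateField.adjoin_map, ← AlgHom.fieldRange_eq_map, IntermediateField.fieldRange_val]
  have h : (⇑(fieldAn N).val '' ({xC N, yC N} : Set (fieldAn N))) =
      ({xM, rM (CosetRep.base N)} : Set MerH) := by
    rw [Set.image_pair]
    rfl
  rw [h]

/-- The inclusion `ℂ(j, j_N) → LC`. -/
def phiC : fieldAn N →ₐ[ℂ] LC N := IntermediateField.inclusion (fieldAn_le_LC N)

theorem phiC_xC : phiC N (xC N) = ⟨xM, xM_mem_LC N⟩ := rfl

theorem phiC_yC : phiC N (yC N) = rLC N (CosetRep.base N) := rfl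

theorem transcendental_xC : Transcendental ℂ (xC N) := by
  intro h
  apply transcendental_xM
  have := h.algHom (fieldAn N).val
  exact this

/-! ### The modular polynomial over `ℂ[j]` and the Galois property -/

theorem coeff_modularPoly_MerH (k : ℕ) :
    ∃ P : ℂ[X], (∏ α : CosetRep N, (X - C (rM α)) : MerH[X]).coeff k = aeval xM P := by
  obtain ⟨P₀, hP₀⟩ := exists_map_aeval_jH_eq (N := N) (rootsPoly (jAt : CosetRep N → HolH))
    (rootsPoly_map_compSL CosetRep.actPerm jAt compSL_jAt_actPerm)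
    (rootsPoly_coeff_mem (merInfH N).toSubring jAt
      (fun α => mem_merInfH.mpr (isMerInf_jAt dvd_rfl α)))
  refine ⟨P₀.coeff k, ?_⟩
  have h1 : (∏ α : CosetRep N, (X - C (rM α)) : MerH[X]) =
      (rootsPoly (jAt : CosetRep N → HolH)).map (algebraMap HolH MerH) := by
    rw [rootsPoly_map]; rfl
  rw [h1, ← hP₀, coeff_map, coeff_map]
  show algebraMap HolH MerH (aeval jH (P₀.coeff k)) = aeval xM (P₀.coeff k)
  rw [xM_def, aeval_algebraMap_apply]

theorem coe_prod_rLC :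
    (∏ α : CosetRep N, (X - C (rLC N α)) : (LC N)[X]).map (algebraMap (LC N) MerH) =
      ∏ α : CosetRep N, (X - C (rM α)) := by
  rw [Polynomial.map_prod]
  refine Finset.prod_congr rfl fun α _ => ?_
  rw [Polynomial.map_sub, map_X, map_C]
  rfl

theorem coeff_modularPoly_LC (k : ℕ) :
    ∃ P : ℂ[X], (∏ α : CosetRep N, (X - C (rLC N α)) : (LC N)[X]).coeff k =
      aeval (phiC N (xC N)) P := by
  obtain ⟨P, hP⟩ := coeff_modularPoly_MerH N k
  refine ⟨P, Subtype.ext ?_⟩
  have h1 : (((∏ α : CosetRep N, (X - C (rLC N α)) : (LC N)[X]).coeff k : LC N) : MerH) =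
      ((∏ α : CosetRep N, (X - C (rLC N α)) : (LC N)[X]).map
        (algebraMap (LC N) MerH)).coeff k := by
    rw [coeff_map]; rfl
  rw [h1, coe_prod_rLC, hP, ← IntermediateField.aeval_coe]
  rfl

/-- The base field `ℂ(j)` inside `LC`. -/
abbrev fieldEC : IntermediateField ℂ (LC N) := ℂ⟮phiC N (xC N)⟯

theorem exists_modularPoly_EC :
    ∃ Φ : (fieldEC N)[X], Φ.map (algebraMap (fieldEC N) (LC N)) =
      ∏ α : CosetRep N, (X - C (rLC N α)) := by
  rw [← Polynomial.mem_lifts, Polynomial.lifts_iff_coeff_lifts]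
  intro k
  obtain ⟨P, hP⟩ := coeff_modularPoly_LC N k
  refine ⟨aeval (⟨phiC N (xC N),
    IntermediateField.mem_adjoin_simple_self ℂ (phiC N (xC N))⟩ : fieldEC N) P, ?_⟩
  rw [hP]
  exact (IntermediateField.aeval_coe (fieldEC N) ⟨phiC N (xC N), _⟩ P).symm

theorem adjoin_xLC_rLC :
    IntermediateField.adjoin ℂ ({phiC N (xC N)} ∪ Set.range (rLC N)) = ⊤ := by
  apply IntermediateField.map_injective (LC N).val
  rw [IntermediateField.adjoin_map, ← AlgHom.fieldRange_eq_map, IntermediateField.fieldRange_val]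
  have h : (⇑(LC N).val '' ({phiC N (xC N)} ∪ Set.range (rLC N))) =
      ({xM} ∪ Set.range (rM : CosetRep N → MerH)) := by
    rw [Set.image_union, Set.image_singleton, ← Set.range_comp]
    rfl
  rw [h]
  rfl

theorem adjoin_fieldEC_rLC : IntermediateField.adjoin (fieldEC N) (Set.range (rLC N)) = ⊤ := by
  rw [← IntermediateField.restrictScalars_eq_top_iff (K := ℂ),
    IntermediateField.adjoin_adjoin_left, adjoin_xLC_rLC]

instance isGalois_LC : IsGalois (fieldEC N) (LC N) := by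
  obtain ⟨Φ, hΦ⟩ := exists_modularPoly_EC N
  exact GaloisAbstract.isGalois_of_map_eq_prod (rLC N) Φ (rLC_injective N)
    (adjoin_fieldEC_rLC N) hΦ

instance finiteDimensional_LC : FiniteDimensional (fieldEC N) (LC N) := by
  obtain ⟨Φ, hΦ⟩ := exists_modularPoly_EC N
  exact GaloisAbstract.finiteDimensional_of_map_eq_prod (rLC N) Φ (adjoin_fieldEC_rLC N) hΦ

/-! ### The outputs -/

/-- `j` generates `ℂ(j, j_N)` as a function field. -/
theorem isFFGen_xC : IsFFGen ℂ (xC N) :=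
  MonodromyCount.isFFGen (RingHom.id ℂ) (fun _ => rfl) (LC N) (hstab_LC N) (xM_mem_LC N) N
    (rLC N) (autLC_rLC N) (rLC_injective N) (xC N) (yC N) (adjoin_xC_yC N) (phiC N) (phiC_xC N)
    (phiC_yC N) (coeff_modularPoly_LC N) (transcendental_xC N)

/-- `[ℂ(j, j_N) : ℂ(j)] = ψ(N)`. -/
theorem finrank_fieldAn :
    Module.finrank ℂ⟮xC N⟯ (fieldAn N) = ModularCurve.dedekindPsi N :=
  MonodromyCount.finrank_eq_dedekindPsi (RingHom.id ℂ) (fun _ => rfl) (LC N) (hstab_LC N)
    (xM_mem_LC N) N (rLC N) (autLC_rLC N) (rLC_injective N) (xC N) (yC N) (adjoin_xC_yC N)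
    (phiC N) (phiC_xC N) (phiC_yC N) (coeff_modularPoly_LC N)

/-- **The ramification count of `j` on `X₀(N)`** (`hR` of `S20Core.finrank_cuspForm_eq`). -/
theorem ramification_count (hN : 1 < N) :
    (((((∑ᶠ v : Place ℂ (fieldAn N), (ramIdx (xC N) v - 1)) + 2 -
      2 * (Module.finrank ℂ⟮xC N⟯ (fieldAn N) : ℤ)).toNat / 2 : ℕ)) : ℚ) =
      ModularCurve.genusFormula N :=
  MonodromyCount.finsum_ramIdx_eq_genusFormula' (RingHom.id ℂ) (fun _ => rfl) (LC N)
    (hstab_LC N) (xM_mem_LC N) N (hLN_LC N) (rLC N) (autLC_rLC N) (rLC_injective N) (hgen_LC N)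
    (xC N) (yC N) (adjoin_xC_yC N) (phiC N) (phiC_xC N) (phiC_yC N) (coeff_modularPoly_LC N) hN
    (transcendental_xC N)

end Fermat.Agent.X0.FieldC2
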