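import Fermat.Agent.X0.Mod.Dictionary
import Fermat.Agent.X0.Mod.CuspInputs

/-!
# The S20 dictionary for the field `ℂ(j, j_N)`

Instantiation of `Mod/Dictionary.lean` at `F = fieldAn N` with the cusp inputs of
`Mod/CuspInputs.lean`: the holomorphic differentials of `ℂ(j, j_N)` embed into `S₂(Γ₀(N))`.
-/

set_option autoImplicit false

open UpperHalfPlane ModularForm MatrixGroups Filter Function CongruenceSubgroup AlgebraicCurve
open scoped Real Topology Manifold WithZero

namespace Fermat.Agent.X0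

variable {N : ℕ} [NeZero N]

/-- Every `y ∈ ℂ(j, j_N)` satisfying the order conditions of a holomorphic differential `y dj`
is `f / D j` for a weight two cusp form `f` of level `Γ₀(N)`. -/
theorem exists_cuspForm_yOf_eq_of_mem_fieldAn {x : fieldAn N} (hx : (x : MerH) = xM)
    (h : IsFFGen ℂ x) (y : fieldAn N)
    (hy : ∀ v : Place ℂ (fieldAn N), y = 0 ∨
      (if v.ord x < 0 then ramIdx x v + 1 else -(ramIdx x v - 1)) ≤ v.ord y) :
    ∃ f : CuspForm (Gamma0 N) 2, yOf f = (y : MerH) :=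
  exists_cuspForm_yOf_eq_of_ord_le
    (fun δ y => compSLMer_mem_merInfField_of_mem_fieldAn δ y.2)
    DjH_mem_merInfH wInfM_DjM isZeroAtImInfty_of_wInfM_lt_one
    (fun _ hγ y => compSLMer_eq_self_of_mem_fieldAn hγ y.2) hx h y hy

/-- The space of holomorphic differentials of `ℂ(j, j_N)` embeds into `S₂(Γ₀(N))`. -/
theorem exists_injective_linearMap_fieldAn {x : fieldAn N} (hx : (x : MerH) = xM)
    (h : IsFFGen ℂ x) (V : Submodule ℂ (fieldAn N))
    (hV : ∀ y ∈ V, ∀ v : Place ℂ (fieldAn N), y = 0 ∨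
      (if v.ord x < 0 then ramIdx x v + 1 else -(ramIdx x v - 1)) ≤ v.ord y) :
    ∃ φ : V →ₗ[ℂ] CuspForm (Gamma0 N) 2, Function.Injective φ :=
  exists_injective_linearMap_to_cuspForm
    (fun δ y => compSLMer_mem_merInfField_of_mem_fieldAn δ y.2)
    DjH_mem_merInfH wInfM_DjM isZeroAtImInfty_of_wInfM_lt_one
    (fun _ hγ y => compSLMer_eq_self_of_mem_fieldAn hγ y.2) hx h V hV

/-- The dimension inequality `dim (holomorphic differentials of ℂ(j, j_N)) ≤ dim S₂(Γ₀(N))`. -/
theorem finrank_le_finrank_cuspForm_fieldAn [Module.Finite ℂ (CuspForm (Gamma0 N) 2)]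
    {x : fieldAn N} (hx : (x : MerH) = xM) (h : IsFFGen ℂ x) (V : Submodule ℂ (fieldAn N))
    (hV : ∀ y ∈ V, ∀ v : Place ℂ (fieldAn N), y = 0 ∨
      (if v.ord x < 0 then ramIdx x v + 1 else -(ramIdx x v - 1)) ≤ v.ord y) :
    Module.finrank ℂ V ≤ Module.finrank ℂ (CuspForm (Gamma0 N) 2) :=
  finrank_le_finrank_cuspForm
    (fun δ y => compSLMer_mem_merInfField_of_mem_fieldAn δ y.2)
    DjH_mem_merInfH wInfM_DjM isZeroAtImInfty_of_wInfM_lt_one
    (fun _ hγ y => compSLMer_eq_self_of_mem_fieldAn hγ y.2) hx h V hV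

end Fermat.Agent.X0
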