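import Mathlib
import Fermat.Prelude.Def_ModularCurve_ArithmeticGalois
import Fermat.Prelude.Def_ModularCurve_GenusNumerics
import Fermat.Prelude.Def_AlgebraicCurve_CanonicalDivisor
import Fermat.Agent.X0.FF.PlacesMore
import Fermat.Agent.X0.FF.Principal

/-!
# X0 / Mod: the formal side of the modular function field

* (F1) `FormalSide.transcendental_of_coeff_neg_ne_zero`: a Laurent series with a pole is
  transcendental over the constants; `FormalSide.xF N` (the `j`-invariant) is transcendental;
* (F2) generators of `modularFunctionFieldBar N`;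
* (F3) the case `N = 1`: genus zero.
-/

set_option autoImplicit false
set_option linter.unusedSectionVars false
set_option linter.style.haveILetI false

namespace Fermat.Agent.X0

namespace FormalSide

open AlgebraicCurve IntermediateField ModularCurve WithZero

section Transcendental

variable {K : Type*} [Field K]

/-- An element of valuation `> 1` is transcendental over a subfield of elements of
valuation `≤ 1`. -/
theorem transcendental_of_one_lt_valuation {L Γ : Type*} [Field L] [Algebra K L]
    [LinearOrderedCommGroupWithZero Γ] (v : Valuation L Γ)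
    (hK : ∀ a : K, v (algebraMap K L a) ≤ 1) {f : L} (hf : 1 < v f) : Transcendental K f := by
  intro halg
  letI : Algebra K v.integer :=
    ((algebraMap K L).codRestrict v.integer (fun a => (Valuation.mem_integer_iff _ _).mpr (hK a))).toAlgebra
  haveI : IsScalarTower K v.integer L := IsScalarTower.of_algebraMap_eq (fun _ => rfl)
  have h1 : IsIntegral v.integer f := halg.isIntegral.tower_top
  have h2 := (Valuation.integer.integers v).mem_of_integral h1
  exact absurd ((Valuation.mem_integer_iff _ _).mp h2) (not_le.mpr hf)

/-- A Laurent series with a nonzero coefficient in negative degree is transcendental over the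
field of constants. -/
theorem transcendental_of_coeff_neg_ne_zero (f : LaurentSeries K) {n : ℤ} (hn : n < 0)
    (hf : f.coeff n ≠ 0) : Transcendental K f := by
  refine transcendental_of_one_lt_valuation (Valued.v : Valuation (LaurentSeries K) ℤᵐ⁰) ?_ ?_
  · intro a
    have := (LaurentSeries.valuation_le_iff_coeff_lt_eq_zero K (D := 0)
      (f := algebraMap K (LaurentSeries K) a)).mpr (fun m hm => by
        rw [algebraMap_laurentSeries_eq_single, HahnSeries.coeff_single_of_ne hm.ne])
    simpa using this
  · by_contra hle
    have h1 : Valued.v f ≤ exp (-(0 : ℤ)) := by simpa using not_lt.mp hle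
    exact hf ((LaurentSeries.valuation_le_iff_coeff_lt_eq_zero K).mp h1 n hn)

end Transcendental

section BaseChange

variable (L : Type*) [Field L] [Algebra ℚ L]

theorem coeffEmb_algebraMap (r : ℚ) :
    coeffEmb L (algebraMap ℚ (LaurentSeries ℚ) r) =
      algebraMap L (LaurentSeries L) (algebraMap ℚ L r) := by
  rw [algebraMap_laurentSeries_eq_single, algebraMap_laurentSeries_eq_single, coeffEmb,
    coeffMap_single]

/-- Base change of an adjunction: only the generators are needed. -/
theorem adjoin_coeffEmb_image_adjoin (S : Set (LaurentSeries ℚ)) :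
    IntermediateField.adjoin L
        (⇑(coeffEmb L) '' ((IntermediateField.adjoin ℚ S : IntermediateField ℚ (LaurentSeries ℚ)) :
          Set (LaurentSeries ℚ))) =
      IntermediateField.adjoin L (⇑(coeffEmb L) '' S) := by
  apply le_antisymm
  · have key : ∀ y, y ∈ IntermediateField.adjoin ℚ S →
        coeffEmb L y ∈ IntermediateField.adjoin L (⇑(coeffEmb L) '' S) := by
      intro y hy
      induction hy using IntermediateField.adjoin_induction with
      | mem x hx => exact IntermediateField.subset_adjoin L _ ⟨x, hx, rfl⟩
      | algebraMap r =>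
          rw [coeffEmb_algebraMap]
          exact IntermediateField.algebraMap_mem _ _
      | add x y _ _ hx hy =>
          rw [map_add]
          exact add_mem hx hy
      | inv x _ hx =>
          rw [map_inv₀]
          exact inv_mem hx
      | mul x y _ _ hx hy =>
          rw [map_mul]
          exact mul_mem hx hy
    rw [IntermediateField.adjoin_le_iff]
    rintro _ ⟨y, hy, rfl⟩
    exact key y hy
  · exact IntermediateField.adjoin.mono L _ _
      (Set.image_mono (IntermediateField.subset_adjoin ℚ S))

end BaseChange

section Generators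

local notation "Kb" => AlgebraicClosure ℚ

variable (N : ℕ) [NeZero N]

/-- The formal `j`-invariant as an element of the modular function field over `ℚ̄`. -/
noncomputable def xF : modularFunctionFieldBar N :=
  ⟨coeffEmb Kb jq, coeffEmb_mem_laurentBaseChange Kb (by
    have h := jqd_mem_full N (one_dvd N)
    rwa [qExpand_one_apply] at h)⟩

@[simp]
theorem coe_xF : ((xF N : modularFunctionFieldBar N) : LaurentSeries Kb) = coeffEmb Kb jq := rfl

theorem coeff_xF_neg_one : ((xF N : modularFunctionFieldBar N) : LaurentSeries Kb).coeff (-1) = 1 := by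
  rw [coe_xF, coeffEmb_coeff, coeff_jq_neg_one, map_one]

/-- The formal `j`-invariant is transcendental over `ℚ̄`. -/
theorem transcendental_xF : Transcendental Kb (xF N) := by
  have h : Transcendental Kb ((xF N : modularFunctionFieldBar N) : LaurentSeries Kb) :=
    transcendental_of_coeff_neg_ne_zero _ (n := -1) (by norm_num)
      (by rw [coeff_xF_neg_one]; exact one_ne_zero)
  intro halg
  exact h (halg.algebraMap (A := LaurentSeries Kb))

/-- The expansions `j(q^d)`, `d ∣ N`, as elements of the modular function field over `ℚ̄`. -/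
noncomputable def jF (d : N.divisors) : modularFunctionFieldBar N :=
  haveI : NeZero d.1 := ⟨(Nat.pos_of_mem_divisors d.2).ne'⟩
  ⟨coeffEmb Kb (qExpand ℚ d.1 jq), coeffEmb_mem_laurentBaseChange Kb
    (jqd_mem_full N (Nat.dvd_of_mem_divisors d.2))⟩

theorem coe_jF (d : N.divisors) :
    haveI : NeZero d.1 := ⟨(Nat.pos_of_mem_divisors d.2).ne'⟩
    ((jF N d : modularFunctionFieldBar N) : LaurentSeries Kb) =
      coeffEmb Kb (qExpand ℚ d.1 jq) := rfl

theorem jF_one : jF N ⟨1, Nat.one_mem_divisors.mpr (NeZero.ne N)⟩ = xF N := by
  apply Subtype.ext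
  rw [coe_jF, coe_xF, qExpand_one_apply]

theorem image_divisorExpansions :
    ⇑(coeffEmb Kb) '' divisorExpansions N =
      Set.range (fun d : N.divisors => ((jF N d : modularFunctionFieldBar N) : LaurentSeries Kb)) := by
  ext y
  constructor
  · rintro ⟨_, ⟨d, hd0, hdN, rfl⟩, rfl⟩
    exact ⟨⟨d, Nat.mem_divisors.mpr ⟨hdN, NeZero.ne N⟩⟩, rfl⟩
  · rintro ⟨d, rfl⟩
    haveI : NeZero d.1 := ⟨(Nat.pos_of_mem_divisors d.2).ne'⟩
    exact ⟨_, mem_divisorExpansions N (Nat.dvd_of_mem_divisors d.2), rfl⟩

/-- (F2) The modular function field over `ℚ̄` is generated over `ℚ̄` by the `j(q^d)`, `d ∣ N`. -/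
theorem modularFunctionFieldBar_eq_adjoin :
    modularFunctionFieldBar N =
      IntermediateField.adjoin Kb
        (Set.range (fun d : N.divisors =>
          ((jF N d : modularFunctionFieldBar N) : LaurentSeries Kb))) := by
  rw [← image_divisorExpansions]
  exact adjoin_coeffEmb_image_adjoin Kb (divisorExpansions N)

/-- (F2), inside the field itself. -/
theorem adjoin_range_jF : IntermediateField.adjoin Kb (Set.range (jF N)) = ⊤ := by
  apply IntermediateField.map_injective (modularFunctionFieldBar N).val
  rw [IntermediateField.adjoin_map, ← Set.range_comp, ← AlgHom.fieldRange_eq_map,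
    IntermediateField.fieldRange_val]
  exact (modularFunctionFieldBar_eq_adjoin N).symm

end Generators

section GenusZero

variable {K F : Type*} [Field K] [Field F] [Algebra K F] [IsAlgClosed K] [CharZero K]

/-- If `[F : K(x)] = 1` then `x` is unramified everywhere. -/
theorem ord_eq_one_of_finrank_eq_one {x : F} (h : IsFFGen K x)
    (hn : Module.finrank K⟮x⟯ F = 1) (v : Place K F) (c : K)
    (hv : 0 < v.ord (x - algebraMap K F c)) : v.ord (x - algebraMap K F c) = 1 := by
  obtain ⟨s, hs, hsum⟩ := h.sum_ord_centre c
  rw [hn] at hsum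
  have hvs : v ∈ s := (hs v).mpr hv
  have hle : v.ord (x - algebraMap K F c) ≤ ∑ w ∈ s, w.ord (x - algebraMap K F c) :=
    Finset.single_le_sum (f := fun w : Place K F => w.ord (x - algebraMap K F c))
      (fun w hw => ((hs w).mp hw).le) hvs
  rw [hsum] at hle
  have : v.ord (x - algebraMap K F c) ≤ 1 := by exact_mod_cast hle
  omega

theorem neg_ord_eq_one_of_finrank_eq_one {x : F} (h : IsFFGen K x)
    (hn : Module.finrank K⟮x⟯ F = 1) (v : Place K F) (hv : v.ord x < 0) : -v.ord x = 1 := by
  obtain ⟨s, hs, hsum⟩ := h.sum_ord_infty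
  rw [hn] at hsum
  have hvs : v ∈ s := (hs v).mpr hv
  have hle : -v.ord x ≤ ∑ w ∈ s, (-w.ord x) :=
    Finset.single_le_sum (f := fun w : Place K F => -w.ord x)
      (fun w hw => by have := (hs w).mp hw; omega) hvs
  rw [hsum] at hle
  have : -v.ord x ≤ 1 := by exact_mod_cast hle
  omega

/-- (F3) A function field of degree one over `K(x)` has genus zero. -/
theorem genus_eq_zero_of_finrank_eq_one {x : F} (h : IsFFGen K x)
    (hn : Module.finrank K⟮x⟯ F = 1) [HasCanonicalDivisor (K := K) (F := F)] :
    genus K F = 0 := by
  haveI := h.hasPrincipalDivisors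
  have hg := genus_eq h.placeInputs h.transcendental (fun _ => (1 : ℤ))
    (fun v hv => (neg_ord_eq_one_of_finrank_eq_one h hn v hv).symm)
    (fun v c hv => (ord_eq_one_of_finrank_eq_one h hn v c hv).symm)
  rw [hg, h.finsum_max_neg_ord, hn]
  simp

end GenusZero

section LevelOne

local notation "Kb" => AlgebraicClosure ℚ

theorem adjoin_xF_one : Kb⟮xF 1⟯ = ⊤ := by
  have h := adjoin_range_jF 1
  have hr : Set.range (jF 1) = {xF 1} := by
    ext y
    simp only [Set.mem_range, Set.mem_singleton_iff]
    constructor
    · rintro ⟨⟨d, hd⟩, rfl⟩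
      have hd1 : d = 1 := by simpa using hd
      subst hd1
      exact jF_one 1
    · rintro rfl
      exact ⟨⟨1, by simp⟩, jF_one 1⟩
  rwa [hr] at h

theorem finrank_xF_one : Module.finrank Kb⟮xF 1⟯ (modularFunctionFieldBar 1) = 1 := by
  rw [adjoin_xF_one]
  exact IntermediateField.finrank_top

/-- For `N = 1` the function field is `ℚ̄(j)`. -/
theorem isFFGen_xF_one : IsFFGen Kb (xF 1) where
  transcendental := transcendental_xF 1
  finite := FiniteDimensional.of_finrank_pos (by rw [finrank_xF_one]; exact one_pos)

theorem genusFormula_one : genusFormula 1 = 0 := by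
  have h2 : nuTwo 1 = 1 := by
    rw [nuTwo]
    haveI : Unique {x : ZMod 1 // x ^ 2 + 1 = 0} :=
      ⟨⟨⟨0, Subsingleton.elim _ _⟩⟩, fun _ => Subsingleton.elim _ _⟩
    exact Nat.card_unique
  have h3 : nuThree 1 = 1 := by
    rw [nuThree]
    haveI : Unique {x : ZMod 1 // x ^ 2 + x + 1 = 0} :=
      ⟨⟨⟨0, Subsingleton.elim _ _⟩⟩, fun _ => Subsingleton.elim _ _⟩
    exact Nat.card_unique
  rw [genusFormula, h2, h3, cuspCount_one, dedekindPsi_one]
  norm_num

/-- (F3) The genus statement for `N = 1`. -/
theorem genus_modularFunctionFieldBar_one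
    [HasCanonicalDivisor (K := Kb) (F := ↥(modularFunctionFieldBar 1))] :
    (genus Kb ↥(modularFunctionFieldBar 1) : ℚ) = genusFormula 1 := by
  rw [genus_eq_zero_of_finrank_eq_one isFFGen_xF_one finrank_xF_one, genusFormula_one]
  simp

end LevelOne

end FormalSide

end Fermat.Agent.X0
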