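/-
Mod/Field: the field `L = Kb(j, j ∘ α : α ∈ CosetRep N) ⊆ MerH`, the embedding
`phi : modularFunctionFieldBar N →ₐ[Kb] L`, and the Galois data.
-/
import Mathlib
import Fermat.Agent.X0.Mod.ModularPoly
import Fermat.Agent.X0.Mod.ValInfty
import Fermat.Agent.X0.Mod.FormalSide
import Fermat.Prelude.Thm_ModularCurve_coeffMap_qExpand

set_option autoImplicit false
set_option linter.unusedSectionVars false
set_option linter.style.haveILetI false

noncomputable section

namespace Fermat.Agent.X0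

open ModularCurve FormalSide IntermediateField Polynomial
open UpperHalfPlane hiding I
open scoped MatrixGroups

variable (N : ℕ) [NeZero N]

/-! ### The map `f(q) ↦ (ι f)(u ^ N)` on Laurent series -/

/-- `LaurentSeries Kb → LaurentSeries ℂ`, `f(q) ↦ (ι f)(u ^ N)`. -/
def thetaN : LaurentSeries Kb →+* LaurentSeries ℂ := (qExpand ℂ N).comp (coeffMap iota)

theorem thetaN_algebraMap (c : Kb) :
    thetaN N (algebraMap Kb (LaurentSeries Kb) c) = algebraMap ℂ (LaurentSeries ℂ) (iota c) := by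
  rw [thetaN, RingHom.comp_apply, algebraMap_laurentSeries_eq_single,
    algebraMap_laurentSeries_eq_single, coeffMap_single, qExpand_single, mul_zero]

theorem iota_comp_algebraMap : iota.comp (algebraMap ℚ Kb) = algebraMap ℚ ℂ :=
  Subsingleton.elim _ _

theorem thetaN_coeffEmb_qExpand_jq (d : ℕ) [NeZero d] :
    haveI : NeZero (N * d) := ⟨Nat.mul_ne_zero (NeZero.ne N) (NeZero.ne d)⟩
    thetaN N (coeffEmb Kb (qExpand ℚ d jq)) = qExpand ℂ (N * d) (jqModC ℂ) := by
  haveI : NeZero (N * d) := ⟨Nat.mul_ne_zero (NeZero.ne N) (NeZero.ne d)⟩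
  rw [thetaN, RingHom.comp_apply, coeffEmb, coeffMap_coeffMap, iota_comp_algebraMap,
    coeffMap_qExpand, qExpand_qExpand]
  congr 1
  show (jqModC ℚ).map (algebraMap ℚ ℂ) = jqModC ℂ
  exact map_jqModC _

/-! ### Expansions of `j (d τ)` -/

theorem jAt_base_mem_merInfH {d : ℕ} [NeZero d] (h : d ∣ N) :
    jAt (CosetRep.base d) ∈ merInfH N :=
  mem_merInfH.mpr (isMerInf_jAt h _)

theorem expandFun_jAt_base {d : ℕ} [NeZero d] :
    haveI : NeZero (N * d) := ⟨Nat.mul_ne_zero (NeZero.ne N) (NeZero.ne d)⟩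
    expandFun N (jAt (CosetRep.base d) : ℍ → ℂ) = qExpand ℂ (N * d) (jqModC ℂ) := by
  haveI : NeZero (N * d) := ⟨Nat.mul_ne_zero (NeZero.ne N) (NeZero.ne d)⟩
  rw [coe_jAt]
  refine expandFun_jFun_comp_mul (Nat.pos_of_ne_zero (NeZero.ne N)) (fun τ => ?_)
  rw [CosetRep.coe_glPos_smul]
  simp [CosetRep.base]

/-! ### The embedding of the formal function field into `MerH` -/

/-- The formal function field. -/
abbrev FN : Type := ↥(modularFunctionFieldBar N)

theorem thetaN_algebraMap_mem (c : Kb) :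
    thetaN N (algebraMap Kb (LaurentSeries Kb) c) ∈ (expandMer N : merInfField N →+* _).fieldRange :=
  ⟨algebraMap ℂ (merInfField N) (iota c), by
    rw [thetaN_algebraMap]; exact (expandMer N).commutes (iota c)⟩

theorem rM_base_mem_merInfField {d : ℕ} [NeZero d] (h : d ∣ N) :
    rM (CosetRep.base d) ∈ merInfField N :=
  algebraMap_mem_merInfField (jAt_base_mem_merInfH N h)

theorem expandMer_rM_base {d : ℕ} [NeZero d] (h : d ∣ N) :
    expandMer N ⟨rM (CosetRep.base d), rM_base_mem_merInfField N h⟩ =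
      thetaN N (coeffEmb Kb (qExpand ℚ d jq)) := by
  rw [thetaN_coeffEmb_qExpand_jq, ← expandFun_jAt_base]
  exact expandMer_algebraMap (jAt_base_mem_merInfH N h)

theorem thetaN_mem_fieldRange_aux {x : LaurentSeries Kb}
    (hf : x ∈ IntermediateField.adjoin Kb
      (Set.range (fun d : N.divisors => ((jF N d : FN N) : LaurentSeries Kb)))) :
    thetaN N x ∈ (expandMer N : merInfField N →+* _).fieldRange := by
  induction hf using IntermediateField.adjoin_induction with
  | mem x hx =>
    obtain ⟨d, rfl⟩ := hx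
    haveI : NeZero d.1 := ⟨(Nat.pos_of_mem_divisors d.2).ne'⟩
    exact ⟨⟨rM (CosetRep.base d.1), rM_base_mem_merInfField N (Nat.dvd_of_mem_divisors d.2)⟩,
      expandMer_rM_base N (Nat.dvd_of_mem_divisors d.2)⟩
  | algebraMap c => exact thetaN_algebraMap_mem N c
  | add x y _ _ hx hy => rw [map_add]; exact add_mem hx hy
  | inv x _ hx => rw [map_inv₀]; exact inv_mem hx
  | mul x y _ _ hx hy => rw [map_mul]; exact mul_mem hx hy

theorem thetaN_mem_fieldRange (f : FN N) :
    thetaN N (f : LaurentSeries Kb) ∈ (expandMer N : merInfField N →+* _).fieldRange := by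
  apply thetaN_mem_fieldRange_aux
  rw [← modularFunctionFieldBar_eq_adjoin]
  exact f.2

/-- `FN → merInfField N`. -/
def phiInf : FN N →+* merInfField N :=
  ((expandMer N : merInfField N →+* LaurentSeries ℂ).rangeRestrictFieldEquiv.symm :
      (expandMer N : merInfField N →+* LaurentSeries ℂ).fieldRange →+* merInfField N).comp
    (((thetaN N).comp (algebraMap (FN N) (LaurentSeries Kb))).codRestrict
      (expandMer N : merInfField N →+* LaurentSeries ℂ).fieldRange (thetaN_mem_fieldRange N))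

theorem expandMer_phiInf (f : FN N) :
    expandMer N (phiInf N f) = thetaN N (f : LaurentSeries Kb) := by
  have h := (expandMer N : merInfField N →+* LaurentSeries ℂ).rangeRestrictFieldEquiv.apply_symm_apply
    (((thetaN N).comp (algebraMap (FN N) (LaurentSeries Kb))).codRestrict
      (expandMer N : merInfField N →+* LaurentSeries ℂ).fieldRange (thetaN_mem_fieldRange N) f)
  exact congrArg Subtype.val h

theorem expandMer_injective : Function.Injective (expandMer N) :=
  (expandMer N : merInfField N →+* LaurentSeries ℂ).injective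

theorem phiInf_algebraMap (c : Kb) :
    phiInf N (algebraMap Kb (FN N) c) = algebraMap ℂ (merInfField N) (iota c) := by
  apply expandMer_injective N
  rw [expandMer_phiInf, AlgHom.commutes]
  exact thetaN_algebraMap N c

theorem phiInf_jF (d : N.divisors) :
    haveI : NeZero d.1 := ⟨(Nat.pos_of_mem_divisors d.2).ne'⟩
    phiInf N (jF N d) = ⟨rM (CosetRep.base d.1),
      rM_base_mem_merInfField N (Nat.dvd_of_mem_divisors d.2)⟩ := by
  haveI : NeZero d.1 := ⟨(Nat.pos_of_mem_divisors d.2).ne'⟩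
  apply expandMer_injective N
  rw [expandMer_phiInf, expandMer_rM_base N (Nat.dvd_of_mem_divisors d.2)]
  rfl

/-- The embedding `FN → MerH` as a `Kb`-algebra homomorphism. -/
def phiMer : FN N →ₐ[Kb] MerH where
  toRingHom := (algebraMap (merInfField N) MerH).comp (phiInf N)
  commutes' c := by
    show ((phiInf N (algebraMap Kb (FN N) c) : merInfField N) : MerH) = algebraMap Kb MerH c
    rw [phiInf_algebraMap, algebraMap_Kb_MerH]
    rfl

theorem phiMer_apply (f : FN N) : phiMer N f = ((phiInf N f : merInfField N) : MerH) := rfl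

theorem phiMer_jF (d : N.divisors) :
    haveI : NeZero d.1 := ⟨(Nat.pos_of_mem_divisors d.2).ne'⟩
    phiMer N (jF N d) = rM (CosetRep.base d.1) := by
  haveI : NeZero d.1 := ⟨(Nat.pos_of_mem_divisors d.2).ne'⟩
  rw [phiMer_apply, phiInf_jF]

theorem rM_base_one : rM (CosetRep.base 1) = xM := by
  rw [rM, jAt_base_one, xM_def]

theorem phiMer_xF : phiMer N (xF N) = xM := by
  rw [← jF_one, phiMer_jF]
  exact rM_base_one

/-! ### The field `L` -/

/-- `L = Kb(j, j ∘ α : α ∈ CosetRep N)` inside `MerH`. -/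
def fieldL : IntermediateField Kb MerH :=
  IntermediateField.adjoin Kb ({xM} ∪ Set.range (rM : CosetRep N → MerH))

theorem xM_mem_fieldL : xM ∈ fieldL N :=
  IntermediateField.subset_adjoin _ _ (Or.inl rfl)

theorem rM_mem_fieldL (α : CosetRep N) : rM α ∈ fieldL N :=
  IntermediateField.subset_adjoin _ _ (Or.inr ⟨α, rfl⟩)

/-- `j` as an element of `L`. -/
def xL : fieldL N := ⟨xM, xM_mem_fieldL N⟩

/-- `j ∘ α` as an element of `L`. -/
def rL (α : CosetRep N) : fieldL N := ⟨rM α, rM_mem_fieldL N α⟩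

theorem rL_injective : Function.Injective (rL N) := fun _ _ h =>
  rM_injective (congrArg Subtype.val h)

theorem adjoin_pair_le_fieldL :
    IntermediateField.adjoin Kb ({xM, rM (CosetRep.base N)} : Set MerH) ≤ fieldL N := by
  rw [IntermediateField.adjoin_le_iff]
  rintro y (rfl | rfl)
  · exact xM_mem_fieldL N
  · exact rM_mem_fieldL N _

theorem phiMer_mem_pair (f : FN N) :
    phiMer N f ∈ IntermediateField.adjoin Kb ({xM, rM (CosetRep.base N)} : Set MerH) := by
  have hf : f ∈ IntermediateField.adjoin Kb (Set.range (jF N)) := by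
    rw [adjoin_range_jF]; trivial
  have h1 : phiMer N f ∈ (IntermediateField.adjoin Kb (Set.range (jF N))).map (phiMer N) :=
    ⟨f, hf, rfl⟩
  rw [IntermediateField.adjoin_map] at h1
  refine (IntermediateField.adjoin_le_iff.mpr ?_) h1
  rintro y ⟨z, ⟨d, rfl⟩, rfl⟩
  haveI : NeZero d.1 := ⟨(Nat.pos_of_mem_divisors d.2).ne'⟩
  show phiMer N (jF N d) ∈ _
  rw [phiMer_jF]
  exact rM_base_mem_adjoin (Nat.dvd_of_mem_divisors d.2)

theorem phiMer_mem_fieldL (f : FN N) : phiMer N f ∈ fieldL N :=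
  adjoin_pair_le_fieldL N (phiMer_mem_pair N f)

/-- The embedding `phi : FN → L`. -/
def phi : FN N →ₐ[Kb] fieldL N :=
  (phiMer N).codRestrict (fieldL N).toSubalgebra (phiMer_mem_fieldL N)

theorem coe_phi (f : FN N) : ((phi N f : fieldL N) : MerH) = phiMer N f := rfl

theorem phi_xF : phi N (xF N) = xL N := Subtype.ext (phiMer_xF N)

/-- The generator `j (N τ)` of the formal function field. -/
def yF : FN N := jF N ⟨N, Nat.mem_divisors_self N (NeZero.ne N)⟩

theorem phi_yF : phi N (yF N) = rL N (CosetRep.base N) := by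
  apply Subtype.ext
  rw [coe_phi, yF, phiMer_jF]
  rfl

/-- **Generation of the formal function field**: `FN = Kb(x, y)`. -/
theorem adjoin_xF_yF : IntermediateField.adjoin Kb ({xF N, yF N} : Set (FN N)) = ⊤ := by
  rw [eq_top_iff]
  intro f _
  have h1 := phiMer_mem_pair N f
  have h2 : (IntermediateField.adjoin Kb ({xF N, yF N} : Set (FN N))).map (phiMer N) =
      IntermediateField.adjoin Kb ({xM, rM (CosetRep.base N)} : Set MerH) := by
    rw [IntermediateField.adjoin_map, Set.image_pair, phiMer_xF]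
    congr 2
    have := congrArg Subtype.val (phi_yF N)
    rw [coe_phi] at this
    rw [this]
    rfl
  rw [← h2] at h1
  obtain ⟨g, hg, hgf⟩ := h1
  have : g = f := (phiMer N).toRingHom.injective hgf
  rw [← this]
  exact hg

/-! ### The automorphisms of `L` induced by `SL(2, ℤ)` -/

/-- `compSLMer γ` as a `Kb`-algebra automorphism of `MerH`. -/
def compSLMerK (γ : SL(2, ℤ)) : MerH ≃ₐ[Kb] MerH :=
  { (compSLMer γ : MerH ≃+* MerH) with
    commutes' := fun c => by
      show compSLMer γ (algebraMap Kb MerH c) = algebraMap Kb MerH c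
      rw [algebraMap_Kb_MerH, AlgEquiv.commutes] }

theorem compSLMerK_apply (γ : SL(2, ℤ)) (y : MerH) : compSLMerK γ y = compSLMer γ y := rfl

variable {N} in
theorem compSLMer_mem_fieldL (γ : SL(2, ℤ)) {y : MerH} (hy : y ∈ fieldL N) :
    compSLMer γ y ∈ fieldL N := by
  have h1 : compSLMerK γ y ∈ (fieldL N).map (compSLMerK γ : MerH →ₐ[Kb] MerH) := ⟨y, hy, rfl⟩
  rw [fieldL, IntermediateField.adjoin_map] at h1
  refine (IntermediateField.adjoin_le_iff.mpr ?_) h1
  rintro z ⟨w, hw | ⟨α, rfl⟩, rfl⟩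
  · rw [Set.mem_singleton_iff] at hw
    subst hw
    show compSLMer γ xM ∈ _
    rw [compSLMer_xM]
    exact xM_mem_fieldL N
  · show compSLMer γ (rM α) ∈ _
    rw [compSLMer_rM]
    exact rM_mem_fieldL N _

/-- The endomorphism of `L` induced by `γ`. -/
def sigmaHom (γ : SL(2, ℤ)) : fieldL N →ₐ[Kb] fieldL N :=
  (((compSLMerK γ : MerH →ₐ[Kb] MerH)).comp (fieldL N).val).codRestrict (fieldL N).toSubalgebra
    (fun y => compSLMer_mem_fieldL γ y.2)

theorem coe_sigmaHom (γ : SL(2, ℤ)) (y : fieldL N) :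
    ((sigmaHom N γ y : fieldL N) : MerH) = compSLMer γ (y : MerH) := rfl

theorem sigmaHom_comp (γ δ : SL(2, ℤ)) :
    (sigmaHom N δ).comp (sigmaHom N γ) = sigmaHom N (γ * δ) := by
  ext y
  rw [AlgHom.comp_apply, coe_sigmaHom, coe_sigmaHom, coe_sigmaHom, compSLMer_mul]
  rfl

theorem sigmaHom_one : sigmaHom N 1 = AlgHom.id Kb (fieldL N) := by
  ext y
  rw [coe_sigmaHom, compSLMer_one]
  rfl

/-- The automorphism of `L` induced by `γ`. -/
def sigmaL (γ : SL(2, ℤ)) : fieldL N ≃ₐ[Kb] fieldL N :=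
  AlgEquiv.ofAlgHom (sigmaHom N γ) (sigmaHom N γ⁻¹)
    (by rw [sigmaHom_comp, inv_mul_cancel, sigmaHom_one])
    (by rw [sigmaHom_comp, mul_inv_cancel, sigmaHom_one])

theorem coe_sigmaL (γ : SL(2, ℤ)) (y : fieldL N) :
    ((sigmaL N γ y : fieldL N) : MerH) = compSLMer γ (y : MerH) := rfl

theorem sigmaL_xL (γ : SL(2, ℤ)) : sigmaL N γ (xL N) = xL N :=
  Subtype.ext (by rw [coe_sigmaL]; exact compSLMer_xM γ)

theorem sigmaL_rL (γ : SL(2, ℤ)) (α : CosetRep N) : sigmaL N γ (rL N α) = rL N (α.act γ) :=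
  Subtype.ext (by rw [coe_sigmaL]; exact compSLMer_rM γ α)

theorem sigmaL_mul (γ δ : SL(2, ℤ)) : sigmaL N (γ * δ) = sigmaL N δ * sigmaL N γ := by
  ext y
  rw [coe_sigmaL, AlgEquiv.mul_apply, coe_sigmaL, coe_sigmaL, compSLMer_mul]
  rfl

theorem sigmaL_one : sigmaL N 1 = 1 := by
  ext y
  rw [coe_sigmaL, compSLMer_one]
  rfl

theorem sigmaL_pow (γ : SL(2, ℤ)) (k : ℕ) : sigmaL N (γ ^ k) = sigmaL N γ ^ k := by
  induction k with
  | zero => rw [pow_zero, pow_zero, sigmaL_one]
  | succ k ih => rw [pow_succ, pow_succ', sigmaL_mul, ih]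

/-! ### The modular polynomial over `Kb[j]` and the Galois property -/

theorem coeff_modularPoly_MerH (k : ℕ) :
    ∃ P : Kb[X], (∏ α : CosetRep N, (X - C (rM α)) : MerH[X]).coeff k = aeval xM P := by
  obtain ⟨P₀, hP₀⟩ := exists_map_aeval_jH_eq_Kb (N := N) (rootsPoly (jAt : CosetRep N → HolH))
    (rootsPoly_map_compSL CosetRep.actPerm jAt compSL_jAt_actPerm)
    (rootsPoly_coeff_mem (RK N).toSubring jAt jAt_mem_RK_self)
  refine ⟨P₀.coeff k, ?_⟩
  have h1 : (∏ α : CosetRep N, (X - C (rM α)) : MerH[X]) =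
      (rootsPoly (jAt : CosetRep N → HolH)).map (algebraMap HolH MerH) := by
    rw [rootsPoly_map]; rfl
  rw [h1, ← hP₀, coeff_map, coeff_map]
  show algebraMap HolH MerH (aeval jH (P₀.coeff k)) = aeval xM (P₀.coeff k)
  rw [xM_def, aeval_algebraMap_apply]

theorem coe_prod_rL :
    (∏ α : CosetRep N, (X - C (rL N α)) : (fieldL N)[X]).map (algebraMap (fieldL N) MerH) =
      ∏ α : CosetRep N, (X - C (rM α)) := by
  rw [Polynomial.map_prod]
  refine Finset.prod_congr rfl fun α _ => ?_
  rw [Polynomial.map_sub, map_X, map_C]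
  rfl

theorem coeff_modularPoly_L (k : ℕ) :
    ∃ P : Kb[X], (∏ α : CosetRep N, (X - C (rL N α)) : (fieldL N)[X]).coeff k =
      aeval (xL N) P := by
  obtain ⟨P, hP⟩ := coeff_modularPoly_MerH N k
  refine ⟨P, Subtype.ext ?_⟩
  have h1 : (((∏ α : CosetRep N, (X - C (rL N α)) : (fieldL N)[X]).coeff k : fieldL N) : MerH) =
      ((∏ α : CosetRep N, (X - C (rL N α)) : (fieldL N)[X]).map
        (algebraMap (fieldL N) MerH)).coeff k := by
    rw [coeff_map]; rfl
  rw [h1, coe_prod_rL, hP, ← IntermediateField.aeval_coe]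
  rfl

/-- The base field `Kb(j)` inside `L`. -/
abbrev fieldE : IntermediateField Kb (fieldL N) := Kb⟮xL N⟯

theorem exists_modularPoly_E :
    ∃ Φ : (fieldE N)[X], Φ.map (algebraMap (fieldE N) (fieldL N)) =
      ∏ α : CosetRep N, (X - C (rL N α)) := by
  rw [← Polynomial.mem_lifts, Polynomial.lifts_iff_coeff_lifts]
  intro k
  obtain ⟨P, hP⟩ := coeff_modularPoly_L N k
  refine ⟨aeval (⟨xL N, IntermediateField.mem_adjoin_simple_self Kb (xL N)⟩ : fieldE N) P, ?_⟩
  rw [hP]
  exact (IntermediateField.aeval_coe (fieldE N) ⟨xL N, _⟩ P).symm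

theorem adjoin_xL_rL :
    IntermediateField.adjoin Kb ({xL N} ∪ Set.range (rL N)) = ⊤ := by
  apply IntermediateField.map_injective (fieldL N).val
  rw [IntermediateField.adjoin_map, ← AlgHom.fieldRange_eq_map, IntermediateField.fieldRange_val]
  have h : (⇑(fieldL N).val '' ({xL N} ∪ Set.range (rL N))) =
      ({xM} ∪ Set.range (rM : CosetRep N → MerH)) := by
    rw [Set.image_union, Set.image_singleton, ← Set.range_comp]
    rfl
  rw [h]
  rfl

theorem adjoin_fieldE_rL : IntermediateField.adjoin (fieldE N) (Set.range (rL N)) = ⊤ := by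
  rw [← IntermediateField.restrictScalars_eq_top_iff (K := Kb),
    IntermediateField.adjoin_adjoin_left, adjoin_xL_rL]

instance isGalois_fieldL : IsGalois (fieldE N) (fieldL N) := by
  obtain ⟨Φ, hΦ⟩ := exists_modularPoly_E N
  exact GaloisAbstract.isGalois_of_map_eq_prod (rL N) Φ (rL_injective N) (adjoin_fieldE_rL N) hΦ

instance finiteDimensional_fieldL : FiniteDimensional (fieldE N) (fieldL N) := by
  obtain ⟨Φ, hΦ⟩ := exists_modularPoly_E N
  exact GaloisAbstract.finiteDimensional_of_map_eq_prod (rL N) Φ (adjoin_fieldE_rL N) hΦ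

end Fermat.Agent.X0
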