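/-
Mod/Assembly: the inputs of `AlgHomCount` and of FF-main for the modular function field
`FN N = modularFunctionFieldBar N` and `phi N : FN N →ₐ[Kb] fieldL N`.
-/
import Mathlib
import Fermat.Agent.X0.Mod.Field
import Fermat.Agent.X0.Mod.Monodromy
import Fermat.Agent.X0.Mod.GenusArith
import Fermat.Agent.X0.Mod.EmbCount

set_option autoImplicit false
set_option linter.unusedSectionVars false
set_option linter.style.haveILetI false

noncomputable section

namespace Fermat.Agent.X0

open ModularCurve FormalSide IntermediateField Polynomial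
open UpperHalfPlane hiding I
open scoped MatrixGroups

variable (N : ℕ) [NeZero N]

instance isGalois_fieldL_phi : IsGalois Kb⟮phi N (xF N)⟯ (fieldL N) := by
  rw [phi_xF]; infer_instance

instance finiteDimensional_fieldL_phi : FiniteDimensional Kb⟮phi N (xF N)⟯ (fieldL N) := by
  rw [phi_xF]; infer_instance

/-- transitivity of the automorphisms `sigmaL` on the roots. -/
theorem exists_sigmaL_base (α : CosetRep N) :
    ∃ σ : fieldL N ≃ₐ[Kb] fieldL N, σ (phi N (xF N)) = phi N (xF N) ∧
      σ (rL N (CosetRep.base N)) = rL N α :=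
  ⟨sigmaL N α.toSL, by rw [phi_xF, sigmaL_xL], by rw [sigmaL_rL, CosetRep.base_act_toSL]⟩

theorem coeff_modularPoly_phi (k : ℕ) :
    ∃ P : Kb[X], (∏ α : CosetRep N, (X - C (rL N α)) : (fieldL N)[X]).coeff k =
      aeval (phi N (xF N)) P := by
  rw [phi_xF]; exact coeff_modularPoly_L N k

/-! ### Orders of the automorphisms -/

theorem sigmaL_eq_one_iff (δ : SL(2, ℤ)) :
    sigmaL N δ = 1 ↔ (CosetRep.actPerm δ : Equiv.Perm (CosetRep N)) = 1 := by
  constructor
  · intro h
    refine Equiv.ext fun α => ?_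
    rw [CosetRep.actPerm_apply, Equiv.Perm.one_apply]
    apply rL_injective N
    rw [← sigmaL_rL, h, AlgEquiv.one_apply]
  · intro h
    have hact : ∀ α : CosetRep N, α.act δ = α := fun α => by
      have := congrArg (fun π : Equiv.Perm (CosetRep N) => π α) h
      simpa only [CosetRep.actPerm_apply, Equiv.Perm.one_apply] using this
    have h1 : ((sigmaL N δ : fieldL N ≃ₐ[Kb] fieldL N) : fieldL N →ₐ[Kb] fieldL N) =
        AlgHom.id Kb (fieldL N) := by
      refine IntermediateField.algHom_ext_of_eq_adjoin Kb (S := fieldL N)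
        (s := {xM} ∪ Set.range (rM : CosetRep N → MerH)) rfl ?_
      rintro x (hx | ⟨α, rfl⟩)
      · rw [Set.mem_singleton_iff] at hx
        subst hx
        exact sigmaL_xL N δ
      · have := sigmaL_rL N δ α
        rw [hact α] at this
        exact this
    ext y
    exact congrArg Subtype.val (DFunLike.congr_fun h1 y)

theorem sigmaL_pow_eq_one_iff (γ : SL(2, ℤ)) (k : ℕ) :
    sigmaL N γ ^ k = 1 ↔ (CosetRep.actPerm γ : Equiv.Perm (CosetRep N)) ^ k = 1 := by
  rw [← sigmaL_pow, sigmaL_eq_one_iff, CosetRep.actPerm_pow]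

theorem orderOf_sigmaL (γ : SL(2, ℤ)) :
    orderOf (sigmaL N γ) = orderOf (CosetRep.actPerm γ : Equiv.Perm (CosetRep N)) :=
  orderOf_eq_orderOf_iff.mpr fun k => sigmaL_pow_eq_one_iff N γ k

theorem natCard_zpowers_sigmaL (γ : SL(2, ℤ)) :
    Nat.card (Subgroup.zpowers (sigmaL N γ)) =
      orderOf (CosetRep.actPerm γ : Equiv.Perm (CosetRep N)) := by
  rw [Nat.card_zpowers, orderOf_sigmaL]

/-! ### Comparison with the generic monodromy package -/

theorem hstab_fieldL : ∀ (γ : SL(2, ℤ)) (y : MerH), y ∈ fieldL N → compSLMer γ y ∈ fieldL N :=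
  fun γ _ hy => compSLMer_mem_fieldL γ hy

theorem autL_eq_sigmaL (γ : SL(2, ℤ)) :
    Monodromy.autL iota algebraMap_Kb_MerH (fieldL N) (hstab_fieldL N) γ = sigmaL N γ :=
  AlgEquiv.ext fun _ => Subtype.ext rfl

theorem fieldL_le_merInfField : ∀ y : MerH, y ∈ fieldL N → y ∈ merInfField N := by
  have h : fieldL N ≤ (merInfField N).restrictScalars Kb := by
    rw [fieldL, IntermediateField.adjoin_le_iff]
    rintro y (hy | ⟨α, rfl⟩)
    · rw [Set.mem_singleton_iff] at hy
      subst hy
      exact xM_mem_merInfField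
    · exact algebraMap_mem_merInfField (mem_merInfH.mpr (isMerInf_jAt dvd_rfl α))
  exact fun y hy => h hy

theorem natCard_zpowers_autL_S (hN : 1 < N) :
    Nat.card (Subgroup.zpowers (Monodromy.autL iota algebraMap_Kb_MerH (fieldL N) (hstab_fieldL N)
      ModularGroup.S)) = 2 := by
  rw [autL_eq_sigmaL, natCard_zpowers_sigmaL, CosetRep.orderOf_actPerm_S hN]

theorem natCard_zpowers_autL_ST (hN : 1 < N) :
    Nat.card (Subgroup.zpowers (Monodromy.autL iota algebraMap_Kb_MerH (fieldL N) (hstab_fieldL N)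
      (ModularGroup.S * ModularGroup.T))) = 3 := by
  rw [autL_eq_sigmaL, natCard_zpowers_sigmaL, CosetRep.orderOf_actPerm_ST hN]

theorem natCard_zpowers_autL_T :
    Nat.card (Subgroup.zpowers (Monodromy.autL iota algebraMap_Kb_MerH (fieldL N) (hstab_fieldL N)
      ModularGroup.T)) = N := by
  rw [autL_eq_sigmaL, natCard_zpowers_sigmaL, CosetRep.orderOf_actPerm_T]

/-! ### Degree and orbit counts -/

theorem finrank_FN :
    FiniteDimensional Kb⟮xF N⟯ (FN N) ∧
      Module.finrank Kb⟮xF N⟯ (FN N) = ModularCurve.dedekindPsi N := by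
  have h := EmbCount.finrank_eq_card (xF N) (yF N) (adjoin_xF_yF N) (phi N) (rL N)
    (rL_injective N) (CosetRep.base N) (phi_yF N) (coeff_modularPoly_phi N) (exists_sigmaL_base N)
  rw [CosetRep.card_rep] at h
  exact h

theorem isFFGen_xF : IsFFGen Kb (xF N) :=
  ⟨transcendental_xF N, (finrank_FN N).1⟩

theorem card_orbits_sigmaL (γ : SL(2, ℤ)) :
    Nat.card (Quotient (orbitSetoidK Kb (xF N) (phi N (xF N))
      (Subgroup.zpowers (Monodromy.autL iota algebraMap_Kb_MerH (fieldL N) (hstab_fieldL N) γ)))) =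
    Nat.card (Quotient (Equiv.Perm.SameCycle.setoid
      (CosetRep.actPerm γ : Equiv.Perm (CosetRep N)))) := by
  rw [autL_eq_sigmaL]
  exact EmbCount.card_orbits_eq_card_cycles (xF N) (yF N) (adjoin_xF_yF N) (phi N) (rL N)
    (rL_injective N) (CosetRep.base N) (phi_yF N) (coeff_modularPoly_phi N) (exists_sigmaL_base N)
    (sigmaL N γ) (by rw [phi_xF, sigmaL_xL]) (CosetRep.actPerm γ)
    (fun α => by rw [sigmaL_rL, CosetRep.actPerm_apply])

/-- **The genus of `X₀(N)`** for `1 < N`. -/
theorem genus_FN_eq_genusFormula (hN : 1 < N)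
    [AlgebraicCurve.HasCanonicalDivisor (K := Kb) (F := FN N)] :
    (AlgebraicCurve.genus Kb (FN N) : ℚ) = ModularCurve.genusFormula N := by
  have hgen := isFFGen_xF N
  haveI := hgen.hasPrincipalDivisors
  have key := Monodromy.genus_eq_of_monodromy iota algebraMap_Kb_MerH (fieldL N) (hstab_fieldL N)
    (xM_mem_fieldL N) N (fieldL_le_merInfField N) hgen (phi N) (phi_xF N)
    (natCard_zpowers_autL_S N hN) (natCard_zpowers_autL_ST N hN) (natCard_zpowers_autL_T N)
  rw [key, card_orbits_sigmaL, card_orbits_sigmaL, card_orbits_sigmaL, (finrank_FN N).2]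
  rw [← CosetRep.genusFormula_eq_sameCycle (N := N)]
  congr 3
  ring

theorem iota_ofNat_1728 : iota (1728 : Kb) = (1728 : ℂ) := map_ofNat iota 1728

theorem Kb_1728_ne_zero : (1728 : Kb) ≠ 0 := by norm_num

end Fermat.Agent.X0
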