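import Mathlib
import Fermat.Agent.X0.Mod.GaloisAbstract
import Fermat.Agent.X0.FF.Bridge

/-!
# Counting embeddings of `F = K(x, y)` into `L` over `K(x)`

Pure field theory. `F` is generated over `K` by `xF, yF`; `φ : F → L` is a `K`-embedding with
`φ yF = r α₀`, where `r : A → L` is an injective finite family whose polynomial `∏ (X - r α)` has
coefficients in `K[φ xF]`, and the `K`-automorphisms of `L` fixing `φ xF` permute the `r α`
transitively. Then `[F : K(xF)] = #A`, the `K`-embeddings `ψ : F → L` with `ψ xF = φ xF` are in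
bijection with `A` (`ψ yF = r α`), compatibly with the action of the automorphisms, so that orbit
counts can be computed on `A`.
-/

set_option autoImplicit false
set_option linter.unusedSectionVars false
set_option linter.style.haveILetI false

namespace Fermat.Agent.X0.AlgHomCount

open Polynomial IntermediateField

variable {K F L : Type*} [Field K] [Field F] [Field L] [Algebra K F] [Algebra K L]

/-- `K`-algebra homomorphisms out of a field generated by `s` are determined on `s`. -/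
theorem algHom_ext_of_adjoin_eq_top {s : Set F} (hs : adjoin K s = ⊤) {ψ₁ ψ₂ : F →ₐ[K] L}
    (h : ∀ x ∈ s, ψ₁ x = ψ₂ x) : ψ₁ = ψ₂ := by
  ext x
  have hx : x ∈ adjoin K s := hs ▸ mem_top
  induction hx using adjoin_induction with
  | mem x hx => exact h x hx
  | algebraMap x => rw [ψ₁.commutes, ψ₂.commutes]
  | add x y _ _ hx hy => rw [map_add, map_add, hx, hy]
  | inv x _ hx => rw [map_inv₀, map_inv₀, hx]
  | mul x y _ _ hx hy => rw [map_mul, map_mul, hx, hy]

/-- `K`-algebra homomorphisms agreeing at `xF` agree on `K(xF)`. -/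
theorem algHom_apply_eq_of_mem_adjoin_simple {xF : F} (ψ₁ ψ₂ : F →ₐ[K] L) (h : ψ₁ xF = ψ₂ xF)
    {e : F} (he : e ∈ K⟮xF⟯) : ψ₁ e = ψ₂ e := by
  induction he using adjoin_induction with
  | mem x hx => rw [Set.mem_singleton_iff.mp hx]; exact h
  | algebraMap x => rw [ψ₁.commutes, ψ₂.commutes]
  | add x y _ _ hx hy => rw [map_add, map_add, hx, hy]
  | inv x _ hx => rw [map_inv₀, map_inv₀, hx]
  | mul x y _ _ hx hy => rw [map_mul, map_mul, hx, hy]

theorem ringHom_comp_eq_of_apply_eq {xF : F} (ψ₁ ψ₂ : F →ₐ[K] L) (h : ψ₁ xF = ψ₂ xF) :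
    ψ₁.toRingHom.comp (algebraMap K⟮xF⟯ F) = ψ₂.toRingHom.comp (algebraMap K⟮xF⟯ F) := by
  ext e
  exact algHom_apply_eq_of_mem_adjoin_simple ψ₁ ψ₂ h e.2

section Main

variable {A : Type*} [Fintype A] [DecidableEq A]
variable (xF yF : F) (hgen : IntermediateField.adjoin K {xF, yF} = ⊤) (φ : F →ₐ[K] L)
  (r : A → L) (hr : Function.Injective r) (α₀ : A) (hy : φ yF = r α₀)
  (hcoeff : ∀ k : ℕ, ∃ P : K[X], (∏ α, (X - C (r α)) : L[X]).coeff k = aeval (φ xF) P)
  (htrans : ∀ α, ∃ σ : L ≃ₐ[K] L, σ (φ xF) = φ xF ∧ σ (r α₀) = r α)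

include hcoeff in
/-- the polynomial `∏ (X - r α)` descends to `K(xF)`. -/
theorem exists_descended_poly :
    ∃ Φ : K⟮xF⟯[X], Φ.map (φ.toRingHom.comp (algebraMap K⟮xF⟯ F)) = ∏ α, (X - C (r α)) := by
  choose P hP using hcoeff
  have hmem : ∀ k, aeval xF (P k) ∈ K⟮xF⟯ := fun k =>
    IntermediateField.algebra_adjoin_le_adjoin K _ (aeval_mem_adjoin_singleton K xF)
  refine ⟨∑ k ∈ Finset.range (Fintype.card A + 1), C (⟨aeval xF (P k), hmem k⟩ : K⟮xF⟯) * X ^ k, ?_⟩
  have hdeg : (∏ α, (X - C (r α)) : L[X]).natDegree = Fintype.card A := by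
    rw [natDegree_prod_of_monic _ _ fun α _ => monic_X_sub_C (r α)]
    simp
  rw [Polynomial.map_sum]
  conv_rhs => rw [(∏ α, (X - C (r α)) : L[X]).as_sum_range_C_mul_X_pow, hdeg]
  refine Finset.sum_congr rfl fun k _ => ?_
  rw [Polynomial.map_mul, Polynomial.map_C, Polynomial.map_pow, Polynomial.map_X, hP k]
  congr 2
  change φ (aeval xF (P k)) = _
  rw [← aeval_algHom_apply]

include hy hcoeff in
/-- `yF` is a root of the descended polynomial. -/
theorem aeval_yF_eq_zero {Φ : K⟮xF⟯[X]}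
    (hΦ : Φ.map (φ.toRingHom.comp (algebraMap K⟮xF⟯ F)) = ∏ α, (X - C (r α))) :
    aeval yF Φ = 0 := by
  apply φ.injective
  rw [map_zero, aeval_def]
  change φ.toRingHom (eval₂ (algebraMap K⟮xF⟯ F) yF Φ) = 0
  rw [Polynomial.hom_eval₂, ← eval_map, hΦ, eval_prod]
  refine Finset.prod_eq_zero (Finset.mem_univ α₀) ?_
  change eval (φ yF) (X - C (r α₀)) = 0
  rw [hy]; simp

include hgen hr hy hcoeff htrans in
/-- **(1)** `F` is finite over `K(xF)` of degree `#A`. -/
theorem finrank_eq_card :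
    FiniteDimensional K⟮xF⟯ F ∧ Module.finrank K⟮xF⟯ F = Fintype.card A := by
  obtain ⟨Φ, hΦ⟩ := exists_descended_poly xF φ r hcoeff
  set j : K⟮xF⟯ →+* L := φ.toRingHom.comp (algebraMap K⟮xF⟯ F) with hj
  have hjinj : Function.Injective j := j.injective
  have hΦmonic : Φ.Monic := by
    refine Polynomial.monic_of_injective hjinj ?_
    rw [hΦ]
    exact monic_prod_of_monic _ _ fun α _ => monic_X_sub_C (r α)
  have hΦdeg : Φ.natDegree = Fintype.card A := by
    rw [← natDegree_map_eq_of_injective hjinj, hΦ,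
      natDegree_prod_of_monic _ _ fun α _ => monic_X_sub_C (r α)]
    simp
  have hroot : aeval yF Φ = 0 := aeval_yF_eq_zero xF yF φ r α₀ hy hcoeff hΦ
  have hint : IsIntegral K⟮xF⟯ yF := ⟨Φ, hΦmonic, hroot⟩
  have hdvd : minpoly K⟮xF⟯ yF ∣ Φ := minpoly.dvd _ _ hroot
  -- every `r α` is a root of the minimal polynomial
  have hall : ∀ α, eval (r α) ((minpoly K⟮xF⟯ yF).map j) = 0 := by
    intro α
    obtain ⟨σ, hσ1, hσ2⟩ := htrans α
    set ψ : F →ₐ[K] L := (σ : L →ₐ[K] L).comp φ with hψ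
    have hψx : ψ xF = φ xF := hσ1
    have hψy : ψ yF = r α := by
      change σ (φ yF) = r α
      rw [hy, hσ2]
    have h1 : ψ.toRingHom (eval₂ (algebraMap K⟮xF⟯ F) yF (minpoly K⟮xF⟯ yF)) = 0 := by
      rw [← aeval_def, minpoly.aeval, map_zero]
    rw [Polynomial.hom_eval₂, ← eval_map, ringHom_comp_eq_of_apply_eq ψ φ hψx] at h1
    change eval (ψ yF) ((minpoly K⟮xF⟯ yF).map j) = 0 at h1
    rw [hψy] at h1
    exact h1
  have hcard : Fintype.card A ≤ (minpoly K⟮xF⟯ yF).natDegree := by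
    classical
    have hne : (minpoly K⟮xF⟯ yF).map j ≠ 0 :=
      (Polynomial.map_ne_zero_iff hjinj).mpr (minpoly.ne_zero hint)
    have hsub : (Finset.univ.image r).val ⊆ ((minpoly K⟮xF⟯ yF).map j).roots := by
      intro y hy'
      rw [Finset.mem_val, Finset.mem_image] at hy'
      obtain ⟨α, -, rfl⟩ := hy'
      rw [mem_roots hne, IsRoot]
      exact hall α
    have h1 := card_le_degree_of_subset_roots hsub
    rw [Finset.card_image_of_injective _ hr, Finset.card_univ,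
      natDegree_map_eq_of_injective hjinj] at h1
    exact h1
  have hmin' : minpoly K⟮xF⟯ yF = Φ :=
    (eq_of_monic_of_dvd_of_natDegree_le (minpoly.monic hint) hΦmonic hdvd
      (hΦdeg.le.trans hcard)).symm
  have htop : K⟮xF⟯⟮yF⟯ = ⊤ := by
    apply (restrictScalars_eq_top_iff (K := K)).mp
    rw [adjoin_adjoin_left, Set.singleton_union]
    exact hgen
  have hfin : FiniteDimensional K⟮xF⟯ K⟮xF⟯⟮yF⟯ := adjoin.finiteDimensional hint
  have hrank : Module.finrank K⟮xF⟯ K⟮xF⟯⟮yF⟯ = Fintype.card A := by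
    rw [adjoin.finrank hint, hmin', hΦdeg]
  rw [htop] at hfin hrank
  refine ⟨?_, ?_⟩
  · exact (topEquiv (F := K⟮xF⟯) (E := F)).toLinearEquiv.finiteDimensional
  · rw [← hrank, finrank_top']

include hr hy hcoeff in
/-- **(2)** a `K`-embedding `ψ` with `ψ xF = φ xF` sends `yF` to a unique `r α`. -/
theorem existsUnique_apply_eq (ψ : F →ₐ[K] L) (hψ : ψ xF = φ xF) : ∃! α, ψ yF = r α := by
  obtain ⟨Φ, hΦ⟩ := exists_descended_poly xF φ r hcoeff
  have h0 := aeval_yF_eq_zero xF yF φ r α₀ hy hcoeff hΦ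
  have h1 : ψ.toRingHom (eval₂ (algebraMap K⟮xF⟯ F) yF Φ) = 0 := by
    rw [← aeval_def, h0, map_zero]
  rw [Polynomial.hom_eval₂, ← eval_map, ringHom_comp_eq_of_apply_eq ψ φ hψ, hΦ, eval_prod,
    Finset.prod_eq_zero_iff] at h1
  obtain ⟨α, -, hα⟩ := h1
  rw [eval_sub, eval_X, eval_C, sub_eq_zero] at hα
  exact ⟨α, hα, fun β hβ => hr (hβ.symm.trans hα)⟩

include hgen in
/-- an embedding is determined by its values at `xF` and `yF`. -/
theorem algHom_ext_of_apply_eq {ψ₁ ψ₂ : F →ₐ[K] L} (hx : ψ₁ xF = ψ₂ xF) (hy' : ψ₁ yF = ψ₂ yF) :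
    ψ₁ = ψ₂ := by
  refine algHom_ext_of_adjoin_eq_top hgen ?_
  intro z hz
  rcases hz with rfl | hz
  · exact hx
  · rw [Set.mem_singleton_iff.mp hz]; exact hy'

/-- the index of the value at `yF` of an embedding over `K(xF)`. -/
noncomputable def indexOf (ψ : EmbOver K xF (φ xF)) : A :=
  (existsUnique_apply_eq xF yF φ r hr α₀ hy hcoeff ψ.1 ψ.2).choose

theorem apply_yF_eq (ψ : EmbOver K xF (φ xF)) :
    ψ.1 yF = r (indexOf xF yF φ r hr α₀ hy hcoeff ψ) :=
  (existsUnique_apply_eq xF yF φ r hr α₀ hy hcoeff ψ.1 ψ.2).choose_spec.1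

theorem indexOf_eq_iff (ψ : EmbOver K xF (φ xF)) (α : A) :
    indexOf xF yF φ r hr α₀ hy hcoeff ψ = α ↔ ψ.1 yF = r α := by
  constructor
  · rintro rfl; exact apply_yF_eq xF yF φ r hr α₀ hy hcoeff ψ
  · intro h
    exact hr ((apply_yF_eq xF yF φ r hr α₀ hy hcoeff ψ).symm.trans h)

include hgen in
theorem indexOf_injective : Function.Injective (indexOf xF yF φ r hr α₀ hy hcoeff) := by
  intro ψ ψ' h
  apply Subtype.ext
  refine algHom_ext_of_apply_eq xF yF hgen (ψ.2.trans ψ'.2.symm) ?_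
  rw [apply_yF_eq xF yF φ r hr α₀ hy hcoeff ψ, apply_yF_eq xF yF φ r hr α₀ hy hcoeff ψ', h]

include htrans in
theorem indexOf_surjective : Function.Surjective (indexOf xF yF φ r hr α₀ hy hcoeff) := by
  intro α
  obtain ⟨σ, hσ1, hσ2⟩ := htrans α
  refine ⟨⟨(σ : L →ₐ[K] L).comp φ, hσ1⟩, ?_⟩
  rw [indexOf_eq_iff]
  change σ (φ yF) = r α
  rw [hy, hσ2]

/-- **(3)** the embeddings of `F` into `L` over `K(xF)` are indexed by `A`. -/
noncomputable def equivX : EmbOver K xF (φ xF) ≃ A :=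
  Equiv.ofBijective (indexOf xF yF φ r hr α₀ hy hcoeff)
    ⟨indexOf_injective xF yF hgen φ r hr α₀ hy hcoeff,
      indexOf_surjective xF yF φ r hr α₀ hy hcoeff htrans⟩

theorem apply_yF_eq_equivX (ψ : EmbOver K xF (φ xF)) :
    ψ.1 yF = r (equivX xF yF hgen φ r hr α₀ hy hcoeff htrans ψ) :=
  apply_yF_eq xF yF φ r hr α₀ hy hcoeff ψ

theorem equivX_eq_iff (ψ : EmbOver K xF (φ xF)) (α : A) :
    equivX xF yF hgen φ r hr α₀ hy hcoeff htrans ψ = α ↔ ψ.1 yF = r α :=
  indexOf_eq_iff xF yF φ r hr α₀ hy hcoeff ψ α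

theorem equivX_symm_apply_yF (α : A) :
    ((equivX xF yF hgen φ r hr α₀ hy hcoeff htrans).symm α).1 yF = r α := by
  rw [← equivX_eq_iff xF yF hgen φ r hr α₀ hy hcoeff htrans, Equiv.apply_symm_apply]

include hgen hr hy hcoeff htrans in
theorem card_embOver : Nat.card (EmbOver K xF (φ xF)) = Fintype.card A := by
  rw [Nat.card_congr (equivX xF yF hgen φ r hr α₀ hy hcoeff htrans), Nat.card_eq_fintype_card]

/-- **(4)** equivariance of `equivX`. -/
theorem equivX_comp (σ : L ≃ₐ[K] L) (hσ : σ (φ xF) = φ xF) (π : A → A)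
    (hπ : ∀ α, σ (r α) = r (π α)) (ψ : EmbOver K xF (φ xF)) :
    equivX xF yF hgen φ r hr α₀ hy hcoeff htrans
      ⟨(σ : L →ₐ[K] L).comp ψ.1, by
        change σ (ψ.1 xF) = φ xF
        rw [ψ.2, hσ]⟩ = π (equivX xF yF hgen φ r hr α₀ hy hcoeff htrans ψ) := by
  rw [equivX_eq_iff]
  change σ (ψ.1 yF) = _
  rw [apply_yF_eq_equivX xF yF hgen φ r hr α₀ hy hcoeff htrans ψ, hπ]

omit [Fintype A] [DecidableEq A] in
theorem zpow_apply_r (σ : L ≃ₐ[K] L) (π : Equiv.Perm A) (hπ : ∀ α, σ (r α) = r (π α)) (i : ℤ)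
    (α : A) : (σ ^ i) (r α) = r ((π ^ i) α) := by
  have hpow : ∀ (n : ℕ) (α : A), (σ ^ n) (r α) = r ((π ^ n) α) := by
    intro n
    induction n with
    | zero => intro α; simp
    | succ n ih =>
      intro α
      rw [pow_succ', pow_succ', AlgEquiv.mul_apply, ih, hπ, Equiv.Perm.mul_apply]
  have hinv : ∀ (n : ℕ) (α : A), (σ ^ n)⁻¹ (r α) = r ((π ^ n)⁻¹ α) := by
    intro n α
    have h := hpow n ((π ^ n)⁻¹ α)
    have e : (π ^ n) ((π ^ n)⁻¹ α) = α := by simp
    rw [e] at h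
    rw [← h]
    change (σ ^ n).symm ((σ ^ n) _) = _
    rw [AlgEquiv.symm_apply_apply]
  cases i with
  | ofNat n => simpa using hpow n α
  | negSucc n =>
    rw [zpow_negSucc, zpow_negSucc]
    exact hinv (n + 1) α

omit [Fintype A] [DecidableEq A] in
theorem zpow_apply_xF (σ : L ≃ₐ[K] L) (hσ : σ (φ xF) = φ xF) (i : ℤ) :
    (σ ^ i) (φ xF) = φ xF := by
  have hmem : σ ∈ MulAction.stabilizer (L ≃ₐ[K] L) (φ xF) := hσ
  have := (MulAction.stabilizer (L ≃ₐ[K] L) (φ xF)).zpow_mem hmem i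
  exact this

include hgen hr hy hcoeff htrans in
/-- **(5)** the orbits of `⟨σ⟩` on the embeddings are the cycles of the permutation `π` of `A`
induced by `σ`. -/
theorem card_orbits_zpowers (σ : L ≃ₐ[K] L) (hσ : σ (φ xF) = φ xF) (π : Equiv.Perm A)
    (hπ : ∀ α, σ (r α) = r (π α)) :
    Nat.card (Quotient (orbitSetoidK K xF (φ xF) (Subgroup.zpowers σ))) =
      Nat.card (Quotient (Equiv.Perm.SameCycle.setoid π)) := by
  refine Nat.card_congr (Quotient.congr (equivX xF yF hgen φ r hr α₀ hy hcoeff htrans) ?_)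
  intro ψ ψ'
  change (∃ τ ∈ Subgroup.zpowers σ, ψ'.1 = (τ : L →ₐ[K] L).comp ψ.1) ↔
    π.SameCycle (equivX xF yF hgen φ r hr α₀ hy hcoeff htrans ψ)
      (equivX xF yF hgen φ r hr α₀ hy hcoeff htrans ψ')
  constructor
  · rintro ⟨τ, hτ, h⟩
    obtain ⟨i, rfl⟩ := Subgroup.mem_zpowers_iff.mp hτ
    refine ⟨i, ?_⟩
    symm
    rw [equivX_eq_iff, h]
    change (σ ^ i) (ψ.1 yF) = _
    rw [apply_yF_eq_equivX xF yF hgen φ r hr α₀ hy hcoeff htrans ψ, zpow_apply_r r σ π hπ]
  · rintro ⟨i, hi⟩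
    refine ⟨σ ^ i, Subgroup.zpow_mem_zpowers σ i, ?_⟩
    refine algHom_ext_of_apply_eq xF yF hgen ?_ ?_
    · change ψ'.1 xF = (σ ^ i) (ψ.1 xF)
      rw [ψ'.2, ψ.2, zpow_apply_xF xF φ σ hσ]
    · change ψ'.1 yF = (σ ^ i) (ψ.1 yF)
      rw [apply_yF_eq_equivX xF yF hgen φ r hr α₀ hy hcoeff htrans ψ,
        apply_yF_eq_equivX xF yF hgen φ r hr α₀ hy hcoeff htrans ψ', zpow_apply_r r σ π hπ, hi]

include hgen hr hy hcoeff htrans in
/-- the orbits of the trivial group. -/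
theorem card_orbits_bot :
    Nat.card (Quotient (orbitSetoidK K xF (φ xF) (⊥ : Subgroup (L ≃ₐ[K] L)))) =
      Fintype.card A := by
  rw [← card_embOver xF yF hgen φ r hr α₀ hy hcoeff htrans]
  refine Nat.card_congr (Equiv.ofBijective (Quotient.lift
    (s := orbitSetoidK K xF (φ xF) (⊥ : Subgroup (L ≃ₐ[K] L))) id ?_) ⟨?_, ?_⟩)
  · rintro ψ ψ' ⟨τ, hτ, h⟩
    rw [Subgroup.mem_bot] at hτ
    subst hτ
    apply Subtype.ext
    change ψ.1 = ψ'.1
    rw [h]
    ext z
    rfl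
  · intro q q' h
    induction q using Quotient.inductionOn
    induction q' using Quotient.inductionOn
    simp only [Quotient.lift_mk, id] at h
    rw [h]
  · intro ψ
    exact ⟨Quotient.mk _ ψ, rfl⟩

omit [Fintype A] [DecidableEq A] in
/-- if `L` is generated by `φ xF` and the `r α`, an automorphism fixing `φ xF` has the same order
as the permutation of `A` it induces. -/
theorem orderOf_eq_of_perm (hL : IntermediateField.adjoin K (insert (φ xF) (Set.range r)) = ⊤)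
    (hr : Function.Injective r)
    (σ : L ≃ₐ[K] L) (hσ : σ (φ xF) = φ xF) (π : Equiv.Perm A) (hπ : ∀ α, σ (r α) = r (π α)) :
    orderOf σ = orderOf π := by
  rw [orderOf_eq_orderOf_iff]
  intro n
  have hz := zpow_apply_r r σ π hπ (n : ℤ)
  rw [zpow_natCast, zpow_natCast] at hz
  have hx := zpow_apply_xF xF φ σ hσ (n : ℤ)
  rw [zpow_natCast] at hx
  constructor
  · intro h
    ext α
    have := hz α
    rw [h] at this
    exact (hr this).symm
  · intro h
    have : ((σ ^ n : L ≃ₐ[K] L) : L →ₐ[K] L) = AlgHom.id K L := by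
      refine algHom_ext_of_adjoin_eq_top hL ?_
      intro z hz'
      rcases hz' with rfl | ⟨α, rfl⟩
      · exact hx
      · change (σ ^ n) (r α) = r α
        rw [hz α, h]; rfl
    ext z
    exact DFunLike.congr_fun this z

omit [Fintype A] [DecidableEq A] in
theorem card_zpowers_eq_orderOf_perm
    (hL : IntermediateField.adjoin K (insert (φ xF) (Set.range r)) = ⊤)
    (hr : Function.Injective r)
    (σ : L ≃ₐ[K] L) (hσ : σ (φ xF) = φ xF) (π : Equiv.Perm A) (hπ : ∀ α, σ (r α) = r (π α)) :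
    Nat.card (Subgroup.zpowers σ) = orderOf π := by
  rw [Nat.card_zpowers, orderOf_eq_of_perm xF φ r hL hr σ hσ π hπ]

end Main

end Fermat.Agent.X0.AlgHomCount
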