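import Mathlib

/-!
# X0 cluster: counting the cycles of a permutation of prime order

For a permutation `π` of a finite type with `π ^ p = 1`, `p` prime:
`p * #cycles = #points + (p - 1) * #fixed points`, where the cycles are the classes of
`Equiv.Perm.SameCycle.setoid π` (fixed points included).
-/

set_option autoImplicit false

open Equiv Finset

namespace Fermat.Agent.X0

variable {Y : Type*}

theorem sameCycle_iff_exists_lt [Finite Y] {π : Perm Y} {p : ℕ} (hp : 0 < p) (hπ : π ^ p = 1)
    (x y : Y) : π.SameCycle x y ↔ ∃ i < p, (π ^ i) x = y := by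
  constructor
  · intro h
    obtain ⟨i, hi⟩ := h.exists_nat_pow_eq
    refine ⟨i % p, Nat.mod_lt _ hp, ?_⟩
    rw [← pow_eq_pow_mod i hπ, hi]
  · rintro ⟨i, -, hi⟩
    exact ⟨(i : ℤ), by rw [zpow_natCast]; exact hi⟩

theorem apply_eq_self_of_pow_apply_eq_self {π : Perm Y} {p d : ℕ} (hp : p.Prime) (hπ : π ^ p = 1)
    (hd0 : 0 < d) (hdp : d < p) {x : Y} (hx : (π ^ d) x = x) : π x = x := by
  have h1 : Function.IsPeriodicPt π d x := by
    rw [Function.IsPeriodicPt, Function.IsFixedPt, Equiv.Perm.iterate_eq_pow]; exact hx
  have h2 : Function.IsPeriodicPt π p x := by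
    rw [Function.IsPeriodicPt, Function.IsFixedPt, Equiv.Perm.iterate_eq_pow, hπ]; rfl
  have h3 := h1.gcd h2
  have hcop : Nat.gcd d p = 1 := by
    rw [Nat.gcd_comm]
    exact (Nat.Prime.coprime_iff_not_dvd hp).mpr (Nat.not_dvd_of_pos_of_lt hd0 hdp)
  rw [hcop] at h3
  simpa [Function.IsPeriodicPt, Function.IsFixedPt] using h3

theorem pow_apply_injOn_range {π : Perm Y} {p : ℕ} (hp : p.Prime) (hπ : π ^ p = 1) {x : Y}
    (hx : π x ≠ x) : Set.InjOn (fun i : ℕ => (π ^ i) x) ↑(range p) := by
  have key : ∀ i j : ℕ, i < j → j < p → (π ^ i) x = (π ^ j) x → False := by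
    intro i j hij hjp h
    apply hx
    apply apply_eq_self_of_pow_apply_eq_self hp hπ (d := j - i) (by omega) (by omega)
    have : (π ^ j) x = (π ^ i) ((π ^ (j - i)) x) := by
      rw [← Perm.mul_apply, ← pow_add, Nat.add_sub_cancel' hij.le]
    rw [this] at h
    exact ((π ^ i).injective h).symm
  intro i hi j hj h
  simp only [coe_range, Set.mem_Iio] at hi hj
  rcases lt_trichotomy i j with hlt | heq | hgt
  · exact (key i j hlt hj h).elim
  · exact heq
  · exact (key j i hgt hi h.symm).elim

/-- **Cycle count for a permutation of prime order.** -/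
theorem prime_mul_card_cycles [Fintype Y] [DecidableEq Y] (π : Perm Y) {p : ℕ} (hp : p.Prime)
    (hπ : π ^ p = 1) :
    p * Nat.card (Quotient (Perm.SameCycle.setoid π)) =
      Fintype.card Y + (p - 1) * Fintype.card {y : Y // π y = y} := by
  classical
  let _ : Fintype (Quotient (Perm.SameCycle.setoid π)) := Fintype.ofFinite _
  set q : Y → Quotient (Perm.SameCycle.setoid π) := Quotient.mk _ with hq
  have hqeq : ∀ x y, q x = q y ↔ π.SameCycle x y := fun x y => Quotient.eq
  set Fx : Finset Y := univ.filter (fun y => π y = y) with hFx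
  -- the fibres
  have hfibre : ∀ x : Y, (univ.filter fun y => q y = q x) =
      (range p).image (fun i : ℕ => (π ^ i) x) := by
    intro x
    ext y
    simp only [mem_filter, mem_univ, true_and, mem_image, mem_range]
    rw [hqeq, Perm.sameCycle_comm, sameCycle_iff_exists_lt hp.pos hπ]
  have hcard_fibre : ∀ t : Quotient (Perm.SameCycle.setoid π),
      (univ.filter fun y => q y = t).card = if t ∈ Fx.image q then 1 else p := by
    intro t
    obtain ⟨x, rfl⟩ := Quotient.exists_rep t
    show (univ.filter fun y => q y = q x).card = _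
    rw [hfibre]
    by_cases hx : π x = x
    · have hmem : q x ∈ Fx.image q := mem_image.mpr ⟨x, by simp [hFx, hx], rfl⟩
      rw [if_pos hmem]
      have : (range p).image (fun i : ℕ => (π ^ i) x) = {x} := by
        ext y
        simp only [mem_image, mem_range, mem_singleton]
        constructor
        · rintro ⟨i, -, rfl⟩
          exact Perm.pow_apply_eq_self_of_apply_eq_self hx i
        · rintro rfl
          exact ⟨0, hp.pos, by simp⟩
      rw [this, card_singleton]
    · have hmem : q x ∉ Fx.image q := by
        intro h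
        obtain ⟨y, hy, hyx⟩ := mem_image.mp h
        simp only [hFx, mem_filter, mem_univ, true_and] at hy
        rw [hqeq] at hyx
        obtain ⟨i, hi⟩ := hyx
        apply hx
        rw [← hi]
        have h1 := Perm.zpow_apply_eq_self_of_apply_eq_self hy i
        rw [h1, hy]
      rw [if_neg hmem, card_image_of_injOn (pow_apply_injOn_range hp hπ hx), card_range]
  -- `q` is injective on the fixed points
  have hinj : Set.InjOn q ↑Fx := by
    intro x hx y hy h
    simp only [hFx, coe_filter, mem_univ, true_and, Set.mem_ofPred_eq] at hx hy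
    rw [hqeq] at h
    obtain ⟨i, hi⟩ := h
    rw [← hi, Perm.zpow_apply_eq_self_of_apply_eq_self hx i]
  have hcardF : (Fx.image q).card = Fx.card := card_image_of_injOn hinj
  have hFxcard : Fx.card = Fintype.card {y : Y // π y = y} := by
    rw [Fintype.card_subtype]
  -- total count
  have htotal : Fintype.card Y = ∑ t : Quotient (Perm.SameCycle.setoid π),
      (univ.filter fun y => q y = t).card := by
    rw [← Finset.card_univ]
    exact Finset.card_eq_sum_card_fiberwise (fun _ _ => mem_univ _)
  rw [Nat.card_eq_fintype_card, htotal, Finset.sum_congr rfl (fun t _ => hcard_fibre t),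
    Finset.sum_ite, Finset.sum_const, Finset.sum_const, smul_eq_mul, smul_eq_mul, mul_one,
    ← hFxcard, ← hcardF]
  have h1 : (univ.filter fun t => t ∈ Fx.image q) = Fx.image q := by
    ext t; simp
  have h2 : (univ.filter fun t => t ∉ Fx.image q).card =
      Fintype.card (Quotient (Perm.SameCycle.setoid π)) - (Fx.image q).card := by
    have : (univ.filter fun t => t ∉ Fx.image q) = (Fx.image q)ᶜ := by
      ext t; simp
    rw [this, Finset.card_compl]
  have h3 : (Fx.image q).card ≤ Fintype.card (Quotient (Perm.SameCycle.setoid π)) := by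
    rw [← Finset.card_univ]; exact Finset.card_le_card (subset_univ _)
  rw [h1, h2]
  obtain ⟨k, hk⟩ : ∃ k, p = k + 1 := ⟨p - 1, (Nat.sub_add_cancel hp.pos).symm⟩
  rw [hk, Nat.add_sub_cancel]
  set a := (Fx.image q).card
  set c := Fintype.card (Quotient (Perm.SameCycle.setoid π))
  obtain ⟨m, hm⟩ : ∃ m, c = a + m := ⟨c - a, (Nat.add_sub_cancel' h3).symm⟩
  rw [hm, Nat.add_sub_cancel_left]
  ring

end Fermat.Agent.X0
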