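import Fermat.Agent.X0.Ana.DjHol
import Fermat.Agent.X0.Mod.ValInfty
import Fermat.Agent.X0.FF.PlacesOfEmb

/-!
# The dictionary between holomorphic differentials of `ℂ(j, j_N)` and weight two cusp forms

Let `F ⊆ MerH` be a function field over `ℂ` with generator `x = j` all of whose elements are
`Γ₀(N)`-invariant.  If `y ∈ F` satisfies the order conditions of a holomorphic differential `y dx`
(`ord_v y ≥ -(e_v - 1)` at the finite places, `ord_v y ≥ e_v + 1` at the poles of `x`), then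
`y · D j` is a weight two cusp form of level `Γ₀(N)`.
-/

set_option autoImplicit false
set_option linter.style.haveILetI false

open UpperHalfPlane ModularForm MatrixGroups Filter Function CongruenceSubgroup AlgebraicCurve
open scoped Real Topology Manifold WithZero

namespace Fermat.Agent.X0

section Finite

variable {F : IntermediateField ℂ MerH}

/-- The valuation of `F` given by the order at a point `τ₁`. -/
noncomputable def ordAtOn (F : IntermediateField ℂ MerH) (τ₁ : ℍ) : Valuation F ℤᵐ⁰ :=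
  (ordAt τ₁).comap (algebraMap F MerH)

theorem ordAtOn_apply (τ₁ : ℍ) (y : F) : ordAtOn F τ₁ y = ordAt τ₁ (y : MerH) := rfl

theorem ordAtOn_algebraMap_le_one (τ₁ : ℍ) (a : ℂ) : ordAtOn F τ₁ (algebraMap ℂ F a) ≤ 1 := by
  rw [ordAtOn_apply]
  by_cases ha : a = 0
  · subst ha
    simp
  · exact (ordAt_const τ₁ a ha).le

/-- **Finite points.** If `y` satisfies the order conditions of a holomorphic differential at
the finite places, then `y · D j` is regular at every point of `ℍ`. -/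
theorem ordAt_mul_DjM_le_one {x : F} (hx : (x : MerH) = xM) (h : IsFFGen ℂ x) (y : F)
    (hy : ∀ v : Place ℂ F, ¬ v.ord x < 0 → y = 0 ∨ -(ramIdx x v - 1) ≤ v.ord y) (τ₁ : ℍ) :
    ordAt τ₁ ((y : MerH) * DjM) ≤ 1 := by
  by_cases hy0 : y = 0
  · subst hy0
    simp
  have hu : ordAtOn F τ₁ (x - algebraMap ℂ F (jFun τ₁)) < 1 := by
    rw [ordAtOn_apply]
    have : ((x - algebraMap ℂ F (jFun τ₁) : F) : MerH) = xM - algebraMap ℂ MerH (jFun τ₁) := by
      rw [← hx]
      rfl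
    rw [this]
    exact ordAt_xM_sub_lt_one τ₁ _ rfl
  obtain ⟨v, hv, m, hm, hform⟩ :=
    h.exists_place_of_valuation' (ordAtOn F τ₁) (ordAtOn_algebraMap_le_one τ₁) (jFun τ₁) hu
  have hnp : ¬ v.ord x < 0 := by
    intro hp
    rw [ord_sub_const_of_ord_neg v hp (jFun τ₁)] at hv
    omega
  have he : ramIdx x v = v.ord (x - algebraMap ℂ F (jFun τ₁)) := ramIdx_of_centre hv
  have hyv : -(ramIdx x v - 1) ≤ v.ord y := (hy v hnp).resolve_left hy0
  have h1 := hform _ (h.sub_const_ne_zero (jFun τ₁))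
  have h2 := hform y hy0
  rw [ordAtOn_apply] at h1 h2
  have h3 : ((x - algebraMap ℂ F (jFun τ₁) : F) : MerH) = xM - algebraMap ℂ MerH (jFun τ₁) := by
    rw [← hx]
    rfl
  rw [h3, ordAt_xM_sub_eq_mul_ordAt_DjM] at h1
  -- `ordAt τ₁ DjM = exp (1 - m e)`
  have h4 : ordAt τ₁ DjM = WithZero.exp (1 - (m : ℤ) * v.ord (x - algebraMap ℂ F (jFun τ₁))) := by
    have : ordAt τ₁ DjM = WithZero.exp 1 * (WithZero.exp (-1) * ordAt τ₁ DjM) := by
      rw [← mul_assoc, ← WithZero.exp_add]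
      simp
    rw [this, h1, ← WithZero.exp_add]
    congr 1
  rw [map_mul, h2, h4, ← WithZero.exp_add, ← WithZero.exp_zero, WithZero.exp_le_exp]
  have hm' : (1 : ℤ) ≤ m := by exact_mod_cast hm
  rw [← he]
  nlinarith

end Finite

section Cusp

variable {N : ℕ} [NeZero N] {F : IntermediateField ℂ MerH}

/-- The embedding `y ↦ y ∘ δ` of `F` into the field of functions meromorphic at `i∞`. -/
noncomputable def cuspHom
    (hC1 : ∀ (δ : SL(2, ℤ)) (y : F), compSLMer δ (y : MerH) ∈ merInfField N) (δ : SL(2, ℤ)) :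
    F →ₐ[ℂ] merInfField N :=
  AlgHom.codRestrict ((compSLMer δ).toAlgHom.comp F.val)
    (merInfField N).toSubalgebra (fun y => hC1 δ y)

theorem coe_cuspHom (hC1 : ∀ (δ : SL(2, ℤ)) (y : F), compSLMer δ (y : MerH) ∈ merInfField N)
    (δ : SL(2, ℤ)) (y : F) : ((cuspHom hC1 δ y : merInfField N) : MerH) = compSLMer δ (y : MerH) :=
  rfl

/-- The valuation of `F` at the cusp `δ • ∞`. -/
noncomputable def wCusp
    (hC1 : ∀ (δ : SL(2, ℤ)) (y : F), compSLMer δ (y : MerH) ∈ merInfField N) (δ : SL(2, ℤ)) :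
    Valuation F ℤᵐ⁰ :=
  (wInfM N).comap (cuspHom hC1 δ : F →+* merInfField N)

theorem wCusp_apply (hC1 : ∀ (δ : SL(2, ℤ)) (y : F), compSLMer δ (y : MerH) ∈ merInfField N)
    (δ : SL(2, ℤ)) (y : F) : wCusp hC1 δ y = wInfM N (cuspHom hC1 δ y) := rfl

theorem wCusp_algebraMap_le_one
    (hC1 : ∀ (δ : SL(2, ℤ)) (y : F), compSLMer δ (y : MerH) ∈ merInfField N) (δ : SL(2, ℤ))
    (a : ℂ) : wCusp hC1 δ (algebraMap ℂ F a) ≤ 1 := by
  rw [wCusp_apply, AlgHom.commutes]
  exact wInfM_algebraMap_const_le a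

theorem wCusp_inv_x (hC1 : ∀ (δ : SL(2, ℤ)) (y : F), compSLMer δ (y : MerH) ∈ merInfField N)
    (δ : SL(2, ℤ)) {x : F} (hx : (x : MerH) = xM) :
    wCusp hC1 δ x⁻¹ = WithZero.exp (-(N : ℤ)) := by
  rw [map_inv₀, wCusp_apply]
  have : cuspHom hC1 δ x = (⟨xM, xM_mem_merInfField⟩ : merInfField N) := by
    apply Subtype.ext
    rw [coe_cuspHom, hx, compSLMer_xM]
  rw [this, wInfM_xM, WithZero.exp_neg]

/-- The weight two slash of a holomorphic function, as an element of `HolH`. -/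
noncomputable def slashH (g : HolH) (δ : SL(2, ℤ)) : HolH :=
  ⟨(g : ℍ → ℂ) ∣[(2 : ℤ)] δ, g.2.slash 2 _⟩

theorem slashH_apply (g : HolH) (δ : SL(2, ℤ)) :
    (slashH g δ : ℍ → ℂ) = (g : ℍ → ℂ) ∣[(2 : ℤ)] δ := rfl

theorem slashH_mul_denomH (g : HolH) (δ : SL(2, ℤ)) :
    slashH g δ * denomH δ ^ 2 = compSL δ g := by
  ext τ
  show ((g : ℍ → ℂ) ∣[(2 : ℤ)] δ) τ * denom δ τ ^ 2 = (g : ℍ → ℂ) (δ • τ)
  rw [SL_slash_apply]
  have hd : denom δ τ ≠ 0 := denom_ne_zero δ τ
  have e2 : denom δ τ ^ (-(2 : ℤ)) = (denom δ τ ^ 2)⁻¹ := by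
    rw [zpow_neg]
    rfl
  rw [e2]
  field_simp

theorem algebraMap_denomH_sq_ne_zero (δ : SL(2, ℤ)) :
    algebraMap HolH MerH (denomH δ ^ 2) ≠ 0 := by
  rw [Ne, map_eq_zero_iff _ (IsFractionRing.injective HolH MerH)]
  intro h
  have := congrFun (congrArg Subtype.val h) UpperHalfPlane.I
  exact pow_ne_zero 2 (denom_ne_zero δ UpperHalfPlane.I) this

/-- If `g = y · D j` in `MerH`, then `g ∣[2] δ = (y ∘ δ) · D j`. -/
theorem algebraMap_slashH (g : HolH) (Y : MerH) (hg : algebraMap HolH MerH g = Y * DjM)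
    (δ : SL(2, ℤ)) : algebraMap HolH MerH (slashH g δ) = compSLMer δ Y * DjM := by
  have h1 : algebraMap HolH MerH (slashH g δ) * algebraMap HolH MerH (denomH δ ^ 2)
      = compSLMer δ Y * DjM * algebraMap HolH MerH (denomH δ ^ 2) := by
    rw [← map_mul, slashH_mul_denomH, ← compSLMer_algebraMap, hg, map_mul, DjM,
      compSLMer_algebraMap, compSL_DjH, map_mul]
    ring
  exact mul_right_cancel₀ (algebraMap_denomH_sq_ne_zero δ) h1

/-- **Cusps.** If `y` satisfies the order conditions of a holomorphic differential at the poles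
of `x = j`, then `g = y · D j` vanishes at every cusp. -/
theorem isZeroAtImInfty_slash_of_ord_le
    (hC1 : ∀ (δ : SL(2, ℤ)) (y : F), compSLMer δ (y : MerH) ∈ merInfField N)
    (hC3mem : DjH ∈ merInfH N)
    (hC3 : wInfM N ⟨DjM, algebraMap_mem_merInfField hC3mem⟩ = WithZero.exp (N : ℤ))
    (hC4 : ∀ (G : HolH) (hG : algebraMap HolH MerH G ∈ merInfField N),
      wInfM N ⟨algebraMap HolH MerH G, hG⟩ < 1 → IsZeroAtImInfty (G : ℍ → ℂ))
    {x : F} (hx : (x : MerH) = xM) (h : IsFFGen ℂ x) (y : F)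
    (hy : ∀ v : Place ℂ F, v.ord x < 0 → y = 0 ∨ ramIdx x v + 1 ≤ v.ord y)
    (g : HolH) (hg : algebraMap HolH MerH g = (y : MerH) * DjM) (δ : SL(2, ℤ)) :
    IsZeroAtImInfty ((g : ℍ → ℂ) ∣[(2 : ℤ)] δ) := by
  have hN : (0 : ℤ) < N := by exact_mod_cast Nat.pos_of_ne_zero (NeZero.ne N)
  have halg := algebraMap_slashH g (y : MerH) hg δ
  have hDj : DjM ∈ merInfField N := algebraMap_mem_merInfField hC3mem
  have hG : algebraMap HolH MerH (slashH g δ) ∈ merInfField N := by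
    rw [halg]
    exact mul_mem (hC1 δ y) hDj
  refine hC4 (slashH g δ) hG ?_
  have hsplit : (⟨algebraMap HolH MerH (slashH g δ), hG⟩ : merInfField N)
      = cuspHom hC1 δ y * ⟨DjM, hDj⟩ := Subtype.ext halg
  rw [hsplit, map_mul, hC3, ← wCusp_apply]
  by_cases hy0 : y = 0
  · subst hy0
    rw [map_zero, zero_mul]
    exact zero_lt_one
  have hu : wCusp hC1 δ x⁻¹ < 1 := by
    rw [wCusp_inv_x hC1 δ hx, ← WithZero.exp_zero, WithZero.exp_lt_exp]
    omega
  obtain ⟨v, hv, m, hm, hform⟩ :=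
    h.exists_place_of_valuation_infty (wCusp hC1 δ) (wCusp_algebraMap_le_one hC1 δ) hu
  have he : ramIdx x v = - v.ord x := ramIdx_of_pole hv
  have hyv : ramIdx x v + 1 ≤ v.ord y := (hy v hv).resolve_left hy0
  have hx0 : x ≠ 0 := by
    intro hx0
    rw [hx0, Place.ord_zero] at hv
    exact lt_irrefl _ hv
  have h1 := hform x⁻¹ (inv_ne_zero hx0)
  rw [wCusp_inv_x hC1 δ hx, Place.ord_inv, WithZero.exp_inj] at h1
  rw [hform y hy0, ← WithZero.exp_add, ← WithZero.exp_zero, WithZero.exp_lt_exp]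
  have hm' : (1 : ℤ) ≤ m := by exact_mod_cast hm
  nlinarith

/-- **The dictionary.** Every `y ∈ F` satisfying the order conditions of a holomorphic
differential `y dx` is `f / D j` for a weight two cusp form `f` of level `Γ₀(N)`. -/
theorem exists_cuspForm_yOf_eq_of_ord_le
    (hC1 : ∀ (δ : SL(2, ℤ)) (y : F), compSLMer δ (y : MerH) ∈ merInfField N)
    (hC3mem : DjH ∈ merInfH N)
    (hC3 : wInfM N ⟨DjM, algebraMap_mem_merInfField hC3mem⟩ = WithZero.exp (N : ℤ))
    (hC4 : ∀ (G : HolH) (hG : algebraMap HolH MerH G ∈ merInfField N),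
      wInfM N ⟨algebraMap HolH MerH G, hG⟩ < 1 → IsZeroAtImInfty (G : ℍ → ℂ))
    (hinv : ∀ γ ∈ Gamma0 N, ∀ y : F, compSLMer γ (y : MerH) = y)
    {x : F} (hx : (x : MerH) = xM) (h : IsFFGen ℂ x) (y : F)
    (hy : ∀ v : Place ℂ F, y = 0 ∨
      (if v.ord x < 0 then ramIdx x v + 1 else -(ramIdx x v - 1)) ≤ v.ord y) :
    ∃ f : CuspForm (Gamma0 N) 2, yOf f = (y : MerH) := by
  refine exists_cuspForm_yOf_eq N (y : MerH) (fun γ hγ => hinv γ hγ y) ?_ ?_
  · refine ordAt_mul_DjM_le_one hx h y (fun v hv => ?_)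
    have := hy v
    rwa [if_neg hv] at this
  · intro g hg δ
    refine isZeroAtImInfty_slash_of_ord_le hC1 hC3mem hC3 hC4 hx h y (fun v hv => ?_) g hg δ
    have := hy v
    rwa [if_pos hv] at this

/-- **The dictionary, linear form.** The space of holomorphic differentials of `F` embeds into
the space of weight two cusp forms of level `Γ₀(N)`. -/
theorem exists_injective_linearMap_to_cuspForm
    (hC1 : ∀ (δ : SL(2, ℤ)) (y : F), compSLMer δ (y : MerH) ∈ merInfField N)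
    (hC3mem : DjH ∈ merInfH N)
    (hC3 : wInfM N ⟨DjM, algebraMap_mem_merInfField hC3mem⟩ = WithZero.exp (N : ℤ))
    (hC4 : ∀ (G : HolH) (hG : algebraMap HolH MerH G ∈ merInfField N),
      wInfM N ⟨algebraMap HolH MerH G, hG⟩ < 1 → IsZeroAtImInfty (G : ℍ → ℂ))
    (hinv : ∀ γ ∈ Gamma0 N, ∀ y : F, compSLMer γ (y : MerH) = y)
    {x : F} (hx : (x : MerH) = xM) (h : IsFFGen ℂ x) (V : Submodule ℂ F)
    (hV : ∀ y ∈ V, ∀ v : Place ℂ F, y = 0 ∨
      (if v.ord x < 0 then ramIdx x v + 1 else -(ramIdx x v - 1)) ≤ v.ord y) :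
    ∃ φ : V →ₗ[ℂ] CuspForm (Gamma0 N) 2, Function.Injective φ := by
  set ι : V →ₗ[ℂ] MerH := (F.val.toLinearMap).comp V.subtype with hι
  have hιinj : Function.Injective ι := by
    intro a b hab
    exact Subtype.ext (Subtype.ext hab)
  have hrange : ∀ y : V, ι y ∈ LinearMap.range (yOf (N := N)) := by
    intro y
    obtain ⟨f, hf⟩ := exists_cuspForm_yOf_eq_of_ord_le hC1 hC3mem hC3 hC4 hinv hx h (y : F)
      (hV y y.2)
    exact ⟨f, hf⟩
  set e := LinearEquiv.ofInjective (yOf (N := N)) yOf_injective with he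
  refine ⟨e.symm.toLinearMap.comp (ι.codRestrict (LinearMap.range (yOf (N := N))) hrange), ?_⟩
  rw [LinearMap.coe_comp]
  refine e.symm.injective.comp ?_
  intro a b hab
  apply hιinj
  have := congrArg Subtype.val hab
  exact this

/-- The dimension inequality. -/
theorem finrank_le_finrank_cuspForm [Module.Finite ℂ (CuspForm (Gamma0 N) 2)]
    (hC1 : ∀ (δ : SL(2, ℤ)) (y : F), compSLMer δ (y : MerH) ∈ merInfField N)
    (hC3mem : DjH ∈ merInfH N)
    (hC3 : wInfM N ⟨DjM, algebraMap_mem_merInfField hC3mem⟩ = WithZero.exp (N : ℤ))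
    (hC4 : ∀ (G : HolH) (hG : algebraMap HolH MerH G ∈ merInfField N),
      wInfM N ⟨algebraMap HolH MerH G, hG⟩ < 1 → IsZeroAtImInfty (G : ℍ → ℂ))
    (hinv : ∀ γ ∈ Gamma0 N, ∀ y : F, compSLMer γ (y : MerH) = y)
    {x : F} (hx : (x : MerH) = xM) (h : IsFFGen ℂ x) (V : Submodule ℂ F)
    (hV : ∀ y ∈ V, ∀ v : Place ℂ F, y = 0 ∨
      (if v.ord x < 0 then ramIdx x v + 1 else -(ramIdx x v - 1)) ≤ v.ord y) :
    Module.finrank ℂ V ≤ Module.finrank ℂ (CuspForm (Gamma0 N) 2) := by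
  obtain ⟨φ, hφ⟩ := exists_injective_linearMap_to_cuspForm hC1 hC3mem hC3 hC4 hinv hx h V hV
  exact LinearMap.finrank_le_finrank_of_injective hφ

end Cusp

end Fermat.Agent.X0
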