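import Fermat.Agent.X0.Mod.Reps
import Fermat.Agent.X0.Mod.CycleCount

/-!
# X0 cluster, package C2: fixed points and cycles of `S` and `S * T` on `A_N ≃ Γ0(N)\SL2(ℤ)`

* the `S`-fixed points of `A_N` are the `(1, b, N)` with `b² + 1 ≡ 0 mod N`; there are `ν₂(N)`;
* the `S * T`-fixed points are the `(1, b, N)` with `b² - b + 1 ≡ 0 mod N`; there are `ν₃(N)`;
* `2 * #(S-cycles) = ψ(N) + ν₂(N)` and `3 * #(ST-cycles) = ψ(N) + 2 ν₃(N)`.
-/

set_option autoImplicit false
set_option linter.unusedSectionVars false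

open Matrix ModularGroup
open scoped MatrixGroups

namespace Fermat.Agent.X0

lemma S_sq_eq_neg_one : (S : SL(2, ℤ)) ^ 2 = -1 := by
  ext i j
  fin_cases i <;> fin_cases j <;> simp [pow_two, coe_S, Matrix.mul_apply, Fin.sum_univ_two]

lemma coe_ST : ((S * T : SL(2, ℤ)) : Matrix (Fin 2) (Fin 2) ℤ) = !![0, -1; 1, 1] := by
  ext i j
  fin_cases i <;> fin_cases j <;> simp [coe_S, coe_T, Matrix.mul_apply, Fin.sum_univ_two]

lemma ST_cube_eq_neg_one : (S * T : SL(2, ℤ)) ^ 3 = -1 := by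
  ext i j
  simp only [pow_succ, pow_zero, one_mul, Matrix.SpecialLinearGroup.coe_mul,
    Matrix.SpecialLinearGroup.coe_neg, Matrix.SpecialLinearGroup.coe_one]
  fin_cases i <;> fin_cases j <;> simp [Matrix.mul_apply, Fin.sum_univ_two]

namespace CosetRep

variable {N : ℕ} [NeZero N]

/-- `-1` acts trivially. -/
@[simp] theorem act_neg_one (α : CosetRep N) : α.act (-1) = α :=
  act_eq_of_mul_eq (γ' := -1) (by simp)

theorem actPerm_neg_one : (actPerm (-1) : Equiv.Perm (CosetRep N)) = 1 :=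
  Equiv.ext fun α => by simp

theorem actPerm_S_sq : (actPerm S : Equiv.Perm (CosetRep N)) ^ 2 = 1 := by
  rw [← actPerm_pow, S_sq_eq_neg_one, actPerm_neg_one]

theorem actPerm_ST_cube : (actPerm (S * T) : Equiv.Perm (CosetRep N)) ^ 3 = 1 := by
  rw [← actPerm_pow, ST_cube_eq_neg_one, actPerm_neg_one]

lemma a_eq_one_of_dvd (α : CosetRep N) (hb : (α.a : ℤ) ∣ α.b) (hd : (α.a : ℤ) ∣ α.d) : α.a = 1 := by
  have h1 : α.a ∣ α.b := by exact_mod_cast hb
  have h2 : α.a ∣ α.d := by exact_mod_cast hd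
  have h3 : α.a ∣ Nat.gcd α.a (Nat.gcd α.b α.d) := Nat.dvd_gcd dvd_rfl (Nat.dvd_gcd h1 h2)
  rw [α.gcd_eq] at h3
  exact Nat.dvd_one.mp h3

lemma d_eq_of_a_eq_one {α : CosetRep N} (h : α.a = 1) : α.d = N := by
  have := α.mul_eq
  rwa [h, one_mul] at this

/-- The `S`-fixed points are the `(1, b, N)` with `N ∣ b² + 1`. -/
theorem act_S_eq_self_iff (α : CosetRep N) :
    α.act S = α ↔ α.a = 1 ∧ (N : ℤ) ∣ (α.b : ℤ) ^ 2 + 1 := by
  constructor
  · intro h
    have h1 := α.toMatrix_mul S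
    rw [h, coe_S] at h1
    set c := α.cofactor S with hc
    have h00 := congrFun (congrFun h1 0) 0
    have h01 := congrFun (congrFun h1 0) 1
    have h10 := congrFun (congrFun h1 1) 0
    simp only [Matrix.mul_apply, Fin.sum_univ_two, toMatrix_zero_zero, toMatrix_zero_one,
      toMatrix_one_zero, toMatrix_one_one, mul_zero, add_zero, Matrix.of_apply,
      Matrix.cons_val', Matrix.cons_val_zero, Matrix.cons_val_one, Matrix.cons_val_fin_one,
      mul_one, zero_add, mul_neg] at h00 h01 h10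
    have ha : α.a = 1 := a_eq_one_of_dvd α ⟨_, by rw [h00]; ring⟩ ⟨_, by rw [h10]; ring⟩
    refine ⟨ha, ?_⟩
    have hd := d_eq_of_a_eq_one ha
    rw [ha, Nat.cast_one, mul_one] at h00
    rw [ha, Nat.cast_one, hd, ← h00] at h01
    exact ⟨-(c : Matrix (Fin 2) (Fin 2) ℤ) 0 1, by linarith⟩
  · rintro ⟨ha, m, hm⟩
    have hd := d_eq_of_a_eq_one ha
    apply act_eq_of_mul_eq
      (γ' := ⟨!![(α.b : ℤ), -m; (N : ℤ), -(α.b : ℤ)], by rw [det_fin_two_of]; linarith⟩)
    rw [coe_S]
    ext i j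
    fin_cases i <;> fin_cases j <;>
      simp [Matrix.mul_apply, Fin.sum_univ_two, toMatrix, ha, hd] <;> linarith

/-- The `S * T`-fixed points are the `(1, b, N)` with `N ∣ b² - b + 1`. -/
theorem act_ST_eq_self_iff (α : CosetRep N) :
    α.act (S * T) = α ↔ α.a = 1 ∧ (N : ℤ) ∣ (α.b : ℤ) ^ 2 - α.b + 1 := by
  constructor
  · intro h
    have h1 := α.toMatrix_mul (S * T)
    rw [h, coe_ST] at h1
    set c := α.cofactor (S * T) with hc
    have h00 := congrFun (congrFun h1 0) 0
    have h01 := congrFun (congrFun h1 0) 1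
    have h10 := congrFun (congrFun h1 1) 0
    simp only [Matrix.mul_apply, Fin.sum_univ_two, toMatrix_zero_zero, toMatrix_zero_one,
      toMatrix_one_zero, toMatrix_one_one, mul_zero, add_zero, Matrix.of_apply,
      Matrix.cons_val', Matrix.cons_val_zero, Matrix.cons_val_one, Matrix.cons_val_fin_one,
      mul_one, zero_add, mul_neg] at h00 h01 h10
    have ha : α.a = 1 := a_eq_one_of_dvd α ⟨_, by rw [h00]; ring⟩ ⟨_, by rw [h10]; ring⟩
    refine ⟨ha, ?_⟩
    have hd := d_eq_of_a_eq_one ha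
    rw [ha, Nat.cast_one, mul_one] at h00
    rw [ha, Nat.cast_one, hd, ← h00] at h01
    exact ⟨-(c : Matrix (Fin 2) (Fin 2) ℤ) 0 1, by linarith⟩
  · rintro ⟨ha, m, hm⟩
    have hd := d_eq_of_a_eq_one ha
    apply act_eq_of_mul_eq
      (γ' := ⟨!![(α.b : ℤ), -m; (N : ℤ), 1 - (α.b : ℤ)], by rw [det_fin_two_of]; linarith⟩)
    rw [coe_ST]
    ext i j
    fin_cases i <;> fin_cases j <;>
      simp [Matrix.mul_apply, Fin.sum_univ_two, toMatrix, ha, hd] <;> linarith

end CosetRep


namespace CosetRep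

variable {N : ℕ} [NeZero N]

/-- The representative `(1, b, N)`. -/
def ofResidue (N : ℕ) [NeZero N] (x : ZMod N) : CosetRep N where
  a := 1
  b := x.val
  d := N
  mul_eq := one_mul N
  b_lt := ZMod.val_lt x
  gcd_eq := Nat.gcd_one_left _

lemma natCast_b_val {α : CosetRep N} (ha : α.a = 1) : ((α.b : ZMod N)).val = α.b := by
  apply ZMod.val_natCast_of_lt
  have := α.b_lt
  rwa [d_eq_of_a_eq_one ha] at this

lemma ofResidue_natCast_b {α : CosetRep N} (ha : α.a = 1) : ofResidue N (α.b : ZMod N) = α := by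
  ext
  · exact ha.symm
  · exact natCast_b_val ha
  · exact (d_eq_of_a_eq_one ha).symm

/-- `S`-fixed points of `A_N` ↔ solutions of `x² + 1 = 0` in `ZMod N`. -/
noncomputable def fixedSEquiv : {α : CosetRep N // α.act S = α} ≃ {x : ZMod N // x ^ 2 + 1 = 0} where
  toFun α := ⟨(α.1.b : ZMod N), by
    obtain ⟨_, h⟩ := (act_S_eq_self_iff α.1).mp α.2
    have := (ZMod.intCast_zmod_eq_zero_iff_dvd _ N).mpr h
    push_cast at this
    exact this⟩
  invFun x := ⟨ofResidue N x.1, by
    rw [act_S_eq_self_iff]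
    refine ⟨rfl, ?_⟩
    apply (ZMod.intCast_zmod_eq_zero_iff_dvd _ N).mp
    push_cast
    simp only [ofResidue, ZMod.natCast_val, ZMod.cast_id', id_eq]
    exact x.2⟩
  left_inv α := by
    apply Subtype.ext
    exact ofResidue_natCast_b ((act_S_eq_self_iff α.1).mp α.2).1
  right_inv x := by
    apply Subtype.ext
    simp [ofResidue]

/-- `S * T`-fixed points of `A_N` ↔ solutions of `x² + x + 1 = 0` in `ZMod N` (`x = -b`). -/
noncomputable def fixedSTEquiv :
    {α : CosetRep N // α.act (S * T) = α} ≃ {x : ZMod N // x ^ 2 + x + 1 = 0} where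
  toFun α := ⟨-(α.1.b : ZMod N), by
    obtain ⟨_, h⟩ := (act_ST_eq_self_iff α.1).mp α.2
    have := (ZMod.intCast_zmod_eq_zero_iff_dvd _ N).mpr h
    push_cast at this
    rw [← this]; ring⟩
  invFun x := ⟨ofResidue N (-x.1), by
    rw [act_ST_eq_self_iff]
    refine ⟨rfl, ?_⟩
    apply (ZMod.intCast_zmod_eq_zero_iff_dvd _ N).mp
    push_cast
    simp only [ofResidue, ZMod.natCast_val, ZMod.cast_id', id_eq]
    have hx := x.2
    linear_combination hx⟩
  left_inv α := by
    apply Subtype.ext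
    simp only [neg_neg]
    exact ofResidue_natCast_b ((act_ST_eq_self_iff α.1).mp α.2).1
  right_inv x := by
    apply Subtype.ext
    simp [ofResidue]

/-- The number of `S`-fixed points of `A_N` is `ν₂(N)`. -/
theorem card_fixed_S : Nat.card {α : CosetRep N // α.act S = α} = ModularCurve.nuTwo N :=
  Nat.card_congr fixedSEquiv

/-- The number of `S * T`-fixed points of `A_N` is `ν₃(N)`. -/
theorem card_fixed_ST : Nat.card {α : CosetRep N // α.act (S * T) = α} = ModularCurve.nuThree N :=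
  Nat.card_congr fixedSTEquiv

/-- **`2 * #(S-cycles on A_N) = ψ(N) + ν₂(N)`.** -/
theorem two_mul_card_cycles_S :
    2 * Nat.card (Quotient (Equiv.Perm.SameCycle.setoid (actPerm S : Equiv.Perm (CosetRep N)))) =
      ModularCurve.dedekindPsi N + ModularCurve.nuTwo N := by
  have h := prime_mul_card_cycles (actPerm S : Equiv.Perm (CosetRep N)) Nat.prime_two actPerm_S_sq
  rw [h, card_rep, ← Nat.card_eq_fintype_card]
  simp only [actPerm_apply, Nat.add_one_sub_one, one_mul]
  rw [card_fixed_S]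

/-- **`3 * #(ST-cycles on A_N) = ψ(N) + 2 ν₃(N)`.** -/
theorem three_mul_card_cycles_ST :
    3 * Nat.card (Quotient (Equiv.Perm.SameCycle.setoid
      (actPerm (S * T) : Equiv.Perm (CosetRep N)))) =
      ModularCurve.dedekindPsi N + 2 * ModularCurve.nuThree N := by
  have h := prime_mul_card_cycles (actPerm (S * T) : Equiv.Perm (CosetRep N)) Nat.prime_three
    actPerm_ST_cube
  rw [h, card_rep, ← Nat.card_eq_fintype_card]
  simp only [actPerm_apply]
  rw [card_fixed_ST]

end CosetRep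

end Fermat.Agent.X0
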