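/-
Generic extension of an injective "expansion" homomorphism `ex : R →ₐ[ℂ] T` defined on a
subalgebra `R ≤ HolH` to the fraction field of `R`, realised as a subfield `merField R` of `MerH`.
-/
import Mathlib
import Fermat.Agent.X0.Ana.HolRing

set_option autoImplicit false

namespace Fermat.Agent.X0.FracExtend

open Fermat.Agent.X0

variable (R : Subalgebra ℂ HolH)

/-- The inclusion `R → MerH`. -/
noncomputable def inclMer : R →ₐ[ℂ] MerH :=
  (IsScalarTower.toAlgHom ℂ HolH MerH).comp R.val

theorem inclMer_apply (f : R) : inclMer R f = algebraMap HolH MerH (f : HolH) := rfl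

theorem inclMer_injective : Function.Injective (inclMer R) := by
  intro f g h
  exact Subtype.ext (IsFractionRing.injective HolH MerH h)

/-- `Frac R → MerH`. -/
noncomputable def toMer : FractionRing R →ₐ[ℂ] MerH :=
  IsFractionRing.liftAlgHom (R := ℂ) (A := R) (K := FractionRing R) (L := MerH) (g := inclMer R)
    (inclMer_injective R)

@[simp]
theorem toMer_algebraMap (f : R) :
    toMer R (algebraMap R (FractionRing R) f) = algebraMap HolH MerH (f : HolH) := by
  rw [toMer, IsFractionRing.liftAlgHom_apply, IsFractionRing.lift_algebraMap]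
  rfl

theorem toMer_injective : Function.Injective (toMer R) := (toMer R).toRingHom.injective

/-- The subfield of `MerH` of quotients of elements of `R`. -/
noncomputable def merField : IntermediateField ℂ MerH := (toMer R).fieldRange

theorem mem_merField {m : MerH} : m ∈ merField R ↔ ∃ y, toMer R y = m := Iff.rfl

theorem algebraMap_mem_merField (f : R) : algebraMap HolH MerH (f : HolH) ∈ merField R :=
  ⟨algebraMap R (FractionRing R) f, toMer_algebraMap R f⟩

/-- `Frac R ≃ merField R`. -/
noncomputable def toMerEquiv : FractionRing R ≃ₐ[ℂ] merField R :=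
  AlgEquiv.ofBijective
    ((toMer R).codRestrict (merField R).toSubalgebra fun y => ⟨y, rfl⟩)
    ⟨fun _ _ h => toMer_injective R (congrArg Subtype.val h), fun ⟨_, y, hy⟩ =>
      ⟨y, Subtype.ext hy⟩⟩

@[simp]
theorem coe_toMerEquiv (y : FractionRing R) : ((toMerEquiv R y : merField R) : MerH) = toMer R y :=
  rfl

variable {R}
variable {T : Type*} [Field T] [Algebra ℂ T] (ex : R →ₐ[ℂ] T) (hex : Function.Injective ex)

/-- The extension of `ex` to `Frac R`. -/
noncomputable def exFrac : FractionRing R →ₐ[ℂ] T :=
  IsFractionRing.liftAlgHom (R := ℂ) (A := R) (K := FractionRing R) (L := T) (g := ex) hex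

@[simp]
theorem exFrac_algebraMap (f : R) : exFrac ex hex (algebraMap R (FractionRing R) f) = ex f := by
  rw [exFrac, IsFractionRing.liftAlgHom_apply, IsFractionRing.lift_algebraMap]
  rfl

/-- The extension of `ex` to the subfield `merField R` of `MerH`. -/
noncomputable def exMer : merField R →ₐ[ℂ] T :=
  (exFrac ex hex).comp (toMerEquiv R).symm.toAlgHom

theorem exMer_toMerEquiv (y : FractionRing R) : exMer ex hex (toMerEquiv R y) = exFrac ex hex y := by
  simp [exMer]

theorem exMer_algebraMap (f : R) (h : algebraMap HolH MerH (f : HolH) ∈ merField R) :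
    exMer ex hex ⟨algebraMap HolH MerH (f : HolH), h⟩ = ex f := by
  have : (⟨algebraMap HolH MerH (f : HolH), h⟩ : merField R)
      = toMerEquiv R (algebraMap R (FractionRing R) f) :=
    Subtype.ext (toMer_algebraMap R f).symm
  rw [this, exMer_toMerEquiv, exFrac_algebraMap]

theorem exMer_injective : Function.Injective (exMer ex hex) := (exMer ex hex).toRingHom.injective

/-- Equivariance: if an endomorphism `g` of `MerH` restricts to an endomorphism `c` of `R` and
`ex ∘ c = tw ∘ ex`, then `g` preserves `merField R` and `exMer ∘ g = tw ∘ exMer`. -/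
theorem exists_exMer_comp (g : MerH →ₐ[ℂ] MerH) (c : R →ₐ[ℂ] R)
    (hgc : ∀ f : R, g (algebraMap HolH MerH (f : HolH)) = algebraMap HolH MerH (c f : HolH))
    (tw : T →ₐ[ℂ] T) (htw : ∀ f : R, ex (c f) = tw (ex f)) (m : merField R) :
    ∃ h : g (m : MerH) ∈ merField R, exMer ex hex ⟨g m, h⟩ = tw (exMer ex hex m) := by
  have hc : Function.Injective c := by
    intro f₁ f₂ h
    have h1 : g (algebraMap HolH MerH (f₁ : HolH)) = g (algebraMap HolH MerH (f₂ : HolH)) := by
      rw [hgc, hgc, h]
    exact Subtype.ext (IsFractionRing.injective HolH MerH (g.toRingHom.injective h1))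
  have hc' : Function.Injective ((IsScalarTower.toAlgHom ℂ R (FractionRing R)).comp c) :=
    (IsFractionRing.injective R (FractionRing R)).comp hc
  let cF : FractionRing R →ₐ[ℂ] FractionRing R :=
    IsFractionRing.liftAlgHom (R := ℂ) (A := R) (K := FractionRing R) (L := FractionRing R)
      (g := (IsScalarTower.toAlgHom ℂ R (FractionRing R)).comp c) hc'
  have hcF : ∀ f : R, cF (algebraMap R (FractionRing R) f) = algebraMap R (FractionRing R) (c f) := by
    intro f
    show IsFractionRing.liftAlgHom hc' _ = _
    rw [IsFractionRing.liftAlgHom_apply, IsFractionRing.lift_algebraMap]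
    rfl
  have h1 : (g.comp (toMer R)).toRingHom = ((toMer R).comp cF).toRingHom := by
    apply IsFractionRing.ringHom_ext (A := R)
    intro f
    show g (toMer R (algebraMap R (FractionRing R) f)) = toMer R (cF (algebraMap R _ f))
    rw [toMer_algebraMap, hcF, toMer_algebraMap, hgc]
  have h2 : ((exFrac ex hex).comp cF).toRingHom = (tw.comp (exFrac ex hex)).toRingHom := by
    apply IsFractionRing.ringHom_ext (A := R)
    intro f
    show exFrac ex hex (cF (algebraMap R _ f)) = tw (exFrac ex hex (algebraMap R _ f))
    rw [hcF, exFrac_algebraMap, exFrac_algebraMap, htw]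
  obtain ⟨y, rfl⟩ : ∃ y, toMerEquiv R y = m := (toMerEquiv R).surjective m
  have h3 : g (toMer R y) = toMer R (cF y) := RingHom.congr_fun h1 y
  have hmem : g ((toMerEquiv R y : merField R) : MerH) ∈ merField R :=
    ⟨cF y, h3.symm⟩
  refine ⟨hmem, ?_⟩
  have : (⟨g ((toMerEquiv R y : merField R) : MerH), hmem⟩ : merField R)
      = toMerEquiv R (cF y) := Subtype.ext h3
  rw [this, exMer_toMerEquiv, exMer_toMerEquiv]
  exact RingHom.congr_fun h2 y

end Fermat.Agent.X0.FracExtend
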