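import Fermat.Agent.X0.Mod.ValInfty
import Fermat.Agent.X0.Ana.MerInfDiv

/-!
# Holomorphic functions in `merInfField N`

A holomorphic function on `ℍ` lying in the fraction field of `merInfH N` lies in `merInfH N`; its
behaviour at `i∞` (bounded / zero) can be read off from the valuation `wInfM N`.
-/

set_option autoImplicit false

noncomputable section

namespace Fermat.Agent.X0

open WithZero
open UpperHalfPlane hiding I
open scoped MatrixGroups

variable {N : ℕ} [NeZero N]

/-- `HolH ∩ Frac (merInfH N) = merInfH N`. -/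
theorem mem_merInfH_of_mem_merInfField {h : HolH}
    (hh : algebraMap HolH MerH h ∈ merInfField N) : h ∈ merInfH N := by
  obtain ⟨a, b, ha, hb, hb0, hm⟩ := exists_eq_div_of_mem_merInfField ⟨_, hh⟩
  have hbM : algebraMap HolH MerH b ≠ 0 := by
    intro h0
    exact hb0 (IsFractionRing.injective HolH MerH (h0.trans (map_zero _).symm))
  have h1 : algebraMap HolH MerH (h * b) = algebraMap HolH MerH a := by
    rw [map_mul]
    have : algebraMap HolH MerH h = algebraMap HolH MerH a / algebraMap HolH MerH b := hm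
    rw [this, div_mul_cancel₀ _ hbM]
  have h2 : h * b = a := IsFractionRing.injective HolH MerH h1
  exact mem_merInfH_of_mul_mem hb hb0 (h2 ▸ ha)

theorem coeff_eq_zero_of_wInfM_le {h : HolH} (hh : h ∈ merInfH N) {D : ℤ}
    (hw : wInfM N ⟨algebraMap HolH MerH h, algebraMap_mem_merInfField hh⟩ ≤ exp (-D)) (n : ℤ)
    (hn : n < D) : (expandFun N (h : ℍ → ℂ)).coeff n = 0 := by
  rw [wInfM_apply, expandMer_algebraMap hh] at hw
  exact (LaurentSeries.valuation_le_iff_coeff_lt_eq_zero ℂ).mp hw n hn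

/-- A holomorphic function of `wInfM`-valuation `≤ 1` is bounded at `i∞`. -/
theorem isBoundedAtImInfty_of_wInfM_le_one {h : HolH} (hh : h ∈ merInfH N)
    (hw : wInfM N ⟨algebraMap HolH MerH h, algebraMap_mem_merInfField hh⟩ ≤ 1) :
    IsBoundedAtImInfty (h : ℍ → ℂ) := by
  have hN : 0 < N := Nat.pos_of_ne_zero (NeZero.ne N)
  have hw' : wInfM N ⟨algebraMap HolH MerH h, algebraMap_mem_merInfField hh⟩ ≤ exp (-(0 : ℤ)) := by
    simpa using hw
  exact ((mem_merInfH.mp hh).isHolInf_of_coeff_neg hN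
    fun k hk => coeff_eq_zero_of_wInfM_le hh hw' k hk).bdd

/-- A holomorphic function of `wInfM`-valuation `≤ exp (-1)` vanishes at `i∞`. -/
theorem isZeroAtImInfty_of_wInfM_le {h : HolH} (hh : h ∈ merInfH N)
    (hw : wInfM N ⟨algebraMap HolH MerH h, algebraMap_mem_merInfField hh⟩ ≤ exp (-(1 : ℤ))) :
    IsZeroAtImInfty (h : ℍ → ℂ) := by
  have hN : 0 < N := Nat.pos_of_ne_zero (NeZero.ne N)
  exact (mem_merInfH.mp hh).isZeroAtImInfty_of_coeff_nonpos hN
    fun k hk => coeff_eq_zero_of_wInfM_le hh hw k (by omega)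

end Fermat.Agent.X0
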